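import Mathlib

set_option autoImplicit false

namespace Fermat.Agent.S22Aux

/-- General finiteness criterion: a ring of operators on `S`, which is intertwined (through a jointly
injective family of additive maps into a torsion-free group `W`) with operators on `W` that preserve
a finitely generated lattice `Λ` containing a multiple of every image vector, is a finite `ℤ`-module. -/
theorem finite_adjoin_of_lattice
    {R : Type*} [CommRing R] {S : Type*} [AddCommGroup S] [Module R S]
    {W : Type*} [AddCommGroup W] [IsAddTorsionFree W]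
    (Λ : Submodule ℤ W) (hΛ : Λ.FG)
    {J : Type*} (ψ : J → S →+ W)
    (hψ : ∀ s, (∀ j, ψ j s = 0) → s = 0)
    (hden : ∀ j s, ∃ m : ℕ, m ≠ 0 ∧ m • ψ j s ∈ Λ)
    (gens : Set (Module.End R S))
    (hgens : ∀ t ∈ gens, ∃ τ : W →ₗ[ℤ] W, (∀ w ∈ Λ, τ w ∈ Λ) ∧ ∀ j s, ψ j (t s) = τ (ψ j s)) :
    Module.Finite ℤ (Algebra.adjoin ℤ gens) := by
  classical
  choose τ hτΛ hτψ using hgens
  let X := ↥gens
  let φS : FreeAlgebra ℤ X →ₐ[ℤ] Module.End R S := FreeAlgebra.lift ℤ (fun x => x.1)
  let τΛ : X → Module.End ℤ Λ := fun x => (τ x.1 x.2).restrict (hτΛ x.1 x.2)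
  let φΛ : FreeAlgebra ℤ X →ₐ[ℤ] Module.End ℤ Λ := FreeAlgebra.lift ℤ τΛ
  let φW : FreeAlgebra ℤ X →ₐ[ℤ] Module.End ℤ W := FreeAlgebra.lift ℤ (fun x => τ x.1 x.2)
  have h1 : ∀ (p : FreeAlgebra ℤ X) (c : Λ), ((φΛ p c : Λ) : W) = φW p c := by
    intro p
    induction p using FreeAlgebra.induction with
    | grade0 r => intro c; simp [Algebra.algebraMap_eq_smul_one]
    | grade1 x => intro c; simp [φΛ, φW, τΛ]
    | mul a b ha hb => intro c; simp [ha, hb]
    | add a b ha hb => intro c; simp [ha, hb]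
  have h2 : ∀ (p : FreeAlgebra ℤ X) (j : J) (s : S), ψ j (φS p s) = φW p (ψ j s) := by
    intro p
    induction p using FreeAlgebra.induction with
    | grade0 r => intro j s; simp [Algebra.algebraMap_eq_smul_one]
    | grade1 x => intro j s; simp [φS, φW, hτψ]
    | mul a b ha hb => intro j s; simp [ha, hb]
    | add a b ha hb => intro j s; simp [ha, hb]
  have h3 : LinearMap.ker φΛ.toLinearMap ≤ LinearMap.ker φS.toLinearMap := by
    intro p hp
    rw [LinearMap.mem_ker] at hp ⊢
    have hp' : φΛ p = 0 := hp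
    show φS p = 0
    ext s
    apply hψ
    intro j
    obtain ⟨m, hm, hmem⟩ := hden j s
    have h4 : φW p (m • ψ j s) = 0 := by
      have := h1 p ⟨_, hmem⟩
      rw [hp'] at this
      simpa using this.symm
    rw [map_nsmul] at h4
    have h5 : φW p (ψ j s) = 0 := by
      have := (nsmul_right_injective hm) (a₁ := φW p (ψ j s)) (a₂ := 0) (by simpa using h4)
      exact this
    simpa [h2] using h5
  haveI : Module.Finite ℤ Λ := Module.Finite.iff_fg.mpr hΛ
  haveI : Module.Free ℤ Λ := Module.free_of_finite_type_torsion_free'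
  haveI : Module.Finite ℤ (Module.End ℤ Λ) := Module.Finite.linearMap ℤ ℤ Λ Λ
  haveI : IsNoetherian ℤ (Module.End ℤ Λ) := isNoetherian_of_isNoetherianRing_of_finite ℤ _
  haveI : Module.Finite ℤ (LinearMap.range φΛ.toLinearMap) :=
    Module.Finite.iff_fg.mpr (IsNoetherian.noetherian _)
  haveI : Module.Finite ℤ (FreeAlgebra ℤ X ⧸ LinearMap.ker φΛ.toLinearMap) :=
    Module.Finite.equiv (LinearMap.quotKerEquivRange φΛ.toLinearMap).symm
  let L := (LinearMap.ker φΛ.toLinearMap).liftQ φS.toLinearMap h3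
  have hL : LinearMap.range L = Subalgebra.toSubmodule (Algebra.adjoin ℤ gens) := by
    have : Algebra.adjoin ℤ gens = φS.range := by
      have := Algebra.adjoin_range_eq_range_freeAlgebra_lift ℤ X (fun x : X => x.1)
      rwa [Subtype.range_coe] at this
    rw [this, Submodule.range_liftQ]
    rfl
  have : Module.Finite ℤ (LinearMap.range L) := Module.Finite.range L
  rw [hL] at this
  exact this

end Fermat.Agent.S22Aux
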