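import Mathlib

set_option autoImplicit false

open Finset Polynomial

namespace Fermat.Agent.S22Aux

/-- Homogeneous polynomial functions of degree `n` in two variables. -/
def HP {R : Type*} [CommRing R] (n : ℕ) (P : R → R → R) : Prop :=
  ∃ a : ℕ → R, ∀ x y, P x y = ∑ i ∈ range (n + 1), a i * x ^ i * y ^ (n - i)

namespace HP

variable {R : Type*} [CommRing R] {n : ℕ} {P Q : R → R → R}

theorem const (c : R) : HP 0 (fun _ _ => c) := ⟨fun _ => c, fun x y => by simp⟩

theorem add (hP : HP n P) (hQ : HP n Q) : HP n (fun x y => P x y + Q x y) := by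
  obtain ⟨a, ha⟩ := hP
  obtain ⟨b, hb⟩ := hQ
  refine ⟨fun i => a i + b i, fun x y => ?_⟩
  beta_reduce
  rw [ha, hb, ← sum_add_distrib]
  exact sum_congr rfl fun i _ => by ring

theorem const_mul (c : R) (hP : HP n P) : HP n (fun x y => c * P x y) := by
  obtain ⟨a, ha⟩ := hP
  refine ⟨fun i => c * a i, fun x y => ?_⟩
  beta_reduce
  rw [ha, mul_sum]
  exact sum_congr rfl fun i _ => by ring

theorem mul_const (c : R) (hP : HP n P) : HP n (fun x y => P x y * c) := by
  simpa [mul_comm] using hP.const_mul c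

theorem neg (hP : HP n P) : HP n (fun x y => - P x y) := by
  simpa using hP.const_mul (-1)

theorem sub (hP : HP n P) (hQ : HP n Q) : HP n (fun x y => P x y - Q x y) := by
  simpa [sub_eq_add_neg] using hP.add hQ.neg

theorem mul_x (hP : HP n P) : HP (n + 1) (fun x y => x * P x y) := by
  obtain ⟨a, ha⟩ := hP
  refine ⟨fun i => if i = 0 then 0 else a (i - 1), fun x y => ?_⟩
  beta_reduce
  rw [ha, sum_range_succ' _ (n + 1), mul_sum]
  simp only [if_true, zero_mul, add_zero, Nat.add_eq_zero_iff, one_ne_zero, and_false, if_false,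
    Nat.add_sub_cancel, Nat.add_sub_add_right]
  exact sum_congr rfl fun i _ => by ring

theorem mul_y (hP : HP n P) : HP (n + 1) (fun x y => y * P x y) := by
  obtain ⟨a, ha⟩ := hP
  refine ⟨fun i => if i ≤ n then a i else 0, fun x y => ?_⟩
  beta_reduce
  rw [ha, sum_range_succ _ (n + 1), mul_sum]
  simp only [Nat.add_one_le_iff, lt_irrefl, if_false, zero_mul, add_zero]
  refine sum_congr rfl fun i hi => ?_
  have hi' : i ≤ n := Nat.lt_succ_iff.mp (mem_range.mp hi)
  rw [if_pos hi', Nat.succ_sub hi', pow_succ]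
  ring

theorem mul_linear (α β : R) (hP : HP n P) : HP (n + 1) (fun x y => (α * x + β * y) * P x y) := by
  have := (hP.mul_x.const_mul α).add (hP.mul_y.const_mul β)
  refine (iff_of_eq (congrArg (HP (n + 1)) ?_)).mp this
  funext x y
  ring

theorem linear_pow (α β : R) (n : ℕ) : HP n (fun x y => (α * x + β * y) ^ n) := by
  induction n with
  | zero => simpa using const (1 : R)
  | succ n ih =>
    have := ih.mul_linear α β
    refine (iff_of_eq (congrArg (HP (n + 1)) ?_)).mp this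
    funext x y
    ring

end HP

/-- the polynomial attached to a coefficient sequence -/
noncomputable def coeffPoly {R : Type*} [CommRing R] (n : ℕ) (a : ℕ → R) : R[X] :=
  ∑ i ∈ range (n + 1), C (a i) * X ^ i

theorem coeffPoly_eval {R : Type*} [CommRing R] (n : ℕ) (a : ℕ → R) (x : R) :
    (coeffPoly n a).eval x = ∑ i ∈ range (n + 1), a i * x ^ i * 1 ^ (n - i) := by
  simp [coeffPoly, eval_finsetSum]

theorem coeffPoly_coeff {R : Type*} [CommRing R] (n : ℕ) (a : ℕ → R) {i : ℕ} (hi : i ≤ n) :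
    (coeffPoly n a).coeff i = a i := by
  simp only [coeffPoly, finsetSum_coeff, coeff_C_mul, coeff_X_pow]
  rw [sum_eq_single i]
  · simp
  · intro j _ hj
    simp [Ne.symm hj]
  · intro h
    exact absurd (mem_range.mpr (Nat.lt_succ_of_le hi)) h

theorem coeffPoly_natDegree_le {R : Type*} [CommRing R] (n : ℕ) (a : ℕ → R) :
    (coeffPoly n a).natDegree ≤ n := by
  apply natDegree_sum_le_of_forall_le
  intro i hi
  exact (natDegree_C_mul_X_pow_le _ _).trans (Nat.lt_succ_iff.mp (mem_range.mp hi))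

theorem sum_eq_zero_of_coeffPoly_eq_zero {R : Type*} [CommRing R] (n : ℕ) (a : ℕ → R)
    (h : coeffPoly n a = 0) (x y : R) :
    ∑ i ∈ range (n + 1), a i * x ^ i * y ^ (n - i) = 0 := by
  apply sum_eq_zero
  intro i hi
  have : a i = 0 := by
    rw [← coeffPoly_coeff n a (Nat.lt_succ_iff.mp (mem_range.mp hi)), h, coeff_zero]
  simp [this]

/-- A homogeneous polynomial function over `ℂ` vanishing at all integer points vanishes. -/
theorem HP.eq_zero_of_int {n : ℕ} {P : ℂ → ℂ → ℂ} (hP : HP n P)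
    (h : ∀ x y : ℤ, P x y = 0) (x y : ℂ) : P x y = 0 := by
  obtain ⟨a, ha⟩ := hP
  rw [ha]
  apply sum_eq_zero_of_coeffPoly_eq_zero
  apply Polynomial.eq_zero_of_infinite_isRoot
  apply Set.Infinite.mono (s := Set.range (fun j : ℕ => (j : ℂ)))
  · rintro _ ⟨j, rfl⟩
    show (coeffPoly n a).IsRoot _
    rw [IsRoot.def, coeffPoly_eval, ← ha]
    simpa using h j 1
  · exact Set.infinite_range_of_injective Nat.cast_injective

/-- A homogeneous polynomial function over `ℂ` which is periodic in the first variable is constant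
on the line `y = 1`. -/
theorem HP.const_of_periodic {n : ℕ} {P : ℂ → ℂ → ℂ} (hP : HP n P) {M : ℂ} (hM : M ≠ 0)
    (h : ∀ x y : ℂ, P (x + M * y) y = P x y) (x : ℂ) : P x 1 = P 0 1 := by
  obtain ⟨a, ha⟩ := hP
  have hper : ∀ j : ℕ, P (j * M) 1 = P 0 1 := by
    intro j
    induction j with
    | zero => simp
    | succ j ih =>
      rw [← ih, ← h (j * M) 1]
      congr 1
      push_cast
      ring
  have hz : coeffPoly n a - C (P 0 1) = 0 := by
    apply Polynomial.eq_zero_of_infinite_isRoot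
    apply Set.Infinite.mono (s := Set.range (fun j : ℕ => (j : ℂ) * M))
    · rintro _ ⟨j, rfl⟩
      show (coeffPoly n a - C (P 0 1)).IsRoot _
      rw [IsRoot.def, eval_sub, eval_C, coeffPoly_eval, ← ha, hper, sub_self]
    · apply Set.infinite_range_of_injective
      intro i j hij
      exact Nat.cast_injective (mul_right_cancel₀ hM hij)
  have := congrArg (Polynomial.eval x) hz
  rw [eval_sub, eval_C, coeffPoly_eval, ← ha, eval_zero, sub_eq_zero] at this
  exact this

/-- Homogeneous polynomial functions `ℤ × ℤ → ℚ`. -/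
def HPQ (n : ℕ) (P : ℤ × ℤ → ℚ) : Prop :=
  ∃ a : ℕ → ℚ, ∀ x y : ℤ, P (x, y) = ∑ i ∈ range (n + 1), a i * (x : ℚ) ^ i * (y : ℚ) ^ (n - i)

theorem HPQ.zero (n : ℕ) : HPQ n 0 := ⟨0, fun x y => by simp⟩

theorem HPQ.add {n : ℕ} {P Q : ℤ × ℤ → ℚ} (hP : HPQ n P) (hQ : HPQ n Q) : HPQ n (P + Q) := by
  obtain ⟨a, ha⟩ := hP
  obtain ⟨b, hb⟩ := hQ
  refine ⟨fun i => a i + b i, fun x y => ?_⟩
  rw [Pi.add_apply, ha, hb, ← sum_add_distrib]
  exact sum_congr rfl fun i _ => by ring

theorem HPQ.neg {n : ℕ} {P : ℤ × ℤ → ℚ} (hP : HPQ n P) : HPQ n (-P) := by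
  obtain ⟨a, ha⟩ := hP
  refine ⟨fun i => - a i, fun x y => ?_⟩
  rw [Pi.neg_apply, ha, ← sum_neg_distrib]
  exact sum_congr rfl fun i _ => by ring

theorem HP.toHPQ {n : ℕ} {P : ℂ → ℂ → ℂ} (hP : HP n P) (l : ℂ →ₗ[ℚ] ℚ) :
    HPQ n (fun v => l (P v.1 v.2)) := by
  obtain ⟨a, ha⟩ := hP
  refine ⟨fun i => l (a i), fun x y => ?_⟩
  simp only [ha, map_sum]
  refine sum_congr rfl fun i _ => ?_
  have : a i * (x : ℂ) ^ i * (y : ℂ) ^ (n - i) = (((x : ℚ) ^ i * (y : ℚ) ^ (n - i) : ℚ)) • a i := by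
    rw [Algebra.smul_def]
    simp only [eq_ratCast]
    push_cast
    ring
  rw [this, map_smul, smul_eq_mul]
  ring

theorem HPQ.exists_denom {n : ℕ} {P : ℤ × ℤ → ℚ} (hP : HPQ n P) :
    ∃ m : ℕ, m ≠ 0 ∧ ∀ v, ∃ z : ℤ, (m : ℚ) * P v = z := by
  obtain ⟨a, ha⟩ := hP
  refine ⟨∏ i ∈ range (n + 1), (a i).den, ?_, ?_⟩
  · exact Finset.prod_ne_zero_iff.mpr fun i _ => (a i).den_nz
  · rintro ⟨x, y⟩
    have key : ∀ i ∈ range (n + 1), ∃ z : ℤ,
        ((∏ i ∈ range (n + 1), (a i).den : ℕ) : ℚ) * a i = z := by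
      intro i hi
      obtain ⟨c, hc⟩ := Finset.dvd_prod_of_mem (fun i => (a i).den) hi
      refine ⟨c * (a i).num, ?_⟩
      rw [hc]
      push_cast
      have := Rat.den_mul_eq_num (a i)
      calc ((a i).den : ℚ) * c * a i = c * (((a i).den : ℚ) * a i) := by ring
        _ = c * (a i).num := by rw [this]
    choose! z hz using key
    refine ⟨∑ i ∈ range (n + 1), z i * x ^ i * y ^ (n - i), ?_⟩
    rw [ha, mul_sum]
    push_cast
    refine sum_congr rfl fun i hi => ?_
    rw [← hz i hi]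
    push_cast
    ring

theorem HPQ.eq_zero_of_points {n : ℕ} {P : ℤ × ℤ → ℚ} (hP : HPQ n P)
    (h : ∀ j : Fin (n + 1), P ((j : ℕ), 1) = 0) : P = 0 := by
  obtain ⟨a, ha⟩ := hP
  have hz : coeffPoly n a = 0 := by
    apply Polynomial.eq_zero_of_natDegree_lt_card_of_eval_eq_zero' _
      ((range (n + 1)).image (fun j : ℕ => (j : ℚ)))
    · intro x hx
      obtain ⟨j, hj, rfl⟩ := Finset.mem_image.mp hx
      rw [coeffPoly_eval]
      have := ha j 1
      rw [h ⟨j, mem_range.mp hj⟩] at this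
      simpa using this.symm
    · rw [Finset.card_image_of_injective _ Nat.cast_injective, card_range]
      exact Nat.lt_succ_of_le (coeffPoly_natDegree_le n a)
  funext ⟨x, y⟩
  rw [ha]
  exact sum_eq_zero_of_coeffPoly_eq_zero n a hz _ _

end Fermat.Agent.S22Aux
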