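import Mathlib
import Fermat.Agent.S22.HomPoly

set_option autoImplicit false

namespace Fermat.Agent.S22Aux

section

variable {G : Type*} [Group G] (act : G → ℤ × ℤ → ℤ × ℤ)

/-- The cocycle condition. -/
def IsCoc (c : G → ℤ × ℤ → ℚ) : Prop := ∀ γ δ v, c (γ * δ) v = c γ (act δ v) + c δ v

variable {act}

theorem IsCoc.one {c : G → ℤ × ℤ → ℚ} (hc : IsCoc act c) (hact1 : ∀ v, act 1 v = v) : c 1 = 0 := by
  funext v
  have := hc 1 1 v
  rw [mul_one, hact1] at this
  simpa using this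

theorem IsCoc.mem_of_closure {c : G → ℤ × ℤ → ℚ} (hc : IsCoc act c) (hact1 : ∀ v, act 1 v = v)
    (PP : AddSubgroup (ℤ × ℤ → ℚ)) (hst : ∀ P ∈ PP, ∀ γ : G, (fun v => P (act γ v)) ∈ PP)
    {G0 : Set G} (hG0 : Subgroup.closure G0 = ⊤) (h : ∀ g ∈ G0, c g ∈ PP) (γ : G) : c γ ∈ PP := by
  have hγ : γ ∈ Subgroup.closure G0 := hG0 ▸ Subgroup.mem_top γ
  induction hγ using Subgroup.closure_induction with
  | mem x hx => exact h x hx
  | one => rw [hc.one hact1]; exact PP.zero_mem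
  | mul x y _ _ hx hy =>
    have : c (x * y) = (fun v => c x (act y v)) + c y := by
      funext v; exact hc x y v
    rw [this]
    exact PP.add_mem (hst _ hx y) hy
  | inv x _ hx =>
    have : c x⁻¹ = - (fun v => c x (act x⁻¹ v)) := by
      funext v
      have h1 := hc x x⁻¹ v
      rw [mul_inv_cancel, hc.one hact1] at h1
      simp only [Pi.zero_apply, Pi.neg_apply] at h1 ⊢
      linarith
    rw [this]
    exact PP.neg_mem (hst _ hx _)

variable (act)

/-- Cocycles with values in homogeneous polynomial functions. -/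
def goodSub (n : ℕ) : Submodule ℤ (G → ℤ × ℤ → ℚ) where
  carrier := {c | IsCoc act c ∧ ∀ γ, HPQ n (c γ)}
  add_mem' := by
    rintro a b ⟨ha, ha'⟩ ⟨hb, hb'⟩
    refine ⟨fun γ δ v => ?_, fun γ => (ha' γ).add (hb' γ)⟩
    simp only [Pi.add_apply, ha γ δ v, hb γ δ v]
    ring
  zero_mem' := ⟨fun γ δ v => by simp, fun γ => HPQ.zero n⟩
  smul_mem' := by
    intro m a ⟨ha, ha'⟩
    refine ⟨fun γ δ v => ?_, fun γ => ?_⟩
    · simp only [Pi.smul_apply, ha γ δ v, smul_add]
    · obtain ⟨b, hb⟩ := ha' γ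
      refine ⟨fun i => m * b i, fun x y => ?_⟩
      simp only [Pi.smul_apply, hb, zsmul_eq_mul, Finset.mul_sum]
      exact Finset.sum_congr rfl fun i _ => by ring

variable (G) in
/-- Integer valued functions. -/
def intVal : Submodule ℤ (G → ℤ × ℤ → ℚ) where
  carrier := {c | ∀ γ v, ∃ z : ℤ, c γ v = z}
  add_mem' := by
    intro a b ha hb γ v
    obtain ⟨z, hz⟩ := ha γ v
    obtain ⟨w, hw⟩ := hb γ v
    exact ⟨z + w, by simp [hz, hw]⟩
  zero_mem' := fun γ v => ⟨0, by simp⟩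
  smul_mem' := by
    intro m a ha γ v
    obtain ⟨z, hz⟩ := ha γ v
    exact ⟨m * z, by simp [hz]⟩

variable {act}

theorem exists_denom_of_good [Group.FG G] (hact1 : ∀ v, act 1 v = v) {n : ℕ}
    {c : G → ℤ × ℤ → ℚ} (hc : c ∈ goodSub act n) : ∃ m : ℕ, m ≠ 0 ∧ m • c ∈ intVal G := by
  classical
  obtain ⟨G0, hG0⟩ := Group.fg_def.mp (inferInstance : Group.FG G)
  have h1 : ∀ g : G, ∃ m : ℕ, m ≠ 0 ∧ ∀ v, ∃ z : ℤ, (m : ℚ) * c g v = z :=
    fun g => (hc.2 g).exists_denom
  choose m hm0 hm using h1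
  refine ⟨∏ g ∈ G0, m g, Finset.prod_ne_zero_iff.mpr fun g _ => hm0 g, ?_⟩
  set M := ∏ g ∈ G0, m g with hM
  let PP : AddSubgroup (ℤ × ℤ → ℚ) :=
    { carrier := {P | ∀ v, ∃ z : ℤ, (M : ℚ) * P v = z}
      add_mem' := by
        intro a b ha hb v
        obtain ⟨z, hz⟩ := ha v
        obtain ⟨w, hw⟩ := hb v
        exact ⟨z + w, by simp [mul_add, hz, hw]⟩
      zero_mem' := fun v => ⟨0, by simp⟩
      neg_mem' := by
        intro a ha v
        obtain ⟨z, hz⟩ := ha v
        exact ⟨-z, by simp [hz]⟩ }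
  have key : ∀ γ, c γ ∈ PP := by
    refine hc.1.mem_of_closure hact1 PP (fun P hP γ v => hP _) hG0 ?_
    intro g hg v
    obtain ⟨z, hz⟩ := hm g v
    obtain ⟨d, hd⟩ := Finset.dvd_prod_of_mem m hg
    refine ⟨d * z, ?_⟩
    rw [hM, hd]
    push_cast
    rw [← hz]
    ring
  intro γ v
  obtain ⟨z, hz⟩ := key γ v
  exact ⟨z, by simpa using hz⟩

theorem fg_good_inf_intVal [Group.FG G] (hact1 : ∀ v, act 1 v = v) (n : ℕ) :
    (goodSub act n ⊓ intVal G).FG := by
  classical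
  obtain ⟨G0, hG0⟩ := Group.fg_def.mp (inferInstance : Group.FG G)
  let ev : (G → ℤ × ℤ → ℚ) →ₗ[ℤ] (↥G0 × Fin (n + 1) → ℚ) :=
    { toFun := fun c p => c p.1 ((p.2 : ℕ), 1)
      map_add' := fun a b => rfl
      map_smul' := fun m a => rfl }
  let incl : (↥G0 × Fin (n + 1) → ℤ) →ₗ[ℤ] (↥G0 × Fin (n + 1) → ℚ) :=
    { toFun := fun u p => (u p : ℚ)
      map_add' := fun a b => by funext p; simp
      map_smul' := fun m a => by funext p; simp }
  apply Submodule.fg_of_fg_map_of_fg_inf_ker ev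
  · have hle : Submodule.map ev (goodSub act n ⊓ intVal G) ≤ LinearMap.range incl := by
      rintro _ ⟨c, hc, rfl⟩
      choose z hz using fun p : ↥G0 × Fin (n + 1) => hc.2 p.1 ((p.2 : ℕ), 1)
      exact ⟨z, by funext p; exact (hz p).symm⟩
    have hfg : (LinearMap.range incl).FG := by
      rw [LinearMap.range_eq_map]
      exact Submodule.FG.map _ (Module.Finite.fg_top)
    have : IsNoetherian ℤ (LinearMap.range incl) := isNoetherian_of_fg_of_noetherian _ hfg
    exact isNoetherian_submodule.mp this _ hle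
  · have : goodSub act n ⊓ intVal G ⊓ LinearMap.ker ev = ⊥ := by
      rw [eq_bot_iff]
      rintro c ⟨⟨hc, -⟩, hker⟩
      rw [Submodule.mem_bot]
      have key : ∀ γ, c γ ∈ (⊥ : AddSubgroup (ℤ × ℤ → ℚ)) := by
        refine hc.1.mem_of_closure hact1 ⊥ ?_ hG0 ?_
        · intro P hP γ
          rw [AddSubgroup.mem_bot] at hP ⊢
          subst hP
          rfl
        · intro g hg
          rw [AddSubgroup.mem_bot]
          apply (hc.2 g).eq_zero_of_points
          intro j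
          exact congrFun (LinearMap.mem_ker.mp hker) (⟨g, hg⟩, j)
      funext γ
      exact AddSubgroup.mem_bot.mp (key γ)
    rw [this]
    exact Submodule.fg_bot

end

end Fermat.Agent.S22Aux
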