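import Mathlib

set_option autoImplicit false

open Complex Filter Function Topology Asymptotics
open scoped Real

namespace Fermat.Agent.S22Aux

local notation "I∞" => comap Complex.im atTop
local notation "𝕢" => Function.Periodic.qParam

/-- Periodic functions, holomorphic on the upper half plane, which vanish at `i∞`. -/
structure CuspLike (h : ℝ) (g : ℂ → ℂ) : Prop where
  per : Function.Periodic g (h : ℂ)
  diff : ∀ z : ℂ, 0 < z.im → DifferentiableAt ℂ g z
  zero : ZeroAtFilter I∞ g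

theorem qParam_add_period {h : ℝ} (hh : h ≠ 0) (z : ℂ) : 𝕢 h (z + h) = 𝕢 h z := by
  have hh' : (h : ℂ) ≠ 0 := by exact_mod_cast hh
  unfold Function.Periodic.qParam
  rw [show 2 * (π : ℂ) * I * (z + h) / h = 2 * π * I * z / h + 2 * π * I by field_simp]
  rw [Complex.exp_add, Complex.exp_two_pi_mul_I, mul_one]

theorem hasDerivAt_qParam (h : ℝ) (z : ℂ) :
    HasDerivAt (𝕢 h) (𝕢 h z * (2 * π * I / h)) z := by
  simpa only [id_eq, mul_one] using! (((hasDerivAt_id z).const_mul _).div_const _).cexp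

theorem CuspLike.exists_prim {h : ℝ} (hh : 0 < h) {g : ℂ → ℂ} (hg : CuspLike h g) :
    ∃ G : ℂ → ℂ, CuspLike h G ∧ ∀ z : ℂ, 0 < z.im → HasDerivAt G (g z) z := by
  have hh' : (h : ℂ) ≠ 0 := by exact_mod_cast hh.ne'
  set φ := Function.Periodic.cuspFunction h g with hφ
  have hol : ∀ᶠ z in I∞, DifferentiableAt ℂ g z :=
    eventually_of_mem (preimage_mem_comap (Ioi_mem_atTop 0)) (fun z hz => hg.diff z hz)
  have hφ0 : φ 0 = 0 := Function.Periodic.cuspFunction_zero_of_zero_at_inf hh hg.zero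
  have hφd : DifferentiableOn ℂ φ (Metric.ball 0 1) := by
    intro q hq
    apply DifferentiableAt.differentiableWithinAt
    rcases eq_or_ne q 0 with rfl | hq'
    · exact hg.per.differentiableAt_cuspFunction_zero hh hol hg.zero.boundedAtFilter
    · rw [← Function.Periodic.qParam_right_inv hh.ne' hq']
      exact hg.per.differentiableAt_cuspFunction hh.ne'
        (hg.diff _ (Function.Periodic.im_invQParam_pos_of_norm_lt_one hh
          (mem_ball_zero_iff.mp hq) hq'))
  have hψd : DifferentiableOn ℂ (dslope φ 0) (Metric.ball 0 1) :=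
    (Complex.differentiableOn_dslope (Metric.ball_mem_nhds 0 one_pos)).mpr hφd
  obtain ⟨Ψ, hΨ0, hΨ⟩ := hψd.isExactOn_ball.with_val_at 0 0
  refine ⟨fun z => (h / (2 * π * I)) * Ψ (𝕢 h z), ⟨?_, ?_, ?_⟩, ?_⟩
  · intro z
    simp only [qParam_add_period hh.ne']
  · intro z hz
    have hq : 𝕢 h z ∈ Metric.ball (0 : ℂ) 1 :=
      mem_ball_zero_iff.mpr (Function.Periodic.norm_qParam_lt_one hh hz)
    exact ((hΨ _ hq).differentiableAt.comp z
      (Function.Periodic.differentiable_qParam z)).const_mul _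
  · have h0 : ContinuousAt Ψ 0 := (hΨ 0 (Metric.mem_ball_self one_pos)).continuousAt
    have h1 : Tendsto (fun z => Ψ (𝕢 h z)) I∞ (𝓝 0) := by
      have := h0.tendsto.comp ((Function.Periodic.qParam_tendsto hh).mono_right nhdsWithin_le_nhds)
      rwa [hΨ0] at this
    have := h1.const_mul ((h : ℂ) / (2 * π * I))
    rw [mul_zero] at this
    exact this
  · intro z hz
    have hq : 𝕢 h z ∈ Metric.ball (0 : ℂ) 1 :=
      mem_ball_zero_iff.mpr (Function.Periodic.norm_qParam_lt_one hh hz)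
    have hq0 : 𝕢 h z ≠ 0 := Function.Periodic.qParam_ne_zero z
    have h1 := ((hΨ _ hq).comp z (hasDerivAt_qParam h z)).const_mul ((h : ℂ) / (2 * π * I))
    refine h1.congr_deriv ?_
    rw [dslope_of_ne _ hq0, slope_def_field, hφ0, sub_zero, sub_zero, hφ,
      Function.Periodic.eq_cuspFunction hh.ne' hg.per]
    have : (2 * (π : ℂ) * I) ≠ 0 := Complex.two_pi_I_ne_zero
    field_simp

/-- A choice of primitive vanishing at `i∞`. -/
noncomputable def prim (h : ℝ) (g : ℂ → ℂ) : ℂ → ℂ := by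
  classical
  exact if H : 0 < h ∧ CuspLike h g then Classical.choose (CuspLike.exists_prim H.1 H.2) else 0

theorem CuspLike.prim {h : ℝ} (hh : 0 < h) {g : ℂ → ℂ} (hg : CuspLike h g) :
    CuspLike h (prim h g) := by
  unfold Fermat.Agent.S22Aux.prim
  rw [dif_pos ⟨hh, hg⟩]
  exact (Classical.choose_spec (CuspLike.exists_prim hh hg)).1

theorem CuspLike.hasDerivAt_prim {h : ℝ} (hh : 0 < h) {g : ℂ → ℂ} (hg : CuspLike h g)
    {z : ℂ} (hz : 0 < z.im) : HasDerivAt (Fermat.Agent.S22Aux.prim h g) (g z) z := by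
  unfold Fermat.Agent.S22Aux.prim
  rw [dif_pos ⟨hh, hg⟩]
  exact (Classical.choose_spec (CuspLike.exists_prim hh hg)).2 z hz

/-- The tower of iterated primitives. -/
noncomputable def tower (h : ℝ) (g : ℂ → ℂ) (j : ℕ) : ℂ → ℂ := (prim h)^[j] g

@[simp] theorem tower_zero (h : ℝ) (g : ℂ → ℂ) : tower h g 0 = g := rfl

theorem tower_succ (h : ℝ) (g : ℂ → ℂ) (j : ℕ) : tower h g (j + 1) = prim h (tower h g j) := by
  unfold tower
  rw [Function.iterate_succ_apply']

theorem CuspLike.tower {h : ℝ} (hh : 0 < h) {g : ℂ → ℂ} (hg : CuspLike h g) (j : ℕ) :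
    CuspLike h (tower h g j) := by
  induction j with
  | zero => exact hg
  | succ j ih => rw [tower_succ]; exact ih.prim hh

theorem CuspLike.hasDerivAt_tower {h : ℝ} (hh : 0 < h) {g : ℂ → ℂ} (hg : CuspLike h g) (j : ℕ)
    {z : ℂ} (hz : 0 < z.im) :
    HasDerivAt (Fermat.Agent.S22Aux.tower h g (j + 1)) (Fermat.Agent.S22Aux.tower h g j z) z := by
  rw [tower_succ]
  exact (hg.tower hh j).hasDerivAt_prim hh hz

end Fermat.Agent.S22Aux
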