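import Mathlib
import Fermat.Agent.S22.Tower

set_option autoImplicit false

open Complex Filter Function Topology Asymptotics
open scoped Real

namespace Fermat.Agent.S22Aux

local notation "I∞" => comap Complex.im atTop

/-- A tower of iterated primitives of cusp-like functions. -/
structure IsTower (h : ℝ) (t : ℕ → ℂ → ℂ) : Prop where
  cusp : ∀ j, CuspLike h (t j)
  deriv : ∀ j (z : ℂ), 0 < z.im → HasDerivAt (t (j + 1)) (t j z) z

theorem IsTower.shift {h : ℝ} {t : ℕ → ℂ → ℂ} (ht : IsTower h t) :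
    IsTower h (fun m => t (m + 1)) :=
  ⟨fun j => ht.cusp (j + 1), fun j z hz => ht.deriv (j + 1) z hz⟩

theorem CuspLike.isTower {h : ℝ} (hh : 0 < h) {g : ℂ → ℂ} (hg : CuspLike h g) :
    IsTower h (Fermat.Agent.S22Aux.tower h g) :=
  ⟨fun j => hg.tower hh j, fun j _ hz => hg.hasDerivAt_tower hh j hz⟩

/-- The Eichler integral `∫_{i∞}^z t₀(w) (x - w y)^n dw`, expressed through iterated primitives. -/
noncomputable def eich : ℕ → (ℕ → ℂ → ℂ) → ℂ → ℂ → ℂ → ℂ
  | 0, t, z, _, _ => t 1 z
  | n + 1, t, z, x, y =>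
      (x - z * y) ^ (n + 1) * t 1 z + ((n : ℂ) + 1) * y * eich n (fun m => t (m + 1)) z x y

theorem eich_hasDerivAt {h : ℝ} (n : ℕ) : ∀ {t : ℕ → ℂ → ℂ} (_ : IsTower h t) (x y : ℂ) {z : ℂ}
    (_ : 0 < z.im), HasDerivAt (fun z => eich n t z x y) (t 0 z * (x - z * y) ^ n) z := by
  induction n with
  | zero =>
    intro t ht x y z hz
    simpa [eich] using ht.deriv 0 z hz
  | succ n ih =>
    intro t ht x y z hz
    have h1 : HasDerivAt (fun z : ℂ => (x - z * y) ^ (n + 1))
        (((n + 1 : ℕ) : ℂ) * (x - z * y) ^ n * (-y)) z := by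
      have h0 : HasDerivAt (fun z : ℂ => x - z * y) (-y) z := by
        simpa using ((hasDerivAt_id z).mul_const y).const_sub x
      simpa using h0.fun_pow (n + 1)
    have h2 := h1.mul (ht.deriv 0 z hz)
    have h3 := (ih ht.shift x y hz).const_mul (((n : ℂ) + 1) * y)
    have h4 := h2.add h3
    refine h4.congr_deriv ?_
    push_cast
    ring

theorem eich_translate {h : ℝ} (n : ℕ) : ∀ {t : ℕ → ℂ → ℂ} (_ : IsTower h t) (x y z : ℂ),
    eich n t (z + h) (x + h * y) y = eich n t z x y := by
  induction n with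
  | zero =>
    intro t ht x y z
    simpa [eich] using (ht.cusp 1).per z
  | succ n ih =>
    intro t ht x y z
    simp only [eich]
    rw [ih ht.shift, (ht.cusp 1).per z]
    congr 2
    ring

theorem eich_diag (n : ℕ) : ∀ (t : ℕ → ℂ → ℂ) (z : ℂ),
    eich n t z z 1 = (n.factorial : ℂ) * t (n + 1) z := by
  induction n with
  | zero => intro t z; simp [eich]
  | succ n ih =>
    intro t z
    simp only [eich]
    rw [ih]
    simp only [mul_one, sub_self, ne_eq, Nat.add_eq_zero_iff, one_ne_zero, and_false,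
      not_false_eq_true, zero_pow, zero_mul, zero_add, Nat.factorial_succ]
    push_cast
    ring

theorem eich_homog (n : ℕ) : ∀ (t : ℕ → ℂ → ℂ) (z c x y : ℂ),
    eich n t z (c * x) (c * y) = c ^ n * eich n t z x y := by
  induction n with
  | zero => intro t z c x y; simp [eich]
  | succ n ih =>
    intro t z c x y
    simp only [eich]
    rw [ih, show c * x - z * (c * y) = c * (x - z * y) by ring, mul_pow]
    ring

theorem tendsto_path (b c : ℝ) (hc : 0 < c) :
    Tendsto (fun s : ℝ => (b : ℂ) + c * s * I) atTop I∞ := by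
  rw [tendsto_comap_iff]
  have : (Complex.im ∘ fun s : ℝ => (b : ℂ) + c * s * I) = fun s : ℝ => c * s := by
    funext s
    simp
  rw [this]
  exact tendsto_id.const_mul_atTop hc

theorem CuspLike.decay_path {h : ℝ} (hh : 0 < h) {g : ℂ → ℂ} (hg : CuspLike h g) (b c : ℝ)
    (hc : 0 < c) (m : ℕ) (x y : ℂ) :
    Tendsto (fun s : ℝ => (x - ((b : ℂ) + c * s * I) * y) ^ m * g ((b : ℂ) + c * s * I))
      atTop (𝓝 0) := by
  have hol : ∀ᶠ z in I∞, DifferentiableAt ℂ g z :=
    eventually_of_mem (preimage_mem_comap (Ioi_mem_atTop 0)) (fun z hz => hg.diff z hz)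
  have hO := (Function.Periodic.exp_decay_of_zero_at_inf hh hg.per hol hg.zero).comp_tendsto
    (tendsto_path b c hc)
  have hlin : (fun s : ℝ => x - ((b : ℂ) + c * s * I) * y) =O[atTop] (fun s : ℝ => s) := by
    have h1 : (fun _ : ℝ => x - b * y) =O[atTop] (fun s : ℝ => s) :=
      (isLittleO_const_id_atTop (x - b * y)).isBigO
    have h2 : (fun s : ℝ => (c * I * y) * (s : ℂ)) =O[atTop] (fun s : ℝ => s) := by
      apply IsBigO.const_mul_left
      apply IsBigO.of_norm_left
      simpa using (isBigO_refl (fun s : ℝ => s) atTop).norm_left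
    refine (h1.sub h2).congr_left ?_
    intro s
    ring
  have hprod := (hlin.pow m).mul hO
  refine hprod.trans_tendsto ?_
  set β : ℝ := 2 * π * c / h with hβ
  have hβpos : 0 < β := by positivity
  have h3 := (isLittleO_pow_exp_pos_mul_atTop m hβpos).tendsto_div_nhds_zero
  refine h3.congr ?_
  intro s
  simp only [Function.comp_apply]
  have : (-2 * π * ((b : ℂ) + c * s * I).im / h) = -(β * s) := by
    simp [hβ]
    ring
  rw [this, Real.exp_neg, div_eq_mul_inv]

theorem eich_tendsto {h : ℝ} (hh : 0 < h) (n : ℕ) : ∀ {t : ℕ → ℂ → ℂ} (_ : IsTower h t)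
    (b c : ℝ) (_ : 0 < c) (x y : ℂ),
    Tendsto (fun s : ℝ => eich n t ((b : ℂ) + c * s * I) x y) atTop (𝓝 0) := by
  induction n with
  | zero =>
    intro t ht b c hc x y
    simpa [eich] using (ht.cusp 1).decay_path hh b c hc 0 x y
  | succ n ih =>
    intro t ht b c hc x y
    simp only [eich]
    have h1 := (ht.cusp 1).decay_path hh b c hc (n + 1) x y
    have h2 := (ih ht.shift b c hc x y).const_mul (((n : ℂ) + 1) * y)
    simpa using h1.add h2

/-- The open upper half plane as a subset of `ℂ`. -/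
def uhp : Set ℂ := {z : ℂ | 0 < z.im}

theorem isOpen_uhp : IsOpen uhp := isOpen_lt continuous_const Complex.continuous_im

theorem convex_uhp : Convex ℝ uhp := by
  have : uhp = Complex.im ⁻¹' (Set.Ioi 0) := rfl
  rw [this]
  exact (convex_Ioi 0).is_linear_preimage Complex.imLm.isLinear

/-- A function with zero derivative on the upper half plane is constant there. -/
theorem const_of_deriv_zero {A : ℂ → ℂ} (hA : ∀ z : ℂ, 0 < z.im → HasDerivAt A 0 z)
    {z w : ℂ} (hz : 0 < z.im) (hw : 0 < w.im) : A z = A w := by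
  refine isOpen_uhp.is_const_of_deriv_eq_zero convex_uhp.isPreconnected ?_ ?_ hz hw
  · intro z hz
    exact (hA z hz).differentiableAt.differentiableWithinAt
  · intro z hz
    exact (hA z hz).deriv

/-- Uniqueness principle: zero derivative and vanishing limit along the imaginary axis. -/
theorem eq_zero_of_deriv_zero_of_tendsto {A : ℂ → ℂ} (hA : ∀ z : ℂ, 0 < z.im → HasDerivAt A 0 z)
    (hlim : Tendsto (fun s : ℝ => A (s * I)) atTop (𝓝 0)) {z : ℂ} (hz : 0 < z.im) : A z = 0 := by
  have h1 : ∀ᶠ s : ℝ in atTop, A (s * I) = A z := by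
    filter_upwards [eventually_gt_atTop 0] with s hs
    exact const_of_deriv_zero hA (by simpa using hs) hz
  have h2 : Tendsto (fun s : ℝ => A (s * I)) atTop (𝓝 (A z)) :=
    tendsto_const_nhds.congr' (h1.mono fun s hs => hs.symm)
  exact tendsto_nhds_unique h2 hlim

end Fermat.Agent.S22Aux
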