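import Mathlib
import Fermat.Agent.S22.Eichler
import Fermat.Agent.S22.HomPoly

set_option autoImplicit false

open Complex Filter Topology
open UpperHalfPlane hiding I
open scoped MatrixGroups ModularForm Manifold

namespace Fermat.Agent.S22Aux

/-- The Eichler integral twisted by a real matrix. -/
noncomputable def eichG (n : ℕ) (t : ℕ → ℂ → ℂ) (α : GL (Fin 2) ℝ) (τ : ℍ) (x y : ℂ) : ℂ :=
  eich n t ↑(α • τ) (α 0 0 * x + α 0 1 * y) (α 1 0 * x + α 1 1 * y)

theorem eichG_one (n : ℕ) (t : ℕ → ℂ → ℂ) (τ : ℍ) (x y : ℂ) :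
    eichG n t 1 τ x y = eich n t τ x y := by
  simp [eichG]

theorem eichG_mul (n : ℕ) (t : ℕ → ℂ → ℂ) (α β : GL (Fin 2) ℝ) (τ : ℍ) (x y : ℂ) :
    eichG n t (α * β) τ x y =
      eichG n t α (β • τ) (β 0 0 * x + β 0 1 * y) (β 1 0 * x + β 1 1 * y) := by
  simp only [eichG, mul_smul, Units.val_mul, Matrix.mul_apply, Fin.sum_univ_two]
  congr 1 <;> push_cast <;> ring

theorem eichG_HP (n : ℕ) (t : ℕ → ℂ → ℂ) (α : GL (Fin 2) ℝ) (τ : ℍ) :
    HP n (fun x y => eichG n t α τ x y) := by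
  unfold eichG
  generalize (↑(α • τ) : ℂ) = w
  generalize ((α 0 0 : ℝ) : ℂ) = a
  generalize ((α 0 1 : ℝ) : ℂ) = b
  generalize ((α 1 0 : ℝ) : ℂ) = c
  generalize ((α 1 1 : ℝ) : ℂ) = d
  induction n generalizing t with
  | zero => exact HP.const _
  | succ n ih =>
    simp only [eich]
    have h1 := (HP.linear_pow (a - w * c) (b - w * d) (n + 1)).mul_const (t 1 w)
    have h2 := (ih (fun m => t (m + 1))).mul_linear (((n : ℂ) + 1) * c) (((n : ℂ) + 1) * d)
    refine (iff_of_eq (congrArg (HP (n + 1)) ?_)).mp (h1.add h2)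
    funext x y
    ring

theorem eichG_hasDerivAt {h : ℝ} (n : ℕ) {t : ℕ → ℂ → ℂ} (ht : IsTower h t) {g : ℍ → ℂ}
    (hg : ∀ τ : ℍ, t 0 τ = g τ) {α : GL (Fin 2) ℝ} (hα : 0 < α.val.det) (x y : ℂ) (τ : ℍ) :
    HasDerivAt (fun z : ℂ => eichG n t α (ofComplex z) x y)
      ((g ∣[(n : ℤ) + 2] α) τ * (x - τ * y) ^ n) τ := by
  have h1 := (hasStrictDerivAt_smul hα τ).hasDerivAt
  have h2 := eich_hasDerivAt n ht ((α 0 0 : ℝ) * x + (α 0 1 : ℝ) * y)
    ((α 1 0 : ℝ) * x + (α 1 1 : ℝ) * y) (z := ↑(α • τ)) (α • τ).im_pos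
  have h3 := HasDerivAt.comp_of_eq (τ : ℂ) h2 h1 (by rw [ofComplex_apply])
  refine h3.congr_deriv ?_
  have hα' : 0 < α.det.val := by simpa using hα
  have hD : denom α τ ≠ 0 := denom_ne_zero α τ
  rw [hg, ModularForm.slash_apply, σ, if_pos hα', coe_smul_of_det_pos hα']
  have hdet : ((α.val.det : ℝ) : ℂ) = (α 0 0 : ℝ) * (α 1 1 : ℝ) - (α 0 1 : ℝ) * (α 1 0 : ℝ) := by
    rw [Matrix.det_fin_two]; push_cast; ring
  have key : ((α 0 0 : ℝ) * x + (α 0 1 : ℝ) * y) - num α τ / denom α τ *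
      ((α 1 0 : ℝ) * x + (α 1 1 : ℝ) * y) = (α.val.det : ℝ) * (x - τ * y) / denom α τ := by
    rw [hdet]
    field_simp
    simp only [num, denom]
    ring
  rw [key]
  have habs : |α.det.val| = α.val.det := by
    rw [abs_of_pos hα']; simp
  rw [habs]
  simp only [ContinuousAlgEquiv.refl_apply]
  rw [show (n : ℤ) + 2 - 1 = ((n + 1 : ℕ) : ℤ) by push_cast; ring, zpow_natCast,
    show -((n : ℤ) + 2) = -((n + 2 : ℕ) : ℤ) by push_cast; ring, zpow_neg, zpow_natCast, div_pow,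
    mul_pow]
  field_simp
  ring

theorem cuspLike_of {h : ℝ} {g : ℍ → ℂ} (hper : Function.Periodic (g ∘ ofComplex) (h : ℂ))
    (hhol : MDiff g) (hzero : IsZeroAtImInfty g) : CuspLike h (g ∘ ofComplex) where
  per := hper
  diff := fun z hz => UpperHalfPlane.mdifferentiableAt_iff.mp (hhol ⟨z, hz⟩)
  zero := hzero.comp tendsto_comap_im_ofComplex

theorem eichG_tendsto {h : ℝ} (hh : 0 < h) (n : ℕ) {t : ℕ → ℂ → ℂ} (ht : IsTower h t)
    {α : GL (Fin 2) ℝ} (hα : 0 < α.val.det) (hut : α 1 0 = 0) (x y : ℂ) :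
    Tendsto (fun s : ℝ => eichG n t α (ofComplex (s * I)) x y) atTop (𝓝 0) := by
  have hα' : 0 < α.det.val := by simpa using hα
  have hdet : α 0 0 * α 1 1 > 0 := by
    have := hα
    rw [Matrix.det_fin_two, hut, mul_zero, sub_zero] at this
    exact this
  have hd : α 1 1 ≠ 0 := by
    intro h0
    rw [h0, mul_zero] at hdet
    exact lt_irrefl _ hdet
  have hpos : 0 < α 0 0 / α 1 1 := by
    have : α 0 0 / α 1 1 = (α 0 0 * α 1 1) / (α 1 1) ^ 2 := by field_simp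
    rw [this]
    positivity
  refine (eich_tendsto hh n ht (α 0 1 / α 1 1) (α 0 0 / α 1 1) hpos
    ((α 0 0 : ℝ) * x + (α 0 1 : ℝ) * y) ((α 1 0 : ℝ) * x + (α 1 1 : ℝ) * y)).congr' ?_
  filter_upwards [eventually_gt_atTop 0] with s hs
  unfold eichG
  congr 1
  have him : 0 < ((s : ℂ) * I).im := by simpa using hs
  have hd' : ((α 1 1 : ℝ) : ℂ) ≠ 0 := by exact_mod_cast hd
  rw [coe_smul_of_det_pos hα', ofComplex_apply_of_im_pos him]
  simp only [num, denom, hut, ofReal_zero, zero_mul, zero_add]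
  push_cast
  field_simp
  ring

/-- The difference of the twisted Eichler integral of `g` and the Eichler integral of `g ∣ α`
does not depend on the point. -/
theorem eichG_sub_eich_const {h h' : ℝ} (n : ℕ) {t t' : ℕ → ℂ → ℂ} (ht : IsTower h t)
    (ht' : IsTower h' t') {g : ℍ → ℂ} (hg : ∀ τ : ℍ, t 0 τ = g τ) {α : GL (Fin 2) ℝ}
    (hα : 0 < α.val.det) (hg' : ∀ τ : ℍ, t' 0 τ = (g ∣[(n : ℤ) + 2] α) τ) (x y : ℂ) (τ τ' : ℍ) :
    eichG n t α τ x y - eich n t' τ x y = eichG n t α τ' x y - eich n t' τ' x y := by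
  have key : ∀ z : ℂ, 0 < z.im →
      HasDerivAt (fun z : ℂ => eichG n t α (ofComplex z) x y - eich n t' z x y) 0 z := by
    intro z hz
    have h1 := eichG_hasDerivAt n ht hg hα x y ⟨z, hz⟩
    have h2 := eich_hasDerivAt n ht' x y hz
    refine (h1.sub h2).congr_deriv ?_
    have := hg' ⟨z, hz⟩
    simp only at this ⊢
    rw [this, sub_self]
  have := const_of_deriv_zero key τ.im_pos τ'.im_pos
  simpa only [ofComplex_apply] using this

/-- Eichler integrals are compatible with finite sums of slashes by upper triangular matrices. -/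
theorem eich_eq_sum {ι : Type*} [Fintype ι] (n : ℕ) {hs : ι → ℝ} (hpos : ∀ i, 0 < hs i)
    {t : ι → ℕ → ℂ → ℂ} (ht : ∀ i, IsTower (hs i) (t i)) {g : ι → ℍ → ℂ}
    (hg : ∀ i (τ : ℍ), t i 0 τ = g i τ) {α : ι → GL (Fin 2) ℝ} (hα : ∀ i, 0 < (α i).val.det)
    (hut : ∀ i, α i 1 0 = 0) {h' : ℝ} (hh' : 0 < h') {t' : ℕ → ℂ → ℂ} (ht' : IsTower h' t')
    (hsum : ∀ τ : ℍ, t' 0 τ = ∑ i, (g i ∣[(n : ℤ) + 2] α i) τ) (x y : ℂ) (τ : ℍ) :
    eich n t' τ x y = ∑ i, eichG n (t i) (α i) τ x y := by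
  have key : ∀ z : ℂ, 0 < z.im → HasDerivAt
      (fun z : ℂ => eich n t' z x y - ∑ i, eichG n (t i) (α i) (ofComplex z) x y) 0 z := by
    intro z hz
    have h1 := HasDerivAt.fun_sum (u := Finset.univ)
      (fun i _ => eichG_hasDerivAt n (ht i) (hg i) (hα i) x y ⟨z, hz⟩)
    have h2 := eich_hasDerivAt n ht' x y hz
    refine (h2.sub h1).congr_deriv ?_
    have := hsum ⟨z, hz⟩
    simp only at this ⊢
    rw [this, Finset.sum_mul, sub_self]
  have hlim : Tendsto (fun s : ℝ => eich n t' (s * I) x y -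
      ∑ i, eichG n (t i) (α i) (ofComplex (s * I)) x y) atTop (𝓝 0) := by
    have h1 : Tendsto (fun s : ℝ => eich n t' (s * I) x y) atTop (𝓝 0) := by
      simpa using eich_tendsto hh' n ht' 0 1 one_pos x y
    have h2 : Tendsto (fun s : ℝ => ∑ i, eichG n (t i) (α i) (ofComplex (s * I)) x y) atTop
        (𝓝 (∑ _i : ι, (0 : ℂ))) :=
      tendsto_finsetSum _ fun i _ => eichG_tendsto (hpos i) n (ht i) (hα i) (hut i) x y
    simpa using h1.sub h2
  have := eq_zero_of_deriv_zero_of_tendsto key hlim τ.im_pos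
  simp only [ofComplex_apply] at this
  exact sub_eq_zero.mp this

end Fermat.Agent.S22Aux
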