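import Mathlib
import Fermat.Agent.S22.Slash
import Fermat.Agent.S22.Lattice
import Fermat.Prelude.Thm_CongruenceSubgroup_one_mem_strictPeriods_Gamma0

set_option autoImplicit false

open Complex Filter Topology Matrix.SpecialLinearGroup
open UpperHalfPlane hiding I
open scoped MatrixGroups ModularForm Manifold

namespace Fermat.Agent.S22Aux

local notation "Γ₀" => CongruenceSubgroup.Gamma0

/-- The tower of iterated primitives attached to a function of period one. -/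
noncomputable def tw (f : ℍ → ℂ) : ℕ → ℂ → ℂ := tower 1 (f ∘ ofComplex)

theorem tw_zero (f : ℍ → ℂ) (τ : ℍ) : tw f 0 τ = f τ := by simp [tw]

theorem isTower_tw {N : ℕ} [NeZero N] {k : ℤ} (f : CuspForm (Γ₀ N) k) : IsTower 1 (tw f) :=
  (cuspLike_of (SlashInvariantFormClass.periodic_comp_ofComplex f
    (CongruenceSubgroup.one_mem_strictPeriods_Gamma0 N)) (CuspFormClass.holo f)
    (CuspFormClass.zero_at_infty f)).isTower one_pos

theorem det_mapGL_pos (γ : SL(2, ℤ)) : 0 < (mapGL ℝ γ : GL (Fin 2) ℝ).val.det := by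
  have : (mapGL ℝ γ : GL (Fin 2) ℝ).det = 1 := by simp
  have h2 := congrArg Units.val this
  rw [Matrix.GeneralLinearGroup.val_det_apply] at h2
  rw [h2]; simp

theorem mapGL_entry (γ : SL(2, ℤ)) (i j : Fin 2) :
    (((mapGL ℝ γ : GL (Fin 2) ℝ) i j : ℝ) : ℂ) = ((γ i j : ℤ) : ℂ) := by
  simp

/-- The Eichler cocycle. -/
noncomputable def coc (n : ℕ) (f : ℍ → ℂ) (γ : SL(2, ℤ)) (x y : ℂ) : ℂ :=
  eichG n (tw f) (mapGL ℝ γ) UpperHalfPlane.I x y - eich n (tw f) UpperHalfPlane.I x y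

variable {N : ℕ} [NeZero N] {n : ℕ}

theorem coc_spec (f : CuspForm (Γ₀ N) ((n : ℤ) + 2)) {γ : SL(2, ℤ)} (hγ : γ ∈ Γ₀ N) (τ : ℍ)
    (x y : ℂ) : eichG n (tw f) (mapGL ℝ γ) τ x y = eich n (tw f) τ x y + coc n f γ x y := by
  have h := eichG_sub_eich_const n (isTower_tw f) (isTower_tw f) (tw_zero f) (det_mapGL_pos γ)
    (fun τ => by
      rw [tw_zero, SlashInvariantFormClass.slash_action_eq f (mapGL ℝ γ)
        (Subgroup.mem_map_of_mem _ hγ)]) x y τ UpperHalfPlane.I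
  unfold coc
  linear_combination h

theorem coc_HP (n : ℕ) (f : ℍ → ℂ) (γ : SL(2, ℤ)) : HP n (fun x y => coc n f γ x y) := by
  unfold coc
  refine (eichG_HP n (tw f) (mapGL ℝ γ) UpperHalfPlane.I).sub ?_
  simpa only [eichG_one] using eichG_HP n (tw f) 1 UpperHalfPlane.I

theorem coc_mul (f : CuspForm (Γ₀ N) ((n : ℤ) + 2)) {γ δ : SL(2, ℤ)} (hγ : γ ∈ Γ₀ N)
    (hδ : δ ∈ Γ₀ N) (x y : ℂ) :
    coc n f (γ * δ) x y =
      coc n f γ ((δ 0 0 : ℤ) * x + (δ 0 1 : ℤ) * y) ((δ 1 0 : ℤ) * x + (δ 1 1 : ℤ) * y)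
        + coc n f δ x y := by
  have h1 := coc_spec f (mul_mem hγ hδ) UpperHalfPlane.I x y
  rw [map_mul, eichG_mul, coc_spec f hγ] at h1
  have h2 := coc_spec f hδ UpperHalfPlane.I x y
  unfold eichG at h2
  simp only [mapGL_entry] at h1 h2
  linear_combination h2 - h1

theorem eich_add (f g : CuspForm (Γ₀ N) ((n : ℤ) + 2)) (τ : ℍ) (x y : ℂ) :
    eich n (tw (f + g : CuspForm (Γ₀ N) ((n : ℤ) + 2))) τ x y
      = eich n (tw f) τ x y + eich n (tw g) τ x y := by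
  have h := eich_eq_sum (ι := Fin 2) n (hs := fun _ => 1) (fun _ => one_pos)
    (t := ![tw f, tw g]) (by intro i; fin_cases i <;> simp [isTower_tw])
    (g := ![⇑f, ⇑g]) (by intro i τ; fin_cases i <;> simp [tw_zero])
    (α := fun _ => 1) (by intro i; simp) (by intro i; simp) one_pos (isTower_tw (f + g))
    (by intro τ; simp [tw_zero, Fin.sum_univ_two]) x y τ
  simpa [Fin.sum_univ_two, eichG_one] using h

theorem coc_add (f g : CuspForm (Γ₀ N) ((n : ℤ) + 2)) (γ : SL(2, ℤ)) (x y : ℂ) :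
    coc n (f + g : CuspForm (Γ₀ N) ((n : ℤ) + 2)) γ x y = coc n f γ x y + coc n g γ x y := by
  unfold coc eichG
  rw [eich_add, eich_add]
  ring

theorem coc_hecke {ι : Type*} [Fintype ι] {α : ι → GL (Fin 2) ℝ} (hα : ∀ i, 0 < (α i).val.det)
    (hut : ∀ i, α i 1 0 = 0) (f f' : CuspForm (Γ₀ N) ((n : ℤ) + 2))
    (hf' : ∀ τ : ℍ, f' τ = ∑ i, (⇑f ∣[(n : ℤ) + 2] α i) τ) {γ : SL(2, ℤ)}
    (σ : Equiv.Perm ι) {γ' : ι → SL(2, ℤ)} (hγ' : ∀ i, γ' i ∈ Γ₀ N)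
    (hmul : ∀ i, α i * mapGL ℝ γ = mapGL ℝ (γ' i) * α (σ i)) (x y : ℂ) :
    coc n f' γ x y = ∑ i, coc n f (γ' i) ((α (σ i) 0 0 : ℝ) * x + (α (σ i) 0 1 : ℝ) * y)
      ((α (σ i) 1 0 : ℝ) * x + (α (σ i) 1 1 : ℝ) * y) := by
  have E : ∀ (τ : ℍ) (x y : ℂ), eich n (tw f') τ x y = ∑ i, eichG n (tw f) (α i) τ x y :=
    fun τ x y => eich_eq_sum n (hs := fun _ => 1) (fun _ => one_pos) (fun _ => isTower_tw f)
      (fun _ => tw_zero f) hα hut one_pos (isTower_tw f')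
      (fun τ => by rw [tw_zero, hf']) x y τ
  conv_lhs => unfold coc
  rw [E UpperHalfPlane.I x y]
  conv_lhs => enter [1]; unfold eichG
  rw [E]
  have h1 : ∀ i, eichG n (tw f) (α i) (mapGL ℝ γ • UpperHalfPlane.I)
      (((mapGL ℝ γ : GL (Fin 2) ℝ) 0 0 : ℝ) * x + ((mapGL ℝ γ : GL (Fin 2) ℝ) 0 1 : ℝ) * y)
      (((mapGL ℝ γ : GL (Fin 2) ℝ) 1 0 : ℝ) * x + ((mapGL ℝ γ : GL (Fin 2) ℝ) 1 1 : ℝ) * y)
      = eichG n (tw f) (α (σ i)) UpperHalfPlane.I x y +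
        coc n f (γ' i) ((α (σ i) 0 0 : ℝ) * x + (α (σ i) 0 1 : ℝ) * y)
          ((α (σ i) 1 0 : ℝ) * x + (α (σ i) 1 1 : ℝ) * y) := by
    intro i
    rw [← eichG_mul, hmul, eichG_mul, coc_spec f (hγ' i)]
    rfl
  rw [Finset.sum_congr rfl fun i _ => h1 i, Finset.sum_add_distrib,
    Equiv.sum_comp σ (fun i => eichG n (tw f) (α i) UpperHalfPlane.I x y)]
  ring

end Fermat.Agent.S22Aux
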