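import Mathlib
import Fermat.Agent.S22.Cocycle
import Fermat.Prelude.Thm_Subgroup_IsArithmetic_exists_nat_mem_strictPeriods_conj
import Fermat.Prelude.Thm_ModularForm_sturm_bound_Gamma0

set_option autoImplicit false

open Complex Filter Topology Matrix.SpecialLinearGroup
open UpperHalfPlane hiding I
open scoped MatrixGroups ModularForm Manifold Pointwise

namespace Fermat.Agent.S22Aux

local notation "Γ₀" => CongruenceSubgroup.Gamma0

/-- The diagonal restriction of the Eichler integral (the classical Eichler integral). -/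
noncomputable def eichF (n : ℕ) (f : ℍ → ℂ) (τ : ℍ) : ℂ := eich n (tw f) τ τ 1

theorem eichF_slash (n : ℕ) (f : ℍ → ℂ) (γ : SL(2, ℤ)) (τ : ℍ) :
    (eichF n f ∣[-(n : ℤ)] γ) τ = eichG n (tw f) (mapGL ℝ γ) τ τ 1 := by
  rw [ModularForm.SL_slash_apply, neg_neg, zpow_natCast]
  unfold eichF eichG
  have hD := denom_ne_zero (mapGL ℝ γ) τ
  have hdet : 0 < (mapGL ℝ γ : GL (Fin 2) ℝ).det.val := by simp
  have h1 : (((mapGL ℝ γ : GL (Fin 2) ℝ) 0 0 : ℝ) : ℂ) * τ + ((mapGL ℝ γ : GL (Fin 2) ℝ) 0 1 : ℝ) * 1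
      = denom (mapGL ℝ γ) τ * ↑(mapGL ℝ γ • τ) := by
    rw [coe_smul_of_det_pos hdet]
    field_simp
    simp [num]
  have h2 : (((mapGL ℝ γ : GL (Fin 2) ℝ) 1 0 : ℝ) : ℂ) * τ + ((mapGL ℝ γ : GL (Fin 2) ℝ) 1 1 : ℝ) * 1
      = denom (mapGL ℝ γ) τ * 1 := by
    simp [denom]
  rw [h1, h2, eich_homog]
  rw [mul_comm]
  rfl

variable {N : ℕ} [NeZero N] {n : ℕ}

theorem eichF_slash_bdd (f : CuspForm (Γ₀ N) ((n : ℤ) + 2))
    (h0 : ∀ γ ∈ Γ₀ N, ∀ x y : ℂ, coc n f γ x y = 0) (γ : SL(2, ℤ)) :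
    IsBoundedAtImInfty (eichF n f ∣[-(n : ℤ)] γ) := by
  obtain ⟨M, hM0, hM⟩ := Subgroup.IsArithmetic.exists_nat_mem_strictPeriods_conj
    (Γ₀ N : Subgroup (GL (Fin 2) ℝ))
  set g : GL (Fin 2) ℝ := mapGL ℝ γ with hg
  let ft := CuspForm.translate f g
  have hper : (M : ℝ) ∈ (ConjAct.toConjAct g⁻¹ • (Γ₀ N : Subgroup (GL (Fin 2) ℝ))).strictPeriods := by
    have := hM γ⁻¹
    rwa [map_inv] at this
  have hMpos : (0 : ℝ) < M := by exact_mod_cast hM0
  have hcl : CuspLike M (⇑ft ∘ ofComplex) :=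
    cuspLike_of (SlashInvariantFormClass.periodic_comp_ofComplex ft hper) ft.holo'
      (CuspFormClass.zero_at_infty_slash f γ)
  set t' := tower M (⇑ft ∘ ofComplex) with ht'def
  have ht' : IsTower M t' := hcl.isTower hMpos
  have ht'0 : ∀ τ : ℍ, t' 0 τ = (⇑f ∣[(n : ℤ) + 2] g) τ := by
    intro τ
    simp only [ht'def, tower_zero, Function.comp_apply, ofComplex_apply]
    rfl
  let P : ℂ → ℂ → ℂ := fun x y =>
    eichG n (tw f) g UpperHalfPlane.I x y - eich n t' UpperHalfPlane.I x y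
  have hP : ∀ (τ : ℍ) (x y : ℂ), eichG n (tw f) g τ x y = eich n t' τ x y + P x y := by
    intro τ x y
    have := eichG_sub_eich_const n (isTower_tw f) ht' (tw_zero f) (det_mapGL_pos γ) ht'0 x y τ
      UpperHalfPlane.I
    simp only [P]
    linear_combination this
  have hPHP : HP n P := by
    refine (eichG_HP n (tw f) g UpperHalfPlane.I).sub ?_
    simpa only [eichG_one] using eichG_HP n t' 1 UpperHalfPlane.I
  set U : GL (Fin 2) ℝ := Matrix.GeneralLinearGroup.upperRightHom (M : ℝ) with hUdef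
  have hU : U ∈ ConjAct.toConjAct g⁻¹ • (Γ₀ N : Subgroup (GL (Fin 2) ℝ)) :=
    Subgroup.mem_strictPeriods_iff.mp hper
  rw [Subgroup.mem_pointwise_smul_iff_inv_smul_mem, ← map_inv, inv_inv, ConjAct.toConjAct_smul] at hU
  obtain ⟨δ, hδ, hδeq⟩ := hU
  have hgU : g * U = mapGL ℝ δ * g := by
    rw [hδeq]; group
  have hUI : ∀ τ : ℍ, (↑(U • τ) : ℂ) = τ + (M : ℝ) := by
    intro τ
    rw [coe_smul_of_det_pos (by simp [hUdef, Matrix.GeneralLinearGroup.val_det_apply])]
    simp [hUdef, num, denom]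
  have hperP : ∀ x y : ℂ, P (x + ((M : ℝ) : ℂ) * y) y = P x y := by
    intro x y
    have e1 : eichG n (tw f) (g * U) UpperHalfPlane.I x y
        = eichG n (tw f) g (U • UpperHalfPlane.I) (x + ((M : ℝ) : ℂ) * y) y := by
      rw [eichG_mul]
      simp [hUdef]
    have e2 : eichG n (tw f) (g * U) UpperHalfPlane.I x y = eichG n (tw f) g UpperHalfPlane.I x y := by
      rw [hgU, eichG_mul, coc_spec f hδ, h0 δ hδ, add_zero]
      rfl
    have e3 : eich n t' ↑(U • UpperHalfPlane.I) (x + ((M : ℝ) : ℂ) * y) y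
        = eich n t' UpperHalfPlane.I x y := by
      rw [hUI, eich_translate n ht']
    have e4 := hP (U • UpperHalfPlane.I) (x + ((M : ℝ) : ℂ) * y) y
    have e5 := hP UpperHalfPlane.I x y
    linear_combination e2 - e1 - e3 - e4 + e5
  have hconst : ∀ x, P x 1 = P 0 1 :=
    hPHP.const_of_periodic (by exact_mod_cast hMpos.ne') hperP
  have hfin : (eichF n f ∣[-(n : ℤ)] γ) =
      fun τ : ℍ => (n.factorial : ℂ) * t' (n + 1) τ + P 0 1 := by
    funext τ
    rw [eichF_slash, hP, eich_diag, hconst]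
  have hz : ZeroAtFilter atImInfty (fun τ : ℍ => t' (n + 1) τ) :=
    (ht'.cusp (n + 1)).zero.comp tendsto_coe_atImInfty
  rw [hfin]
  exact ((const_boundedAtFilter _ (n.factorial : ℂ)).mul hz.boundedAtFilter).add
    (const_boundedAtFilter _ (P 0 1))

theorem IsTower.eq_zero_of_succ {h : ℝ} {t : ℕ → ℂ → ℂ} (ht : IsTower h t) (j : ℕ)
    (hz : ∀ z : ℂ, 0 < z.im → t (j + 1) z = 0) : ∀ z : ℂ, 0 < z.im → t j z = 0 := by
  intro z hz'
  have h1 : HasDerivAt (t (j + 1)) 0 z := by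
    refine (hasDerivAt_const z (0 : ℂ)).congr_of_eventuallyEq ?_
    filter_upwards [isOpen_uhp.mem_nhds hz'] with w hw
    exact hz w hw
  exact (ht.deriv j z hz').unique h1

theorem IsTower.eq_zero_of_top {h : ℝ} {t : ℕ → ℂ → ℂ} (ht : IsTower h t) (j : ℕ)
    (hz : ∀ z : ℂ, 0 < z.im → t j z = 0) : ∀ z : ℂ, 0 < z.im → t 0 z = 0 := by
  induction j with
  | zero => exact hz
  | succ j ih => exact ih (ht.eq_zero_of_succ j hz)

theorem eichF_eq (n : ℕ) (f : ℍ → ℂ) (τ : ℍ) :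
    eichF n f τ = (n.factorial : ℂ) * tw f (n + 1) τ := by
  unfold eichF
  rw [eich_diag]

theorem eq_zero_of_coc_eq_zero (f : CuspForm (Γ₀ N) ((n : ℤ) + 2))
    (h : ∀ γ ∈ Γ₀ N, ∀ x y : ℤ, coc n f γ x y = 0) : f = 0 := by
  have h0 : ∀ γ ∈ Γ₀ N, ∀ x y : ℂ, coc n f γ x y = 0 :=
    fun γ hγ => (coc_HP n f γ).eq_zero_of_int (h γ hγ)
  let Fm : ModularForm (Γ₀ N) (-(n : ℤ)) :=
    { toFun := eichF n f
      slash_action_eq' := by
        rintro _ ⟨γ, hγ, rfl⟩
        funext τ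
        have h1 : (eichF n f ∣[-(n : ℤ)] (mapGL ℝ γ)) τ = eichG n (tw f) (mapGL ℝ γ) τ τ 1 :=
          eichF_slash n f γ τ
        rw [h1, coc_spec f hγ, h0 γ hγ, add_zero]
        rfl
      holo' := by
        rw [UpperHalfPlane.mdifferentiable_iff]
        refine DifferentiableOn.congr (f := fun z => (n.factorial : ℂ) * tw f (n + 1) z) ?_ ?_
        · intro z hz
          exact ((((isTower_tw f).cusp (n + 1)).diff z hz).const_mul _).differentiableWithinAt
        · intro z hz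
          simp only [SlashInvariantForm.coe_mk, Function.comp_apply, ofComplex_apply_of_im_pos hz,
            eichF_eq]
      bdd_at_cusps' := fun hc => by
        rw [Subgroup.IsArithmetic.isCusp_iff_isCusp_SL2Z] at hc
        rw [OnePoint.isBoundedAt_iff_forall_SL2Z hc]
        intro γ _
        exact eichF_slash_bdd f h0 γ }
  have hΓ := CongruenceSubgroup.one_mem_strictPeriods_Gamma0 N
  have hzero : IsZeroAtImInfty (⇑Fm) := by
    have hz : ZeroAtFilter atImInfty (fun τ : ℍ => tw f (n + 1) τ) :=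
      ((isTower_tw f).cusp (n + 1)).zero.comp tendsto_coe_atImInfty
    have h2 : (⇑Fm : ℍ → ℂ) = fun τ : ℍ => (n.factorial : ℂ) * tw f (n + 1) τ :=
      funext fun τ => eichF_eq n f τ
    rw [h2]
    have := Tendsto.const_mul (n.factorial : ℂ) hz
    rw [mul_zero] at this
    exact this
  have hF0 : Fm = 0 := by
    apply ModularForm.sturm_bound_Gamma0 N
    intro m hm
    have hm0 : m = 0 := by
      have h1 : (-(n : ℤ) * ((Γ₀ N).index : ℤ)).toNat = 0 := by
        apply Int.toNat_of_nonpos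
        have : (0 : ℤ) ≤ (n : ℤ) * ((Γ₀ N).index : ℤ) := by positivity
        linarith
      rw [h1] at hm
      simpa using hm
    subst hm0
    rw [UpperHalfPlane.qExpansion_coeff_zero one_pos
      (ModularFormClass.analyticAt_cuspFunction_zero Fm one_pos hΓ)
      (SlashInvariantFormClass.periodic_comp_ofComplex Fm hΓ)]
    exact hzero.valueAtInfty_eq_zero
  have htop : ∀ z : ℂ, 0 < z.im → tw f (n + 1) z = 0 := by
    intro z hz
    have h1 : Fm ⟨z, hz⟩ = 0 := by rw [hF0]; rfl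
    have h2 : Fm ⟨z, hz⟩ = (n.factorial : ℂ) * tw f (n + 1) z := eichF_eq n f ⟨z, hz⟩
    rw [h2] at h1
    exact (mul_eq_zero.mp h1).resolve_left (by exact_mod_cast n.factorial_ne_zero)
  have hbot := (isTower_tw f).eq_zero_of_top (n + 1) htop
  ext τ
  rw [← tw_zero f τ, hbot τ τ.im_pos]
  rfl

end Fermat.Agent.S22Aux
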