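import Mathlib
import Fermat.Agent.S22.Algebra
import Fermat.Agent.S22.Injective
import Fermat.Prelude.Def_CuspForm_HeckeAlgebra

set_option autoImplicit false

open Complex Filter Topology Matrix.SpecialLinearGroup
open UpperHalfPlane hiding I
open scoped MatrixGroups ModularForm Manifold Pointwise

namespace Fermat.Agent.S22Aux

local notation "Γ₀" => CongruenceSubgroup.Gamma0

/-- The space of cusp forms of weight `n + 2`. -/
abbrev Sk (N n : ℕ) := CuspForm (Γ₀ N) ((n : ℤ) + 2)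

/-- The ambient group of rational valued functions. -/
abbrev WW (N : ℕ) := ↥(Γ₀ N) → ℤ × ℤ → ℚ

/-- Action of integral matrices on pairs of integers. -/
def actM (A : Matrix (Fin 2) (Fin 2) ℤ) (v : ℤ × ℤ) : ℤ × ℤ :=
  (A 0 0 * v.1 + A 0 1 * v.2, A 1 0 * v.1 + A 1 1 * v.2)

/-- Action of `Γ₀(N)` on pairs of integers. -/
def actG (N : ℕ) (δ : ↥(Γ₀ N)) (v : ℤ × ℤ) : ℤ × ℤ := actM δ.1.1 v

theorem actG_one (N : ℕ) (v : ℤ × ℤ) : actG N 1 v = v := by
  simp [actG, actM]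

instance : Group.FG SL(2, ℤ) :=
  ⟨⟨{ModularGroup.S, ModularGroup.T}, by
    simpa using _root_.SpecialLinearGroup.SL2Z_generators⟩⟩

instance (N : ℕ) [NeZero N] : Group.FG ↥(Γ₀ N) := Subgroup.fg_of_index_ne_zero _

variable (N : ℕ) [NeZero N] (n : ℕ)

/-- The rational period maps. -/
noncomputable def psi (l : ℂ →ₗ[ℚ] ℚ) : Sk N n →+ WW N :=
  AddMonoidHom.mk' (fun f γ v => l (coc n f γ.1 v.1 v.2)) (by
    intro f g
    funext γ v
    simp only [Pi.add_apply]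
    rw [coc_add, map_add])

theorem psi_apply (l : ℂ →ₗ[ℚ] ℚ) (f : Sk N n) (γ : ↥(Γ₀ N)) (v : ℤ × ℤ) :
    psi N n l f γ v = l (coc n f γ.1 v.1 v.2) := rfl

/-- The span of all rational period cocycles. -/
noncomputable def Wspan : Submodule ℤ (WW N) :=
  Submodule.span ℤ {w | ∃ (l : ℂ →ₗ[ℚ] ℚ) (f : Sk N n), w = psi N n l f}

/-- The lattice of integral valued period cocycles. -/
noncomputable def Lam : Submodule ℤ (WW N) := Wspan N n ⊓ intVal ↥(Γ₀ N)

theorem psi_mem_good (l : ℂ →ₗ[ℚ] ℚ) (f : Sk N n) : psi N n l f ∈ goodSub (actG N) n := by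
  refine ⟨fun γ δ v => ?_, fun γ => ?_⟩
  · simp only [psi_apply, Subgroup.coe_mul]
    rw [coc_mul f γ.2 δ.2, map_add]
    simp only [actG, actM]
    push_cast
    rfl
  · exact (coc_HP n f γ.1).toHPQ l

theorem Wspan_le_good : Wspan N n ≤ goodSub (actG N) n := by
  unfold Wspan
  rw [Submodule.span_le]
  rintro _ ⟨l, f, rfl⟩
  exact psi_mem_good N n l f

theorem Lam_fg : (Lam N n).FG := by
  have h1 := fg_good_inf_intVal (act := actG N) (actG_one N) n
  have : IsNoetherian ℤ ↥(goodSub (actG N) n ⊓ intVal ↥(Γ₀ N)) :=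
    isNoetherian_of_fg_of_noetherian _ h1
  exact isNoetherian_submodule.mp this _ (inf_le_inf_right _ (Wspan_le_good N n))

theorem psi_injective (f : Sk N n) (h : ∀ l, psi N n l f = 0) : f = 0 := by
  apply eq_zero_of_coc_eq_zero
  intro γ hγ x y
  rw [← Module.forall_dual_apply_eq_zero_iff ℚ]
  intro l
  exact congrFun (congrFun (h l) ⟨γ, hγ⟩) (x, y)

theorem psi_denom (l : ℂ →ₗ[ℚ] ℚ) (f : Sk N n) : ∃ m : ℕ, m ≠ 0 ∧ m • psi N n l f ∈ Lam N n := by
  obtain ⟨m, hm, hmem⟩ := exists_denom_of_good (actG_one N) (psi_mem_good N n l f)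
  refine ⟨m, hm, ?_, hmem⟩
  exact (Wspan N n).smul_of_tower_mem m (Submodule.subset_span ⟨l, f, rfl⟩)

variable {N n}

/-- The key compatibility: a Hecke operator given by upper triangular integral representatives
is intertwined with an operator preserving the lattice. -/
theorem exists_lattice_operator {ι : Type*} [Fintype ι] (α : ι → GL (Fin 2) ℝ)
    (A : ι → Matrix (Fin 2) (Fin 2) ℤ) (hA : ∀ i r s, (α i) r s = (A i r s : ℝ))
    (hα : ∀ i, 0 < (α i).val.det) (hut : ∀ i, α i 1 0 = 0)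
    (t : Module.End ℂ (Sk N n)) (ht : ∀ (f : Sk N n) (τ : ℍ), t f τ = ∑ i, (⇑f ∣[(n : ℤ) + 2] α i) τ)
    (hperm : ∀ γ ∈ Γ₀ N, ∃ (σ : Equiv.Perm ι) (γ' : ι → SL(2, ℤ)), (∀ i, γ' i ∈ Γ₀ N) ∧
      ∀ i, α i * mapGL ℝ γ = mapGL ℝ (γ' i) * α (σ i)) :
    ∃ τ : WW N →ₗ[ℤ] WW N, (∀ w ∈ Lam N n, τ w ∈ Lam N n) ∧
      ∀ l (f : Sk N n), psi N n l (t f) = τ (psi N n l f) := by
  choose σ γ' hγ' hmul using hperm
  let τ : WW N →ₗ[ℤ] WW N :=
    { toFun := fun c γ v => ∑ i, c ⟨γ' γ.1 γ.2 i, hγ' γ.1 γ.2 i⟩ (actM (A (σ γ.1 γ.2 i)) v)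
      map_add' := by
        intro a b
        funext γ v
        simp [Finset.sum_add_distrib]
      map_smul' := by
        intro m a
        funext γ v
        simp [Finset.mul_sum] }
  have hτ : ∀ l (f : Sk N n), psi N n l (t f) = τ (psi N n l f) := by
    intro l f
    funext γ v
    show l (coc n (t f) γ.1 v.1 v.2) = ∑ i, l (coc n f (γ' γ.1 γ.2 i) _ _)
    rw [coc_hecke hα hut f (t f) (ht f) (σ γ.1 γ.2) (hγ' γ.1 γ.2) (hmul γ.1 γ.2), map_sum]
    refine Finset.sum_congr rfl fun i _ => ?_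
    simp only [actM, hA]
    push_cast
    rfl
  refine ⟨τ, ?_, hτ⟩
  rintro w ⟨hw1, hw2⟩
  refine ⟨?_, ?_⟩
  · have : Submodule.map τ (Wspan N n) ≤ Wspan N n := by
      unfold Wspan
      rw [Submodule.map_span_le]
      rintro _ ⟨l, f, rfl⟩
      rw [← hτ]
      exact Submodule.subset_span ⟨l, t f, rfl⟩
    exact this ⟨w, hw1, rfl⟩
  · intro γ v
    choose z hz using fun i => hw2 ⟨γ' γ.1 γ.2 i, hγ' γ.1 γ.2 i⟩ (actM (A (σ γ.1 γ.2 i)) v)
    refine ⟨∑ i, z i, ?_⟩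
    show ∑ i, w _ _ = _
    push_cast
    exact Finset.sum_congr rfl fun i _ => hz i

end Fermat.Agent.S22Aux
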