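import Mathlib
import Fermat.Agent.S22.Main
import Fermat.Prelude.Sol.S_ModularForm_heckeT_slash_eq_self_of_mem_Gamma0

set_option autoImplicit false

open Complex Filter Topology Matrix.SpecialLinearGroup
open UpperHalfPlane hiding I
open scoped MatrixGroups ModularForm Manifold Pointwise
open P2MW.S_ModularForm_heckeT_slash_eq_self_of_mem_Gamma0.ModularForm.HeckeSlashInvariance

namespace Fermat.Agent.S22Aux

local notation "Γ₀" => CongruenceSubgroup.Gamma0

variable {N : ℕ} [NeZero N] {n : ℕ}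

theorem exists_operator_T {p : ℕ} (hp : p.Prime) (hpN : ¬ p ∣ N) :
    ∃ τ : WW N →ₗ[ℤ] WW N, (∀ w ∈ Lam N n, τ w ∈ Lam N n) ∧
      ∀ l (f : Sk N n), psi N n l (CuspForm.heckeTLin ((n : ℤ) + 2) hp hpN f) = τ (psi N n l f) := by
  haveI : Fact p.Prime := ⟨hp⟩
  haveI : NeZero p := ⟨hp.ne_zero⟩
  refine exists_lattice_operator (ι := OnePoint (ZMod p)) (heckeRep p)
    (fun x => x.elim !![(p : ℤ), 0; 0, 1] (fun j => !![1, (j.val : ℤ); 0, (p : ℤ)]))
    ?_ ?_ ?_ (CuspForm.heckeTLin _ hp hpN) ?_ ?_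
  · intro x r s
    induction x using OnePoint.rec with
    | infty =>
      rw [heckeRep_infty, ModularForm.val_heckeDiagMatrix hp.ne_zero]
      fin_cases r <;> fin_cases s <;> simp
    | coe j =>
      rw [heckeRep_coe, ModularForm.val_heckeMatrix hp.ne_zero]
      fin_cases r <;> fin_cases s <;> simp
  · intro x
    rw [← Matrix.GeneralLinearGroup.val_det_apply]
    induction x using OnePoint.rec with
    | infty => exact ModularForm.det_heckeDiagMatrix_pos p
    | coe j => exact ModularForm.det_heckeMatrix_pos p _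
  · intro x
    induction x using OnePoint.rec with
    | infty => rw [heckeRep_infty, ModularForm.val_heckeDiagMatrix hp.ne_zero]; simp
    | coe j => rw [heckeRep_coe, ModularForm.val_heckeMatrix hp.ne_zero]; simp
  · intro f τ
    show ModularForm.heckeT _ p f τ = _
    rw [heckeT_eq_sum_onePoint, Finset.sum_apply]
  · intro γ hγ
    have hcN : (N : ℤ) ∣ γ 1 0 :=
      (ZMod.intCast_zmod_eq_zero_iff_dvd _ _).mp (CongruenceSubgroup.Gamma0_mem.mp hγ)
    choose g' h1 h2 using fun x => heckeRep_mul hpN γ hcN x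
    exact ⟨MulAction.toPerm (redMatrix p γ), g', fun i =>
      CongruenceSubgroup.Gamma0_mem.mpr ((ZMod.intCast_zmod_eq_zero_iff_dvd _ _).mpr (h1 i)), h2⟩

theorem exists_operator_U {q : ℕ} (hqN : q ∣ N) :
    ∃ τ : WW N →ₗ[ℤ] WW N, (∀ w ∈ Lam N n, τ w ∈ Lam N n) ∧
      ∀ l (f : Sk N n), psi N n l (CuspForm.heckeULin ((n : ℤ) + 2) hqN f) = τ (psi N n l f) := by
  have hq0 : q ≠ 0 := fun h => NeZero.ne N (Nat.eq_zero_of_zero_dvd (h ▸ hqN))
  haveI : NeZero q := ⟨hq0⟩
  refine exists_lattice_operator (ι := ZMod q) (fun x => ModularForm.heckeMatrix q x.val)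
    (fun j => !![1, (j.val : ℤ); 0, (q : ℤ)])
    ?_ ?_ ?_ (CuspForm.heckeULin _ hqN) ?_ ?_
  · intro j r s
    rw [ModularForm.val_heckeMatrix hq0]
    fin_cases r <;> fin_cases s <;> simp
  · intro j
    rw [← Matrix.GeneralLinearGroup.val_det_apply]
    exact ModularForm.det_heckeMatrix_pos q _
  · intro j
    rw [ModularForm.val_heckeMatrix hq0]; simp
  · intro f τ
    show ModularForm.heckeU _ q f τ = _
    rw [heckeU_eq_sum_zmod, Finset.sum_apply]
  · intro γ hγ
    have hcN : (N : ℤ) ∣ γ 1 0 :=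
      (ZMod.intCast_zmod_eq_zero_iff_dvd _ _).mp (CongruenceSubgroup.Gamma0_mem.mp hγ)
    have hc : (q : ℤ) ∣ γ 1 0 := (Int.natCast_dvd_natCast.mpr hqN).trans hcN
    choose g' h1 h2 using fun x => heckeMatrix_mul_of_dvd γ hc x
    refine ⟨affinePerm γ ((ZMod.intCast_zmod_eq_zero_iff_dvd _ _).mpr hc), g', fun i => ?_, h2⟩
    rw [CongruenceSubgroup.Gamma0_mem, h1]
    push_cast
    rw [CongruenceSubgroup.Gamma0_mem.mp hγ, mul_zero]

/-- The Hecke algebra in weight `n + 2` is a finite `ℤ`-module. -/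
theorem finite_heckeAlgebra_add_two (N : ℕ) [NeZero N] (n : ℕ) (S : Set ℕ) :
    Module.Finite ℤ (CuspForm.heckeAlgebra N ((n : ℤ) + 2) S) := by
  refine finite_adjoin_of_lattice (Lam N n) (Lam_fg N n) (psi N n) (psi_injective N n)
    (psi_denom N n) (CuspForm.heckeGenerators N ((n : ℤ) + 2) S) ?_
  rintro t (⟨ℓ, hℓ, hℓN, -, rfl⟩ | ⟨q, hqN, -, -, rfl⟩)
  · exact exists_operator_T hℓ hℓN
  · exact exists_operator_U hqN

end Fermat.Agent.S22Aux
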