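import Mathlib
import Fermat.Prelude.Thm_ModularForm_sturm_bound_Gamma0
import Fermat.Prelude.Thm_CongruenceSubgroup_one_mem_strictPeriods_Gamma0

set_option autoImplicit false

open Complex Filter Topology Matrix.SpecialLinearGroup
open UpperHalfPlane hiding I
open scoped MatrixGroups ModularForm Manifold

namespace Fermat.Agent.S22Aux

local notation "Γ₀" => CongruenceSubgroup.Gamma0

theorem cuspForm_eq_zero_of_nonpos (N : ℕ) [NeZero N] {k : ℤ} (hk : k ≤ 0)
    (f : CuspForm (Γ₀ N) k) : f = 0 := by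
  have hΓ := CongruenceSubgroup.one_mem_strictPeriods_Gamma0 N
  have h0 : CuspForm.toModularFormₗ f = 0 := by
    apply ModularForm.sturm_bound_Gamma0 N
    intro m hm
    have hm0 : m = 0 := by
      have h1 : (k * ((Γ₀ N).index : ℤ)).toNat = 0 := by
        apply Int.toNat_of_nonpos
        exact mul_nonpos_of_nonpos_of_nonneg hk (by positivity)
      rw [h1] at hm
      simpa using hm
    subst hm0
    exact CuspFormClass.qExpansion_coeff_zero f one_pos hΓ
  exact CuspForm.toModularFormₗ_injective (by rw [h0, map_zero])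

theorem cuspForm_eq_zero_of_weight_one (N : ℕ) (f : CuspForm (Γ₀ N) 1) : f = 0 := by
  ext τ
  have hmem : (-1 : SL(2, ℤ)) ∈ Γ₀ N := by
    rw [CongruenceSubgroup.Gamma0_mem]
    simp
  have h1 := congrFun (SlashInvariantFormClass.slash_action_eq f (mapGL ℝ (-1 : SL(2, ℤ)))
    (Subgroup.mem_map_of_mem _ hmem)) τ
  have h2 : (⇑f ∣[(1 : ℤ)] (mapGL ℝ (-1 : SL(2, ℤ)))) τ = - f τ := by
    have := ModularForm.SL_slash_apply (k := 1) (⇑f) (-1 : SL(2, ℤ)) τ
    rw [ModularForm.SL_slash] at this
    refine this.trans ?_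
    simp [denom]
  rw [h2] at h1
  have h3 : (2 : ℂ) * f τ = 0 := by linear_combination -h1
  simpa using h3

end Fermat.Agent.S22Aux
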