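import Mathlib
import Fermat.Prelude.Def_CuspForm_HeckeAlgebra

set_option autoImplicit false

open UpperHalfPlane ModularForm Complex Filter Asymptotics
open scoped MatrixGroups Manifold Topology

namespace Fermat.Agent.S22

/-- Holomorphic on the upper half plane, with exponential decay at `i∞`. -/
structure IsDecay (F : ℍ → ℂ) : Prop where
  holo : MDiff F
  decay : ∃ c : ℝ, 0 < c ∧ F =O[atImInfty] fun τ : ℍ => Real.exp (-c * τ.im)

/-- `G` is a holomorphic primitive of `F` on the upper half plane. -/
def IsPrim (G F : ℍ → ℂ) : Prop :=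
  ∀ τ : ℍ, HasDerivAt (G ∘ ofComplex) (F τ) (τ : ℂ)

end Fermat.Agent.S22
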