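import Mathlib
import Fermat.Prelude.Def_CuspForm_HeckeAlgebra
import Fermat.Agent.S22.Defs

set_option autoImplicit false

open UpperHalfPlane ModularForm Complex Filter Asymptotics
open scoped MatrixGroups Manifold Topology Pointwise

namespace Fermat.Agent.S22

/-- A cusp form for an arithmetic group, slashed by a rational matrix, is holomorphic and decays
exponentially at `i∞`. -/
theorem isDecay_slash_of_isArithmetic {Γ : Subgroup (GL (Fin 2) ℝ)} [Γ.IsArithmetic] {k : ℤ}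
    (f : CuspForm Γ k) (A : GL (Fin 2) ℚ) :
    IsDecay (⇑f ∣[k] (A.map (Rat.castHom ℝ))) := by
  have hAr : (ConjAct.toConjAct (A.map (Rat.castHom ℝ))⁻¹ • Γ).IsArithmetic := by
    have := Subgroup.IsArithmetic.conj Γ A⁻¹
    simpa using this
  let g : CuspForm (ConjAct.toConjAct (A.map (Rat.castHom ℝ))⁻¹ • Γ) k :=
    CuspForm.translate f (A.map (Rat.castHom ℝ))
  have hg : (⇑g : ℍ → ℂ) = ⇑f ∣[k] (A.map (Rat.castHom ℝ)) := rfl
  rw [← hg]
  refine ⟨CuspFormClass.holo g, ?_⟩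
  obtain ⟨c, hc, h⟩ := CuspFormClass.exp_decay_atImInfty' g
  exact ⟨c, hc, h⟩

theorem isDecay_slash {N : ℕ} [NeZero N] {k : ℤ} (f : CuspForm (CongruenceSubgroup.Gamma0 N) k)
    (A : GL (Fin 2) ℚ) : IsDecay (⇑f ∣[k] (A.map (Rat.castHom ℝ))) :=
  isDecay_slash_of_isArithmetic f A

/-- The subgroup of `GL(2, ℝ)` of matrices with rational entries. -/
noncomputable def ratGL : Subgroup (GL (Fin 2) ℝ) :=
  (Matrix.GeneralLinearGroup.map (n := Fin 2) (Rat.castHom ℝ)).range

theorem isDecay_slash_of_mem_ratGL {N : ℕ} [NeZero N] {k : ℤ}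
    (f : CuspForm (CongruenceSubgroup.Gamma0 N) k) {g : GL (Fin 2) ℝ} (hg : g ∈ ratGL) :
    IsDecay (⇑f ∣[k] g) := by
  obtain ⟨A, rfl⟩ := hg
  exact isDecay_slash f A

theorem upperTriangularGL_mem_ratGL (a b d : ℚ) (had : (a : ℝ) * (d : ℝ) ≠ 0) :
    upperTriangularGL a b d had ∈ ratGL := by
  have had' : a * d ≠ 0 := by exact_mod_cast had
  refine ⟨Matrix.GeneralLinearGroup.mkOfDetNeZero !![a, b; 0, d]
    (by rwa [Matrix.det_fin_two_of, mul_zero, sub_zero]), ?_⟩
  ext i j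
  fin_cases i <;> fin_cases j <;>
    simp [upperTriangularGL, Matrix.GeneralLinearGroup.mkOfDetNeZero]

theorem heckeMatrix_mem_ratGL (p j : ℕ) : heckeMatrix p j ∈ ratGL := by
  rcases eq_or_ne p 0 with rfl | hp
  · rw [heckeMatrix_zero]; exact one_mem _
  · have := upperTriangularGL_mem_ratGL 1 j p (by simpa using hp)
    simpa [heckeMatrix, hp] using this

theorem heckeDiagMatrix_mem_ratGL (p : ℕ) : heckeDiagMatrix p ∈ ratGL := by
  rcases eq_or_ne p 0 with rfl | hp
  · rw [heckeDiagMatrix_zero]; exact one_mem _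
  · have := upperTriangularGL_mem_ratGL p 0 1 (by simpa using hp)
    simpa [heckeDiagMatrix, hp] using this

theorem mapGL_mem_ratGL (γ : SL(2, ℤ)) : Matrix.SpecialLinearGroup.mapGL ℝ γ ∈ ratGL := by
  refine ⟨Matrix.SpecialLinearGroup.mapGL ℚ γ, ?_⟩
  ext i j
  simp

end Fermat.Agent.S22
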