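import Mathlib
import Fermat.Prelude.Def_ModularForm_HeckeOperator
import Fermat.Agent.S22.SlashDecay

set_option autoImplicit false

open ModularForm
open scoped MatrixGroups

namespace Fermat.Agent.S22

/-- Integer matrices of positive determinant factor as `SL(2,ℤ)` times upper triangular with
positive diagonal. -/
theorem exists_SL2_mul_upper (a b c d : ℤ) (h : 0 < a * d - b * c) :
    ∃ (γ : SL(2, ℤ)) (e f g : ℤ), 0 < e ∧ 0 < g ∧ e * g = a * d - b * c ∧
      (!![a, b; c, d] : Matrix (Fin 2) (Fin 2) ℤ) =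
        (γ : Matrix (Fin 2) (Fin 2) ℤ) * !![e, f; 0, g] := by
  have hne : ¬ (a = 0 ∧ c = 0) := by
    rintro ⟨rfl, rfl⟩
    simp at h
  set e : ℤ := (Int.gcd a c : ℤ) with he
  have hepos : 0 < e := by
    have : 0 < Int.gcd a c := Int.gcd_pos_iff.mpr (by tauto)
    rw [he]; exact_mod_cast this
  obtain ⟨a', ha'⟩ : e ∣ a := Int.gcd_dvd_left a c
  obtain ⟨c', hc'⟩ : e ∣ c := Int.gcd_dvd_right a c
  have hbez : e = a * Int.gcdA a c + c * Int.gcdB a c := Int.gcd_eq_gcd_ab a c
  set x := Int.gcdA a c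
  set y := Int.gcdB a c
  have h1 : a' * x + c' * y = 1 := by
    have : e * (a' * x + c' * y) = e * 1 := by
      rw [mul_one]
      conv_rhs => rw [hbez, ha', hc']
      ring
    exact mul_left_cancel₀ hepos.ne' this
  refine ⟨⟨!![a', -y; c', x], by rw [Matrix.det_fin_two_of]; linarith⟩, e, x * b + y * d,
    a' * d - c' * b, hepos, ?_, ?_, ?_⟩
  · have : 0 < e * (a' * d - c' * b) := by
      have : e * (a' * d - c' * b) = a * d - b * c := by rw [ha', hc']; ring
      rw [this]; exact h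
    exact (pos_iff_pos_of_mul_pos this).mp hepos
  · rw [ha', hc']; ring
  · ext i j
    fin_cases i <;> fin_cases j
    · simp [Matrix.mul_apply, Fin.sum_univ_two, ha', mul_comm]
    · simp only [Matrix.mul_apply, Fin.sum_univ_two]
      simp
      linear_combination (-b) * h1
    · simp [Matrix.mul_apply, Fin.sum_univ_two, hc', mul_comm]
    · simp only [Matrix.mul_apply, Fin.sum_univ_two]
      simp
      linear_combination (-d) * h1

/-- The submonoid of `GL(2, ℝ)` of integer matrices with positive determinant. -/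
def intPosGL : Submonoid (GL (Fin 2) ℝ) where
  carrier := {g | 0 < (g.det : ℝ) ∧ ∃ M : Matrix (Fin 2) (Fin 2) ℤ,
    (g : Matrix (Fin 2) (Fin 2) ℝ) = M.map (Int.cast : ℤ → ℝ)}
  one_mem' := ⟨by simp, 1, by ext i j; fin_cases i <;> fin_cases j <;> simp⟩
  mul_mem' := by
    rintro g h ⟨hg, M, hM⟩ ⟨hh, M', hM'⟩
    refine ⟨by simpa using mul_pos hg hh, M * M', ?_⟩
    rw [Matrix.GeneralLinearGroup.coe_mul, hM, hM']
    exact (Matrix.map_mul (f := Int.castRingHom ℝ)).symm

theorem mem_intPosGL {g : GL (Fin 2) ℝ} : g ∈ intPosGL ↔ 0 < (g.det : ℝ) ∧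
    ∃ M : Matrix (Fin 2) (Fin 2) ℤ, (g : Matrix (Fin 2) (Fin 2) ℝ) = M.map (Int.cast : ℤ → ℝ) :=
  Iff.rfl

theorem mapGL_mem_intPosGL (γ : SL(2, ℤ)) : Matrix.SpecialLinearGroup.mapGL ℝ γ ∈ intPosGL :=
  ⟨by simp, γ, by ext i j; simp⟩

theorem upperTriangularGL_mem_intPosGL (a b d : ℤ) (ha : 0 < a) (hd : 0 < d) :
    upperTriangularGL a b d (by positivity) ∈ intPosGL := by
  refine ⟨?_, !![a, b; 0, d], ?_⟩
  · rw [Matrix.GeneralLinearGroup.val_det_apply, val_upperTriangularGL, Matrix.det_fin_two_of]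
    simp only [mul_zero, sub_zero]
    positivity
  · ext i j
    fin_cases i <;> fin_cases j <;> simp

theorem heckeMatrix_mem_intPosGL (p j : ℕ) : heckeMatrix p j ∈ intPosGL := by
  rcases eq_or_ne p 0 with rfl | hp
  · rw [heckeMatrix_zero]; exact one_mem _
  · have := upperTriangularGL_mem_intPosGL 1 j p one_pos (by exact_mod_cast Nat.pos_of_ne_zero hp)
    simpa [heckeMatrix, hp] using this

theorem heckeDiagMatrix_mem_intPosGL (p : ℕ) : heckeDiagMatrix p ∈ intPosGL := by
  rcases eq_or_ne p 0 with rfl | hp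
  · rw [heckeDiagMatrix_zero]; exact one_mem _
  · have := upperTriangularGL_mem_intPosGL p 0 1 (by exact_mod_cast Nat.pos_of_ne_zero hp) one_pos
    simpa [heckeDiagMatrix, hp] using this

/-- Every integer matrix of positive determinant is `γ * u` with `γ ∈ SL(2,ℤ)` and `u` upper
triangular with integer entries and positive diagonal. -/
theorem exists_mapGL_mul_upperTriangularGL {g : GL (Fin 2) ℝ} (hg : g ∈ intPosGL) :
    ∃ (γ : SL(2, ℤ)) (a b d : ℤ) (ha : 0 < a) (hd : 0 < d),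
      g = Matrix.SpecialLinearGroup.mapGL ℝ γ * upperTriangularGL a b d (by positivity) := by
  obtain ⟨hdet, M, hM⟩ := hg
  have hM' : M = !![M 0 0, M 0 1; M 1 0, M 1 1] := by
    ext i j; fin_cases i <;> fin_cases j <;> rfl
  have hdet' : 0 < M 0 0 * M 1 1 - M 0 1 * M 1 0 := by
    rw [Matrix.GeneralLinearGroup.val_det_apply, hM, Matrix.det_fin_two] at hdet
    simp only [Matrix.map_apply] at hdet
    exact_mod_cast hdet
  obtain ⟨γ, e, f, d, he, hd, -, h⟩ := exists_SL2_mul_upper _ _ _ _ hdet'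
  refine ⟨γ, e, f, d, he, hd, ?_⟩
  apply Units.ext
  rw [hM, hM', h, Matrix.GeneralLinearGroup.coe_mul, val_upperTriangularGL]
  refine (Matrix.map_mul (f := Int.castRingHom ℝ)).trans ?_
  congr 1
  ext i j
  fin_cases i <;> fin_cases j <;> simp

theorem mem_ratGL_of_mem_intPosGL {g : GL (Fin 2) ℝ} (hg : g ∈ intPosGL) : g ∈ ratGL := by
  obtain ⟨γ, a, b, d, ha, hd, rfl⟩ := exists_mapGL_mul_upperTriangularGL hg
  refine mul_mem (mapGL_mem_ratGL γ) ?_
  have := upperTriangularGL_mem_ratGL a b d (by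
    have ha' : (0 : ℝ) < a := by exact_mod_cast ha
    have hd' : (0 : ℝ) < d := by exact_mod_cast hd
    push_cast
    positivity)
  simpa using this

theorem isDecay_slash_of_mem_intPosGL {N : ℕ} [NeZero N] {k : ℤ}
    (f : CuspForm (CongruenceSubgroup.Gamma0 N) k) {g : GL (Fin 2) ℝ} (hg : g ∈ intPosGL) :
    IsDecay (⇑f ∣[k] g) :=
  isDecay_slash_of_mem_ratGL f (mem_ratGL_of_mem_intPosGL hg)

end Fermat.Agent.S22
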