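import Fermat.Agent.S22.PeriodDefs

set_option autoImplicit false

open UpperHalfPlane ModularForm Complex Filter Asymptotics
open scoped MatrixGroups Manifold Topology

namespace Fermat.Agent.S22

/-- The analytic input (existence of normalised primitives), used as a `Fact` instance argument
throughout this file; it is discharged in the final assembly. -/
def ExistsPrim : Prop := ∀ F : ℍ → ℂ, IsDecay F → ∃ G, IsDecay G ∧ IsPrim G F

theorem IsPrim.const_of_zero {G : ℍ → ℂ} (h : IsPrim G 0) : ∀ τ τ' : ℍ, G τ = G τ' := by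
  have hd : DifferentiableOn ℂ (G ∘ ofComplex) {z : ℂ | 0 < z.im} := fun z hz =>
    (h ⟨z, hz⟩).differentiableAt.differentiableWithinAt
  have hd' : Set.EqOn (deriv (G ∘ ofComplex)) 0 {z : ℂ | 0 < z.im} := fun z hz =>
    (h ⟨z, hz⟩).deriv
  have hpre : IsPreconnected {z : ℂ | 0 < z.im} :=
    (convex_halfSpace_im_gt 0).isPreconnected
  intro τ τ'
  have := isOpen_upperHalfPlaneSet.is_const_of_deriv_eq_zero hpre hd hd' τ.im_pos τ'.im_pos
  simpa using this

/-! ### Closure properties of `IsDecay` -/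

theorem IsDecay.zero : IsDecay (0 : ℍ → ℂ) :=
  ⟨mdifferentiable_const, 1, one_pos, isBigO_zero _ _⟩

theorem isBigO_exp_of_le {c c' : ℝ} (h : c' ≤ c) :
    (fun τ : ℍ => Real.exp (-c * τ.im)) =O[atImInfty] fun τ : ℍ => Real.exp (-c' * τ.im) := by
  refine IsBigO.of_bound 1 (Eventually.of_forall fun τ => ?_)
  rw [one_mul, Real.norm_eq_abs, Real.norm_eq_abs, abs_of_pos (Real.exp_pos _),
    abs_of_pos (Real.exp_pos _)]
  apply Real.exp_le_exp.mpr
  have := τ.im_pos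
  nlinarith

theorem IsDecay.add {F G : ℍ → ℂ} (hF : IsDecay F) (hG : IsDecay G) : IsDecay (F + G) := by
  obtain ⟨c, hc, h1⟩ := hF.decay
  obtain ⟨c', hc', h2⟩ := hG.decay
  refine ⟨hF.holo.add hG.holo, min c c', lt_min hc hc', ?_⟩
  exact (h1.trans (isBigO_exp_of_le (min_le_left _ _))).add
    (h2.trans (isBigO_exp_of_le (min_le_right _ _)))

theorem IsDecay.const_smul {F : ℍ → ℂ} (hF : IsDecay F) (a : ℂ) : IsDecay (a • F) := by
  obtain ⟨c, hc, h1⟩ := hF.decay
  exact ⟨hF.holo.const_smul a, c, hc, h1.const_smul_left a⟩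

theorem IsDecay.neg {F : ℍ → ℂ} (hF : IsDecay F) : IsDecay (-F) := by
  simpa using hF.const_smul (-1)

theorem IsDecay.sub {F G : ℍ → ℂ} (hF : IsDecay F) (hG : IsDecay G) : IsDecay (F - G) := by
  simpa [sub_eq_add_neg] using hF.add hG.neg

theorem IsDecay.tendsto_zero {F : ℍ → ℂ} (hF : IsDecay F) : Tendsto F atImInfty (𝓝 0) := by
  obtain ⟨c, hc, h1⟩ := hF.decay
  refine h1.trans_tendsto ?_
  have h2 : Tendsto (fun τ : ℍ => τ.im) atImInfty atTop := tendsto_comap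
  have h3 : Tendsto (fun τ : ℍ => -c * τ.im) atImInfty atBot := by
    simpa [neg_mul] using h2.const_mul_atTop hc
  exact Real.tendsto_exp_atBot.comp h3

/-! ### Basic properties of `IsPrim` -/

theorem IsPrim.add {G₁ G₂ F₁ F₂ : ℍ → ℂ} (h₁ : IsPrim G₁ F₁) (h₂ : IsPrim G₂ F₂) :
    IsPrim (G₁ + G₂) (F₁ + F₂) := fun τ => (h₁ τ).add (h₂ τ)

theorem IsPrim.sub {G₁ G₂ F₁ F₂ : ℍ → ℂ} (h₁ : IsPrim G₁ F₁) (h₂ : IsPrim G₂ F₂) :
    IsPrim (G₁ - G₂) (F₁ - F₂) := fun τ => (h₁ τ).sub (h₂ τ)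

theorem IsPrim.const_smul {G F : ℍ → ℂ} (h : IsPrim G F) (a : ℂ) :
    IsPrim (a • G) (a • F) := fun τ => (h τ).const_smul a

theorem IsPrim.congr {G F F' : ℍ → ℂ} (h : IsPrim G F) (hF : ∀ τ, F τ = F' τ) :
    IsPrim G F' := fun τ => hF τ ▸ h τ

theorem IsPrim.mdiff {G F : ℍ → ℂ} (h : IsPrim G F) : MDiff G :=
  fun τ => mdifferentiableAt_iff.mpr (h τ).differentiableAt

/-- Product rule with an entire function. -/
theorem IsPrim.mul_entire {φ φ' : ℂ → ℂ} (hφ : ∀ z, HasDerivAt φ (φ' z) z) {G F : ℍ → ℂ}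
    (h : IsPrim G F) :
    IsPrim (fun τ => φ τ * G τ) (fun τ => φ' τ * G τ + φ τ * F τ) := by
  intro τ
  have h1 : HasDerivAt (fun z => φ z * (G ∘ ofComplex) z)
      (φ' τ * (G ∘ ofComplex) τ + φ τ * F τ) τ := (hφ τ).mul (h τ)
  rw [Function.comp_apply, ofComplex_apply] at h1
  refine h1.congr_of_eventuallyEq ?_
  filter_upwards [isOpen_upperHalfPlaneSet.mem_nhds τ.im_pos] with z hz
  simp only [Function.comp_apply]
  rw [ofComplex_apply_of_im_pos hz]

/-- Chain rule for Moebius transformations. -/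
theorem IsPrim.comp_smul {G F : ℍ → ℂ} (h : IsPrim G F) {g : GL (Fin 2) ℝ}
    (hg : 0 < g.val.det) :
    IsPrim (fun τ => G (g • τ)) (fun τ => F (g • τ) * (g.val.det / denom g τ ^ 2)) := by
  intro τ
  have h1 := (hasStrictDerivAt_smul hg τ).hasDerivAt
  have h2 : HasDerivAt (G ∘ ofComplex) (F (g • τ)) ((fun z ↦ ↑(g • ofComplex z) : ℂ → ℂ) τ) := by
    simpa using h (g • τ)
  have h3 := h2.comp (τ : ℂ) h1
  refine h3.congr_of_eventuallyEq (Eventually.of_forall fun z => ?_)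
  simp [Function.comp_apply]

theorem IsPrim.unique {G₁ G₂ F : ℍ → ℂ} (h₁ : IsPrim G₁ F) (h₂ : IsPrim G₂ F)
    (d₁ : IsDecay G₁) (d₂ : IsDecay G₂) : G₁ = G₂ := by
  have h0 : IsPrim (G₁ - G₂) 0 := by simpa using h₁.sub h₂
  have hc := h0.const_of_zero
  have ht := (d₁.sub d₂).tendsto_zero
  have ht' : Tendsto (G₁ - G₂) atImInfty (𝓝 ((G₁ - G₂) I)) := by
    have : (G₁ - G₂) = fun _ => (G₁ - G₂) I := funext fun τ => hc τ I
    rw [this]; exact tendsto_const_nhds
  have h5 : (G₁ - G₂) I = 0 := tendsto_nhds_unique ht' ht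
  funext τ
  have := hc τ I
  rw [h5] at this
  exact sub_eq_zero.mp this

/-! ### The normalised primitive -/

theorem prim_isDecay (F : ℍ → ℂ) : IsDecay (prim F) := by
  unfold prim
  split_ifs with h
  · exact h.choose_spec.1
  · exact IsDecay.zero

variable [hEP : Fact ExistsPrim]

theorem prim_isPrim {F : ℍ → ℂ} (h : IsDecay F) : IsPrim (prim F) F := by
  unfold prim
  rw [dif_pos (hEP.out F h)]
  exact (hEP.out F h).choose_spec.2

theorem prim_eq {F G : ℍ → ℂ} (h : IsDecay F) (hG : IsDecay G) (hGF : IsPrim G F) :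
    prim F = G :=
  (prim_isPrim h).unique hGF (prim_isDecay F) hG

theorem prim_add {F G : ℍ → ℂ} (hF : IsDecay F) (hG : IsDecay G) :
    prim (F + G) = prim F + prim G :=
  prim_eq (hF.add hG) ((prim_isDecay F).add (prim_isDecay G))
    ((prim_isPrim hF).add (prim_isPrim hG))

theorem prim_smul {F : ℍ → ℂ} (hF : IsDecay F) (a : ℂ) : prim (a • F) = a • prim F :=
  prim_eq (hF.const_smul a) ((prim_isDecay F).const_smul a) ((prim_isPrim hF).const_smul a)


/-! ### The polynomial-weighted primitive `bigG` -/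

/-- `bigG n h x y τ = ∫_{i∞}^τ h(w) (x - y w)^n dw`. -/
noncomputable def bigG : ℕ → (ℍ → ℂ) → ℂ → ℂ → ℍ → ℂ
  | 0, h, _, _ => prim h
  | n + 1, h, x, y => fun τ =>
      (x - y * τ) ^ (n + 1) * prim h τ + ((n : ℂ) + 1) * y * bigG n (prim h) x y τ

omit hEP in
theorem bigG_zero (h : ℍ → ℂ) (x y : ℂ) : bigG 0 h x y = prim h := rfl

omit hEP in
theorem bigG_succ (n : ℕ) (h : ℍ → ℂ) (x y : ℂ) (τ : ℍ) :
    bigG (n + 1) h x y τ =
      (x - y * τ) ^ (n + 1) * prim h τ + ((n : ℂ) + 1) * y * bigG n (prim h) x y τ := rfl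

theorem bigG_isPrim (n : ℕ) {h : ℍ → ℂ} (hh : IsDecay h) (x y : ℂ) :
    IsPrim (bigG n h x y) (fun τ => h τ * (x - y * τ) ^ n) := by
  induction n generalizing h with
  | zero => exact (prim_isPrim hh).congr fun τ => by simp
  | succ n ih =>
    have h1 : ∀ z : ℂ, HasDerivAt (fun z : ℂ => (x - y * z) ^ (n + 1))
        (((n : ℂ) + 1) * (x - y * z) ^ n * (-y)) z := by
      intro z
      have h0 : HasDerivAt (fun z : ℂ => x - y * z) (-y) z := by
        simpa using ((hasDerivAt_id z).const_mul y).const_sub x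
      have h5 := h0.fun_pow (n + 1)
      simpa using h5
    have h2 := (prim_isPrim hh).mul_entire h1
    have h3 := (ih (prim_isDecay h)).const_smul (((n : ℂ) + 1) * y)
    refine (h2.add h3).congr fun τ => ?_
    simp only [Pi.add_apply, Pi.smul_apply, smul_eq_mul]
    ring

theorem bigG_add (n : ℕ) {h₁ h₂ : ℍ → ℂ} (d₁ : IsDecay h₁) (d₂ : IsDecay h₂) (x y : ℂ) :
    bigG n (h₁ + h₂) x y = bigG n h₁ x y + bigG n h₂ x y := by
  induction n generalizing h₁ h₂ with
  | zero => exact prim_add d₁ d₂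
  | succ n ih =>
    funext τ
    simp only [bigG_succ, Pi.add_apply, prim_add d₁ d₂, ih (prim_isDecay h₁) (prim_isDecay h₂)]
    ring

theorem bigG_smul (n : ℕ) {h : ℍ → ℂ} (d : IsDecay h) (a : ℂ) (x y : ℂ) :
    bigG n (a • h) x y = a • bigG n h x y := by
  induction n generalizing h with
  | zero => exact prim_smul d a
  | succ n ih =>
    funext τ
    simp only [bigG_succ, Pi.smul_apply, prim_smul d a, ih (prim_isDecay h), smul_eq_mul]
    ring

omit hEP in
theorem bigG_diag (n : ℕ) (h : ℍ → ℂ) (τ : ℍ) :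
    bigG n h τ 1 τ = (n.factorial : ℂ) * (prim^[n + 1] h) τ := by
  induction n generalizing h with
  | zero => simp [bigG_zero]
  | succ n ih =>
    rw [bigG_succ, ih (prim h), Nat.factorial_succ, Function.iterate_succ_apply]
    push_cast
    simp only [Function.iterate_succ_apply]
    ring

omit hEP in
theorem bigG_homog (n : ℕ) (h : ℍ → ℂ) (l x y : ℂ) (τ : ℍ) :
    bigG n h (l * x) (l * y) τ = l ^ n * bigG n h x y τ := by
  induction n generalizing h with
  | zero => simp [bigG_zero]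
  | succ n ih =>
    rw [bigG_succ, bigG_succ, ih (prim h),
      show l * x - l * y * (τ : ℂ) = l * (x - y * τ) by ring, mul_pow]
    ring

omit hEP in
theorem bigG_poly (n : ℕ) (h : ℍ → ℂ) (p q : Polynomial ℂ) (τ : ℍ) :
    ∃ r : Polynomial ℂ, ∀ x : ℂ, bigG n h (p.eval x) (q.eval x) τ = r.eval x := by
  induction n generalizing h with
  | zero => exact ⟨Polynomial.C (prim h τ), fun x => by simp [bigG_zero]⟩
  | succ n ih =>
    obtain ⟨r, hr⟩ := ih (prim h)
    refine ⟨(p - q * Polynomial.C (τ : ℂ)) ^ (n + 1) * Polynomial.C (prim h τ) +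
      Polynomial.C ((n : ℂ) + 1) * q * r, fun x => ?_⟩
    rw [bigG_succ, hr]
    simp


/-! ### Moebius transformations and periods -/

/-- first coordinate of `g • (x, y)` -/
noncomputable def actX (g : GL (Fin 2) ℝ) (x y : ℂ) : ℂ := ((g 0 0 : ℝ) : ℂ) * x + ((g 0 1 : ℝ) : ℂ) * y

/-- second coordinate of `g • (x, y)` -/
noncomputable def actY (g : GL (Fin 2) ℝ) (x y : ℂ) : ℂ := ((g 1 0 : ℝ) : ℂ) * x + ((g 1 1 : ℝ) : ℂ) * y

omit hEP in
theorem actX_mul (g₁ g₂ : GL (Fin 2) ℝ) (x y : ℂ) :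
    actX (g₁ * g₂) x y = actX g₁ (actX g₂ x y) (actY g₂ x y) := by
  simp only [actX, actY, Matrix.GeneralLinearGroup.coe_mul, Matrix.mul_apply, Fin.sum_univ_two]
  push_cast
  ring

omit hEP in
theorem actY_mul (g₁ g₂ : GL (Fin 2) ℝ) (x y : ℂ) :
    actY (g₁ * g₂) x y = actY g₁ (actX g₂ x y) (actY g₂ x y) := by
  simp only [actX, actY, Matrix.GeneralLinearGroup.coe_mul, Matrix.mul_apply, Fin.sum_univ_two]
  push_cast
  ring

omit hEP in
theorem act_sub_mul_smul {g : GL (Fin 2) ℝ} (hg : 0 < g.det.val) (x y : ℂ) (τ : ℍ) :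
    actX g x y - actY g x y * ((g • τ : ℍ) : ℂ) =
      ((g.det.val : ℝ) : ℂ) * (x - y * τ) / denom g τ := by
  have hd := denom_ne_zero g τ
  rw [coe_smul_of_det_pos hg, eq_div_iff hd, sub_mul, mul_assoc, div_mul_cancel₀ _ hd]
  simp only [actX, actY, num, denom, Matrix.GeneralLinearGroup.val_det_apply, Matrix.det_fin_two]
  push_cast
  ring

omit hEP in
theorem slash_apply_of_det_pos (n : ℕ) (h : ℍ → ℂ) {g : GL (Fin 2) ℝ} (hg : 0 < g.det.val)
    (τ : ℍ) :
    (h ∣[(n : ℤ) + 2] g) τ =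
      h (g • τ) * ((g.det.val : ℝ) : ℂ) ^ (n + 1) / denom g τ ^ (n + 2) := by
  rw [ModularForm.slash_apply, σ, if_pos hg, abs_of_pos hg]
  have e1 : (n : ℤ) + 2 - 1 = ((n + 1 : ℕ) : ℤ) := by push_cast; ring
  have e2 : -((n : ℤ) + 2) = -((n + 2 : ℕ) : ℤ) := by push_cast; ring
  rw [e1, e2, zpow_natCast, zpow_neg, zpow_natCast]
  simp [div_eq_mul_inv]

theorem bigG_comp_isPrim (n : ℕ) {h : ℍ → ℂ} (hh : IsDecay h) {g : GL (Fin 2) ℝ}
    (hg : 0 < g.det.val) (x y : ℂ) :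
    IsPrim (fun τ => bigG n h (actX g x y) (actY g x y) (g • τ))
      (fun τ => (h ∣[(n : ℤ) + 2] g) τ * (x - y * τ) ^ n) := by
  have hg' : 0 < g.val.det := by simpa using hg
  refine ((bigG_isPrim n hh (actX g x y) (actY g x y)).comp_smul hg').congr fun τ => ?_
  have hd := denom_ne_zero g τ
  rw [act_sub_mul_smul hg, slash_apply_of_det_pos n h hg]
  have e : ((g.val.det : ℝ) : ℂ) = ((g.det.val : ℝ) : ℂ) := by simp
  rw [e, div_pow, mul_pow]
  field_simp
  ring

/-- The period `∫_{i∞}^{g i∞} h(w) (x' - y' w)^n dw`, `(x', y') = g (x, y)`. -/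
noncomputable def perG (n : ℕ) (h : ℍ → ℂ) (g : GL (Fin 2) ℝ) (x y : ℂ) : ℂ :=
  bigG n h (actX g x y) (actY g x y) (g • UpperHalfPlane.I) -
    bigG n (h ∣[(n : ℤ) + 2] g) x y UpperHalfPlane.I

theorem perG_const (n : ℕ) {h : ℍ → ℂ} (hh : IsDecay h) {g : GL (Fin 2) ℝ}
    (hg : 0 < g.det.val) (hhg : IsDecay (h ∣[(n : ℤ) + 2] g)) (x y : ℂ) (τ : ℍ) :
    bigG n h (actX g x y) (actY g x y) (g • τ) - bigG n (h ∣[(n : ℤ) + 2] g) x y τ =
      perG n h g x y := by
  have h1 := (bigG_comp_isPrim n hh hg x y).sub (bigG_isPrim n hhg x y)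
  have h2 : IsPrim ((fun τ => bigG n h (actX g x y) (actY g x y) (g • τ)) -
      bigG n (h ∣[(n : ℤ) + 2] g) x y) 0 := h1.congr fun τ => by simp
  exact h2.const_of_zero τ UpperHalfPlane.I

theorem perG_mul (n : ℕ) {h : ℍ → ℂ} (hh : IsDecay h) {g₁ g₂ : GL (Fin 2) ℝ}
    (hg₁ : 0 < g₁.det.val) (h₁ : IsDecay (h ∣[(n : ℤ) + 2] g₁)) (x y : ℂ) :
    perG n h (g₁ * g₂) x y =
      perG n h g₁ (actX g₂ x y) (actY g₂ x y) + perG n (h ∣[(n : ℤ) + 2] g₁) g₂ x y := by
  rw [← perG_const n hh hg₁ h₁ (actX g₂ x y) (actY g₂ x y) (g₂ • UpperHalfPlane.I)]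
  unfold perG
  rw [actX_mul, actY_mul, mul_smul, SlashAction.slash_mul]
  ring

theorem perG_add (n : ℕ) {h₁ h₂ : ℍ → ℂ} (d₁ : IsDecay h₁) (d₂ : IsDecay h₂) (g : GL (Fin 2) ℝ)
    (e₁ : IsDecay (h₁ ∣[(n : ℤ) + 2] g)) (e₂ : IsDecay (h₂ ∣[(n : ℤ) + 2] g)) (x y : ℂ) :
    perG n (h₁ + h₂) g x y = perG n h₁ g x y + perG n h₂ g x y := by
  unfold perG
  rw [SlashAction.add_slash, bigG_add n d₁ d₂, bigG_add n e₁ e₂]
  simp only [Pi.add_apply]
  ring

theorem perG_smul (n : ℕ) {h : ℍ → ℂ} (d : IsDecay h) {g : GL (Fin 2) ℝ} (hg : 0 < g.det.val)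
    (e : IsDecay (h ∣[(n : ℤ) + 2] g)) (a : ℂ) (x y : ℂ) :
    perG n (a • h) g x y = a * perG n h g x y := by
  unfold perG
  rw [ModularForm.smul_slash, σ, if_pos hg, bigG_smul n d]
  simp only [ContinuousAlgEquiv.refl_apply]
  rw [bigG_smul n e]
  simp only [Pi.smul_apply, smul_eq_mul]
  ring


/-! ### Upper triangular matrices have trivial periods -/

/-- upper triangular with positive diagonal -/
structure IsUpper (u : GL (Fin 2) ℝ) : Prop where
  c_zero : u 1 0 = 0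
  a_pos : 0 < u 0 0
  d_pos : 0 < u 1 1

omit hEP in
theorem IsUpper.det_eq {u : GL (Fin 2) ℝ} (hu : IsUpper u) : u.det.val = u 0 0 * u 1 1 := by
  rw [Matrix.GeneralLinearGroup.val_det_apply, Matrix.det_fin_two, hu.c_zero]
  ring

omit hEP in
theorem IsUpper.det_pos {u : GL (Fin 2) ℝ} (hu : IsUpper u) : 0 < u.det.val := by
  rw [hu.det_eq]; exact mul_pos hu.a_pos hu.d_pos

omit hEP in
theorem IsUpper.denom_eq {u : GL (Fin 2) ℝ} (hu : IsUpper u) (τ : ℍ) :
    denom u τ = ((u 1 1 : ℝ) : ℂ) := by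
  simp [denom, hu.c_zero]

omit hEP in
theorem IsUpper.im_smul {u : GL (Fin 2) ℝ} (hu : IsUpper u) (τ : ℍ) :
    (u • τ).im = u 0 0 / u 1 1 * τ.im := by
  rw [im_smul_eq_div_normSq, hu.denom_eq, abs_of_pos hu.det_pos, hu.det_eq, Complex.normSq_ofReal]
  have := hu.d_pos.ne'
  field_simp

omit hEP in
theorem IsDecay.comp_upper {H : ℍ → ℂ} (hH : IsDecay H) {u : GL (Fin 2) ℝ} (hu : IsUpper u) :
    IsDecay (fun τ => H (u • τ)) := by
  obtain ⟨c, hc, h1⟩ := hH.decay
  refine ⟨hH.holo.comp (mdifferentiable_smul hu.det_pos), c * (u 0 0 / u 1 1),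
    mul_pos hc (div_pos hu.a_pos hu.d_pos), ?_⟩
  have h2 := h1.comp_tendsto (tendsto_smul_atImInfty hu.c_zero)
  refine h2.congr_right fun τ => ?_
  simp only [Function.comp_apply, hu.im_smul]
  congr 1
  ring

omit hEP in
theorem slash_upper (n : ℕ) (h : ℍ → ℂ) {u : GL (Fin 2) ℝ} (hu : IsUpper u) :
    h ∣[(n : ℤ) + 2] u =
      ((((u 0 0 : ℝ) : ℂ) ^ (n + 1)) / ((u 1 1 : ℝ) : ℂ)) • fun τ => h (u • τ) := by
  funext τ
  have hd : ((u 1 1 : ℝ) : ℂ) ≠ 0 := by exact_mod_cast hu.d_pos.ne'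
  rw [slash_apply_of_det_pos n h hu.det_pos, hu.denom_eq, hu.det_eq]
  simp only [Pi.smul_apply, smul_eq_mul]
  push_cast
  field_simp
  ring

omit hEP in
theorem IsDecay.slash_upper {h : ℍ → ℂ} (hh : IsDecay h) (n : ℕ) {u : GL (Fin 2) ℝ}
    (hu : IsUpper u) : IsDecay (h ∣[(n : ℤ) + 2] u) := by
  rw [Fermat.Agent.S22.slash_upper n h hu]
  exact (hh.comp_upper hu).const_smul _

theorem prim_comp_upper {h : ℍ → ℂ} (hh : IsDecay h) {u : GL (Fin 2) ℝ} (hu : IsUpper u) :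
    prim (fun τ => h (u • τ)) =
      (((u 1 1 : ℝ) : ℂ) / ((u 0 0 : ℝ) : ℂ)) • fun τ => prim h (u • τ) := by
  have hd : ((u 1 1 : ℝ) : ℂ) ≠ 0 := by exact_mod_cast hu.d_pos.ne'
  have ha : ((u 0 0 : ℝ) : ℂ) ≠ 0 := by exact_mod_cast hu.a_pos.ne'
  have hdet : 0 < u.val.det := by simpa using hu.det_pos
  refine prim_eq (hh.comp_upper hu) (((prim_isDecay h).comp_upper hu).const_smul _) ?_
  refine (((prim_isPrim hh).comp_smul hdet).const_smul _).congr fun τ => ?_
  have e : ((u.val.det : ℝ) : ℂ) = ((u 0 0 : ℝ) : ℂ) * ((u 1 1 : ℝ) : ℂ) := by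
    have := hu.det_eq
    rw [Matrix.GeneralLinearGroup.val_det_apply] at this
    rw [this]; push_cast; ring
  simp only [Pi.smul_apply, smul_eq_mul, hu.denom_eq, e]
  field_simp

theorem bigG_upper (n : ℕ) {h : ℍ → ℂ} (hh : IsDecay h) {u : GL (Fin 2) ℝ} (hu : IsUpper u)
    (x y : ℂ) (τ : ℍ) :
    bigG n (h ∣[(n : ℤ) + 2] u) x y τ = bigG n h (actX u x y) (actY u x y) (u • τ) := by
  have hd : ((u 1 1 : ℝ) : ℂ) ≠ 0 := by exact_mod_cast hu.d_pos.ne'
  have ha : ((u 0 0 : ℝ) : ℂ) ≠ 0 := by exact_mod_cast hu.a_pos.ne'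
  induction n generalizing h with
  | zero =>
    have h0 := slash_upper 0 h hu
    simp only [Nat.cast_zero] at h0 ⊢
    rw [h0, bigG_zero, bigG_zero, prim_smul (hh.comp_upper hu), prim_comp_upper hh hu]
    simp only [Pi.smul_apply, smul_eq_mul]
    field_simp
    ring
  | succ n ih =>
    have ih' := ih (prim_isDecay h)
    rw [slash_upper n (prim h) hu, bigG_smul n ((prim_isDecay h).comp_upper hu)] at ih'
    rw [slash_upper (n + 1) h hu, bigG_succ, bigG_succ, prim_smul (hh.comp_upper hu),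
      prim_comp_upper hh hu, smul_smul, bigG_smul n ((prim_isDecay h).comp_upper hu), ← ih',
      act_sub_mul_smul hu.det_pos, hu.denom_eq, hu.det_eq]
    have key : ((u 0 0 * u 1 1 : ℝ) : ℂ) * (x - y * τ) / ((u 1 1 : ℝ) : ℂ) =
        ((u 0 0 : ℝ) : ℂ) * (x - y * τ) := by
      push_cast; field_simp
    rw [key, mul_pow]
    simp only [Pi.smul_apply, smul_eq_mul, actY, hu.c_zero]
    push_cast
    field_simp
    ring

theorem perG_upper (n : ℕ) {h : ℍ → ℂ} (hh : IsDecay h) {u : GL (Fin 2) ℝ} (hu : IsUpper u)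
    (x y : ℂ) : perG n h u x y = 0 := by
  unfold perG
  rw [bigG_upper n hh hu, sub_self]


/-! ### Comparison with the definitions of `PeriodDefs.lean` and proof of `PeriodSpec` -/

omit hEP in
theorem bigF_eq_bigG (n : ℕ) (h : ℍ → ℂ) (x y : ℂ) (τ : ℍ) : bigF n h x y τ = bigG n h x y τ := by
  induction n generalizing h with
  | zero => simp [bigF, bigG_zero]
  | succ n ih =>
    rw [bigG_succ, ← ih (prim h)]
    unfold bigF
    rw [Finset.sum_range_succ', Finset.mul_sum]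
    simp only [Nat.descFactorial_zero, Nat.cast_one, pow_zero, mul_one, one_mul, Nat.sub_zero,
      zero_add, Function.iterate_one]
    rw [add_comm]
    congr 1
    refine Finset.sum_congr rfl fun j _ => ?_
    rw [Nat.succ_descFactorial_succ, Nat.add_sub_add_right, Function.iterate_succ_apply]
    push_cast
    ring

omit hEP in
theorem per_eq_perG (n : ℕ) (h : ℍ → ℂ) (g : GL (Fin 2) ℝ) (v : ℂ × ℂ) :
    per n h g v = perG n h g v.1 v.2 := by
  unfold per perG
  rw [bigF_eq_bigG, bigF_eq_bigG]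
  rfl

omit hEP in
theorem neg_smul_eq (g : GL (Fin 2) ℝ) (τ : ℍ) : (-g) • τ = g • τ := by
  apply UpperHalfPlane.ext
  rw [UpperHalfPlane.coe_smul, UpperHalfPlane.coe_smul]
  have h1 : num (-g) τ = - num g τ := by simp [num]; ring
  have h2 : denom (-g) τ = - denom g τ := by simp [denom]; ring
  have h3 : σ (-g) = σ g := by
    simp [σ, Matrix.det_neg]
  rw [h1, h2, h3, neg_div_neg_eq]

theorem perG_upper' (n : ℕ) {h : ℍ → ℂ} (hh : IsDecay h) {g : GL (Fin 2) ℝ}
    (hdet : 0 < g.det.val) (hc : g 1 0 = 0) (x y : ℂ) : perG n h g x y = 0 := by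
  have hdet' : g.det.val = g 0 0 * g 1 1 := by
    rw [Matrix.GeneralLinearGroup.val_det_apply, Matrix.det_fin_two, hc]; ring
  rw [hdet'] at hdet
  rcases (mul_pos_iff.mp hdet) with ⟨ha, hd⟩ | ⟨ha, hd⟩
  · exact perG_upper n hh ⟨hc, ha, hd⟩ x y
  · -- `g = -g'` with `g'` upper triangular with positive diagonal
    have hu : IsUpper (-g) := ⟨by simp [hc], by simpa using ha, by simpa using hd⟩
    have h0 := perG_upper n hh hu x y
    have hX : actX (-g) x y = (-1) * actX g x y := by simp [actX]; ring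
    have hY : actY (-g) x y = (-1) * actY g x y := by simp [actY]; ring
    have hdetneg : (-g).det.val = g.det.val := by
      simp [Matrix.GeneralLinearGroup.val_det_apply, Matrix.det_neg]
    have hgpos : 0 < g.det.val := by rw [hdet']; exact hdet
    have hs : h ∣[(n : ℤ) + 2] (-g) = ((-1 : ℂ) ^ n) • (h ∣[(n : ℤ) + 2] g) := by
      funext τ
      have hden : denom (-g) τ = - denom g τ := by simp [denom]; ring
      rw [slash_apply_of_det_pos n h hu.det_pos, Pi.smul_apply,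
        slash_apply_of_det_pos n h hgpos, neg_smul_eq, hdetneg, hden, smul_eq_mul, neg_pow,
        pow_add (-1 : ℂ) n 2]
      have hd0 := denom_ne_zero g τ
      have h1 : ((-1 : ℂ) ^ n) ≠ 0 := pow_ne_zero _ (by norm_num)
      have h2 : ((-1 : ℂ) ^ n) * ((-1 : ℂ) ^ n) = 1 := by
        rw [← mul_pow]; simp
      field_simp
      linear_combination (-(h (g • τ) * ((g.det.val : ℝ) : ℂ) ^ (n + 1))) * h2
    have hdg : IsDecay (h ∣[(n : ℤ) + 2] g) := by
      have h3 := (hh.slash_upper n hu).const_smul ((-1 : ℂ) ^ n)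
      rw [hs, smul_smul, ← mul_pow] at h3
      simpa using h3
    unfold perG at h0 ⊢
    rw [hX, hY, bigG_homog, neg_smul_eq, hs, bigG_smul n hdg, Pi.smul_apply, smul_eq_mul,
      ← mul_sub] at h0
    exact (mul_eq_zero.mp h0).resolve_left (pow_ne_zero _ (by norm_num))

/-- All the facts required by `PeriodDefs.PeriodSpec`. -/
theorem periodSpec : PeriodSpec where
  prim_spec := fun hF => ⟨prim_isDecay _, prim_isPrim hF⟩
  prim_add := fun hF hG => prim_add hF hG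
  per_eq := fun n h g hh hhg hg v τ => by
    rw [per_eq_perG, ← perG_const n hh hg hhg v.1 v.2 τ, bigF_eq_bigG, bigF_eq_bigG]
    rfl
  per_upper := fun n h g hh _ hg hc v => by
    rw [per_eq_perG]
    exact perG_upper' n hh hg hc v.1 v.2

end Fermat.Agent.S22
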