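import Mathlib
import Fermat.Agent.S22.Defs

set_option autoImplicit false

open UpperHalfPlane ModularForm Complex Filter Asymptotics
open scoped MatrixGroups Manifold Topology

namespace Fermat.Agent.S22

open Classical in
/-- The normalised (decaying) primitive of a decaying holomorphic function (junk value `0`). -/
noncomputable def prim (F : ℍ → ℂ) : ℍ → ℂ :=
  if h : ∃ G, IsDecay G ∧ IsPrim G F then h.choose else 0

/-- Action of a real matrix on a pair of complex numbers (column vector). -/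
noncomputable def actPair (g : GL (Fin 2) ℝ) (v : ℂ × ℂ) : ℂ × ℂ :=
  (((g 0 0 : ℝ) : ℂ) * v.1 + ((g 0 1 : ℝ) : ℂ) * v.2,
    ((g 1 0 : ℝ) : ℂ) * v.1 + ((g 1 1 : ℝ) : ℂ) * v.2)

/-- `bigF n h x y τ = ∫_{i∞}^τ h(w) (x - y w)^n dw`, written with iterated primitives. -/
noncomputable def bigF (n : ℕ) (h : ℍ → ℂ) (x y : ℂ) (τ : ℍ) : ℂ :=
  ∑ j ∈ Finset.range (n + 1),
    (n.descFactorial j : ℂ) * y ^ j * (x - y * (τ : ℂ)) ^ (n - j) * (prim^[j + 1] h) τ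

/-- The period `∫_{g⁻¹ i∞}^{i∞} (h∣g)(u) (x - y u)^n du` (weight `n + 2`). -/
noncomputable def per (n : ℕ) (h : ℍ → ℂ) (g : GL (Fin 2) ℝ) (v : ℂ × ℂ) : ℂ :=
  bigF n h (actPair g v).1 (actPair g v).2 (g • UpperHalfPlane.I) -
    bigF n (h ∣[(n : ℤ) + 2] g) v.1 v.2 UpperHalfPlane.I

/-- The statements that `Lattice.lean` needs from `Period.lean`. -/
structure PeriodSpec : Prop where
  prim_spec : ∀ {F : ℍ → ℂ}, IsDecay F → IsDecay (prim F) ∧ IsPrim (prim F) F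
  prim_add : ∀ {F G : ℍ → ℂ}, IsDecay F → IsDecay G → prim (F + G) = prim F + prim G
  per_eq : ∀ (n : ℕ) {h : ℍ → ℂ} {g : GL (Fin 2) ℝ}, IsDecay h → IsDecay (h ∣[(n : ℤ) + 2] g) →
    0 < g.det.val → ∀ (v : ℂ × ℂ) (τ : ℍ),
    per n h g v =
      bigF n h (actPair g v).1 (actPair g v).2 (g • τ) - bigF n (h ∣[(n : ℤ) + 2] g) v.1 v.2 τ
  per_upper : ∀ (n : ℕ) {h : ℍ → ℂ} {g : GL (Fin 2) ℝ}, IsDecay h →
    IsDecay (h ∣[(n : ℤ) + 2] g) → 0 < g.det.val → g 1 0 = 0 → ∀ v : ℂ × ℂ, per n h g v = 0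

end Fermat.Agent.S22
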