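import Mathlib
import Fermat.Agent.S22.Defs

set_option autoImplicit false

open UpperHalfPlane hiding I
open ModularForm Complex Filter Asymptotics Set Metric
open scoped MatrixGroups Manifold Topology

namespace Fermat.Agent.S22

/-- the exhausting discs of the upper half plane -/
private def hball (n : ℕ) : Set ℂ := ball ((n + 1 : ℝ) * I) (n + 1 : ℝ)

private lemma mem_hball_iff (n : ℕ) (z : ℂ) :
    z ∈ hball n ↔ z.re ^ 2 + z.im ^ 2 < 2 * (n + 1 : ℝ) * z.im := by
  have hn : (0 : ℝ) < n + 1 := by positivity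
  rw [hball, mem_ball, Complex.dist_eq, ← sq_lt_sq₀ (norm_nonneg _) hn.le, Complex.sq_norm,
    Complex.normSq_apply]
  simp only [sub_re, mul_re, ofReal_re, Complex.I_re, mul_zero, ofReal_im, Complex.I_im, mul_one, sub_self,
    sub_zero, sub_im, mul_im, add_zero]
  constructor <;> intro h <;> nlinarith

private lemma hball_subset (n : ℕ) : hball n ⊆ {z : ℂ | 0 < z.im} := by
  intro z hz
  rw [mem_hball_iff] at hz
  have hn : (0 : ℝ) < n + 1 := by positivity
  by_contra h
  simp only [mem_ofPred_eq, not_lt] at h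
  nlinarith [sq_nonneg z.re, sq_nonneg z.im]

private lemma hball_mono {m n : ℕ} (h : m ≤ n) : hball m ⊆ hball n := by
  intro z hz
  have hz0 := hball_subset m hz
  simp only [mem_ofPred_eq] at hz0
  rw [mem_hball_iff] at hz ⊢
  have : (m : ℝ) ≤ n := by exact_mod_cast h
  nlinarith

private lemma I_mem_hball (n : ℕ) : I ∈ hball n := by
  rw [mem_hball_iff]
  simp only [Complex.I_re, Complex.I_im]
  have : (0 : ℝ) ≤ n := by positivity
  nlinarith

private lemma exists_mem_hball {z : ℂ} (hz : 0 < z.im) : ∃ n, z ∈ hball n := by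
  obtain ⟨n, hn⟩ := exists_nat_gt ((z.re ^ 2 + z.im ^ 2) / (2 * z.im))
  refine ⟨n, ?_⟩
  rw [mem_hball_iff]
  rw [div_lt_iff₀ (by positivity)] at hn
  nlinarith

/-- A holomorphic function on the upper half plane has a primitive there. -/
theorem exists_primitive_of_differentiableOn {g : ℂ → ℂ}
    (hg : DifferentiableOn ℂ g {z : ℂ | 0 < z.im}) :
    ∃ G : ℂ → ℂ, ∀ z : ℂ, 0 < z.im → HasDerivAt G (g z) z := by
  classical
  have h1 : ∀ n : ℕ, ∃ G : ℂ → ℂ, (∀ z ∈ hball n, HasDerivAt G (g z) z) ∧ G I = 0 := by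
    intro n
    have := (hg.mono (hball_subset n)).isExactOn_ball
    obtain ⟨G, hG⟩ := this
    exact ⟨fun z => G z - G I, fun z hz => by simpa using (hG z hz).sub_const (G I), by simp⟩
  choose G hG hGI using h1
  have hagree : ∀ m n : ℕ, m ≤ n → EqOn (G m) (G n) (hball m) := by
    intro m n hmn
    refine IsOpen.eqOn_of_deriv_eq isOpen_ball (convex_ball _ _).isPreconnected
      (fun z hz => (hG m z hz).differentiableAt.differentiableWithinAt)
      (fun z hz => (hG n z (hball_mono hmn hz)).differentiableAt.differentiableWithinAt)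
      (fun z hz => by rw [(hG m z hz).deriv, (hG n z (hball_mono hmn hz)).deriv])
      (I_mem_hball m) (by rw [hGI, hGI])
  refine ⟨fun z => if h : ∃ n, z ∈ hball n then G (Nat.find h) z else 0, fun z hz => ?_⟩
  obtain ⟨n, hn⟩ := exists_mem_hball hz
  refine (hG n z hn).congr_of_eventuallyEq ?_
  filter_upwards [isOpen_ball.mem_nhds hn] with w hw
  have hex : ∃ n, w ∈ hball n := ⟨n, hw⟩
  rw [dif_pos hex]
  exact hagree _ _ (Nat.find_min' hex hw) (Nat.find_spec hex)


open MeasureTheory in
/-- Core analytic lemma: a primitive of an exponentially decaying function has a limit at `i∞`,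
approached exponentially fast, uniformly in the real part. -/
theorem exists_limit_of_decay {g G₀ : ℂ → ℂ} {C c Y : ℝ} (hc : 0 < c) (hY : 0 < Y)
    (hgc : ContinuousOn g {z : ℂ | 0 < z.im})
    (hG : ∀ z : ℂ, 0 < z.im → HasDerivAt G₀ (g z) z)
    (hb : ∀ z : ℂ, Y ≤ z.im → ‖g z‖ ≤ C * Real.exp (-c * z.im)) :
    ∃ L : ℂ, ∀ z : ℂ, Y ≤ z.im → ‖G₀ z - L‖ ≤ C / c * Real.exp (-c * z.im) := by
  have hC : 0 ≤ C := by
    have h := (norm_nonneg _).trans (hb (Y * I) (by simp))
    exact nonneg_of_mul_nonneg_left h (Real.exp_pos _)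
  -- the vertical rays
  have him : ∀ (z : ℂ) (t : ℝ), (z + t * I).im = z.im + t := by intro z t; simp
  have hderiv : ∀ z : ℂ, Y ≤ z.im → ∀ t ∈ Ici (0 : ℝ),
      HasDerivAt (fun t : ℝ => G₀ (z + t * I)) (g (z + t * I) * I) t := by
    intro z hz t ht
    have ht' : (0 : ℝ) ≤ t := ht
    have h1 : HasDerivAt (fun t : ℝ => z + (t : ℂ) * I) I t := by
      have := ((Complex.ofRealCLM.hasDerivAt (x := t)).mul_const I).const_add z
      simpa using this
    have h2 := hG (z + t * I) (by rw [him]; linarith)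
    have h3 := HasDerivAt.scomp t h2 h1
    simpa [Function.comp_def, mul_comm] using h3
  have hbound : ∀ z : ℂ, Y ≤ z.im → ∀ t ∈ Ioi (0 : ℝ),
      ‖g (z + t * I) * I‖ ≤ C * Real.exp (-c * z.im) * Real.exp (-c * t) := by
    intro z hz t ht
    have ht' : (0 : ℝ) < t := ht
    rw [norm_mul, Complex.norm_I, mul_one, mul_assoc, ← Real.exp_add]
    refine (hb _ (by rw [him]; linarith)).trans (le_of_eq ?_)
    rw [him]; ring_nf
  have hbint : ∀ z : ℂ, IntegrableOn
      (fun t : ℝ => C * Real.exp (-c * z.im) * Real.exp (-c * t)) (Ioi 0) := by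
    intro z
    exact (integrableOn_exp_mul_Ioi (by linarith : -c < 0) 0).const_mul _
  have hint : ∀ z : ℂ, Y ≤ z.im → IntegrableOn (fun t : ℝ => g (z + t * I) * I) (Ioi 0) := by
    intro z hz
    refine Integrable.mono' (hbint z) ?_ ?_
    · refine ContinuousOn.aestronglyMeasurable ?_ measurableSet_Ioi
      refine ContinuousOn.mul ?_ continuousOn_const
      refine hgc.comp (by fun_prop) ?_
      intro t ht
      have ht' : (0 : ℝ) < t := ht
      show 0 < (z + t * I).im
      rw [him]; linarith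
    · exact (ae_restrict_iff' measurableSet_Ioi).2 (Eventually.of_forall (hbound z hz))
  have hlim : ∀ z : ℂ, Y ≤ z.im → ∃ L : ℂ, Tendsto (fun t : ℝ => G₀ (z + t * I)) atTop (𝓝 L) ∧
      ‖G₀ z - L‖ ≤ C / c * Real.exp (-c * z.im) := by
    intro z hz
    have h1 := tendsto_limUnder_of_hasDerivAt_of_integrableOn_Ioi
      (fun t ht => hderiv z hz t (Ioi_subset_Ici_self ht)) (hint z hz)
    refine ⟨_, h1, ?_⟩
    have h2 := integral_Ioi_of_hasDerivAt_of_tendsto' (hderiv z hz) (hint z hz) h1
    have h3 : ‖∫ t in Ioi (0 : ℝ), g (z + t * I) * I‖ ≤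
        ∫ t in Ioi (0 : ℝ), C * Real.exp (-c * z.im) * Real.exp (-c * t) :=
      norm_integral_le_of_norm_le (hbint z)
        ((ae_restrict_iff' measurableSet_Ioi).2 (Eventually.of_forall (hbound z hz)))
    rw [h2, integral_const_mul, integral_exp_mul_Ioi (by linarith : -c < 0)] at h3
    simp only [ofReal_zero, zero_mul, add_zero, mul_zero, Real.exp_zero] at h3
    rw [norm_sub_rev]
    refine h3.trans (le_of_eq ?_)
    field_simp
  obtain ⟨L, hL, -⟩ := hlim (Y * I) (by simp)
  refine ⟨L, fun z hz => ?_⟩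
  obtain ⟨L', hL', hLb⟩ := hlim z hz
  have : L' = L := by
    have hsub := hL'.sub hL
    have hz0 : Tendsto (fun t : ℝ => G₀ (z + t * I) - G₀ (Y * I + t * I)) atTop (𝓝 0) := by
      refine squeeze_zero_norm' (a := fun t : ℝ =>
        (C * Real.exp (-c * Y) * ‖z - Y * I‖) * Real.exp (-c * t)) ?_ ?_
      · filter_upwards [eventually_ge_atTop (0 : ℝ)] with t ht
        have hconv : Convex ℝ {w : ℂ | Y + t ≤ w.im} := convex_halfSpace_im_ge _
        have h := hconv.norm_image_sub_le_of_norm_hasDerivWithin_le (f := G₀) (f' := g)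
          (C := C * Real.exp (-c * (Y + t))) (x := Y * I + t * I) (y := z + t * I)
          (fun w hw => (hG w (by
            have : Y + t ≤ w.im := hw
            linarith)).hasDerivWithinAt)
          (fun w hw => by
            have hw' : Y + t ≤ w.im := hw
            refine (hb w (by linarith)).trans ?_
            refine mul_le_mul_of_nonneg_left (Real.exp_le_exp.2 ?_) hC
            nlinarith)
          (by show Y + t ≤ (Y * I + t * I).im; simp)
          (by show Y + t ≤ (z + t * I).im; rw [him]; linarith)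
        refine h.trans (le_of_eq ?_)
        rw [add_sub_add_right_eq_sub, mul_add, Real.exp_add]
        ring
      · have h1 : Tendsto (fun t : ℝ => Real.exp (-c * t)) atTop (𝓝 0) := by
          refine Real.tendsto_exp_atBot.comp ?_
          exact tendsto_id.const_mul_atTop_of_neg (by linarith)
        simpa using h1.const_mul (C * Real.exp (-c * Y) * ‖z - Y * I‖)
    exact sub_eq_zero.1 (tendsto_nhds_unique hsub hz0)
  rw [← this]; exact hLb


/-- A primitive is holomorphic (local copy under a fresh name; the `IsPrim`/`IsDecay` API lives in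
`Period.lean`). -/
theorem mdiff_of_isPrim_aux {G F : ℍ → ℂ} (h : IsPrim G F) : MDiff G := by
  rw [UpperHalfPlane.mdifferentiable_iff]
  intro z hz
  exact (h ⟨z, hz⟩).differentiableAt.differentiableWithinAt

/-- **Existence of the normalised primitive**: a holomorphic function on `ℍ` decaying
exponentially at `i∞` has a primitive of the same kind. -/
theorem exists_prim {F : ℍ → ℂ} (hF : IsDecay F) : ∃ G, IsDecay G ∧ IsPrim G F := by
  have hg : DifferentiableOn ℂ (F ∘ ofComplex) {z : ℂ | 0 < z.im} :=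
    UpperHalfPlane.mdifferentiable_iff.1 hF.holo
  obtain ⟨G₀, hG₀⟩ := exists_primitive_of_differentiableOn hg
  obtain ⟨c, hc, hO⟩ := hF.decay
  obtain ⟨C, hC⟩ := hO.bound
  obtain ⟨A, hA⟩ := (atImInfty_mem _).1 hC
  have hb : ∀ z : ℂ, max A 1 ≤ z.im → ‖(F ∘ ofComplex) z‖ ≤ C * Real.exp (-c * z.im) := by
    intro z hz
    have hz0 : 0 < z.im := lt_of_lt_of_le one_pos ((le_max_right _ _).trans hz)
    have := hA ⟨z, hz0⟩ ((le_max_left _ _).trans hz)
    simp only [mem_ofPred_eq, Real.norm_eq_abs, Real.abs_exp] at this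
    rw [Function.comp_apply, ofComplex_apply_of_im_pos hz0]
    exact this
  obtain ⟨L, hL⟩ := exists_limit_of_decay hc (lt_of_lt_of_le one_pos (le_max_right A 1))
    hg.continuousOn hG₀ hb
  have hprim : IsPrim (fun τ : ℍ => G₀ τ - L) F := by
    intro τ
    have h1 : HasDerivAt (fun z : ℂ => G₀ z - L) (F τ) (τ : ℂ) := by
      have := (hG₀ τ τ.im_pos).sub_const L
      simpa using this
    refine h1.congr_of_eventuallyEq ?_
    filter_upwards [isOpen_upperHalfPlaneSet.mem_nhds τ.im_pos] with w hw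
    simp only [Function.comp_apply]
    rw [ofComplex_apply_of_im_pos hw]
  refine ⟨fun τ : ℍ => G₀ τ - L, ⟨mdiff_of_isPrim_aux hprim, c, hc, ?_⟩, hprim⟩
  refine IsBigO.of_bound (C / c) ?_
  rw [Filter.Eventually, atImInfty_mem]
  refine ⟨max A 1, fun τ hτ => ?_⟩
  simp only [mem_ofPred_eq, Real.norm_eq_abs, Real.abs_exp]
  exact hL τ hτ

end Fermat.Agent.S22
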