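import Mathlib
import Fermat.Agent.S22.Defs
import Fermat.Prelude.Thm_ModularForm_sturm_bound_Gamma0
import Fermat.Prelude.Thm_CongruenceSubgroup_one_mem_strictPeriods_Gamma0

set_option autoImplicit false

open UpperHalfPlane ModularForm Complex Filter Asymptotics
open scoped MatrixGroups Manifold Topology

namespace Fermat.Agent.S22

theorem IsDecay.isZeroAtImInfty {F : ℍ → ℂ} (hF : IsDecay F) : IsZeroAtImInfty F := by
  obtain ⟨c, hc, hO⟩ := hF.decay
  refine hO.trans_tendsto ?_
  have h1 : Tendsto (fun τ : ℍ => c * τ.im) atImInfty atTop :=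
    (tendsto_comap (f := UpperHalfPlane.im)).const_mul_atTop hc
  have := Real.tendsto_exp_neg_atTop_nhds_zero.comp h1
  refine this.congr fun τ => ?_
  simp [Function.comp]

/-- A holomorphic function of weight `-n ≤ 0`, invariant under `Γ₀(N)`, all of whose
`SL(2,ℤ)`-translates decay at `i∞`, vanishes. -/
theorem eq_zero_of_decay_slash (N : ℕ) [NeZero N] (n : ℕ) (E : ℍ → ℂ)
    (hdec : ∀ g : SL(2, ℤ), IsDecay (E ∣[(-(n : ℤ))] g))
    (hinv : ∀ g ∈ CongruenceSubgroup.Gamma0 N, E ∣[(-(n : ℤ))] g = E) : E = 0 := by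
  have hE : MDiff E := by simpa using (hdec 1).holo
  let f : CuspForm (CongruenceSubgroup.Gamma0 N) (-(n : ℤ)) :=
    { toFun := E
      slash_action_eq' := by
        rintro γ ⟨g, hg, rfl⟩
        exact hinv g hg
      holo' := hE
      zero_at_cusps' := by
        intro c hc
        rw [Subgroup.IsArithmetic.isCusp_iff_isCusp_SL2Z] at hc
        rw [OnePoint.isZeroAt_iff_forall_SL2Z hc]
        intro γ _
        exact (hdec γ).isZeroAtImInfty }
  let F : ModularForm (CongruenceSubgroup.Gamma0 N) (-(n : ℤ)) :=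
    { toSlashInvariantForm := f.toSlashInvariantForm
      holo' := f.holo'
      bdd_at_cusps' := fun hc γ hγ => (f.zero_at_cusps' hc γ hγ).isBoundedAtImInfty }
  have hF : F = 0 := by
    apply ModularForm.sturm_bound_Gamma0 N F
    intro m hm
    have h0 : ((-(n : ℤ)) * ((CongruenceSubgroup.Gamma0 N).index : ℤ)).toNat / 12 = 0 := by
      have : ((-(n : ℤ)) * ((CongruenceSubgroup.Gamma0 N).index : ℤ)).toNat = 0 := by
        apply Int.toNat_of_nonpos
        have h1 : (0 : ℤ) ≤ (n : ℤ) * ((CongruenceSubgroup.Gamma0 N).index : ℤ) := by positivity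
        linarith
      rw [this]
    rw [h0] at hm
    obtain rfl : m = 0 := by omega
    exact CuspFormClass.qExpansion_coeff_zero f one_pos
      (CongruenceSubgroup.one_mem_strictPeriods_Gamma0 N)
  funext z
  have := congrArg (fun G : ModularForm (CongruenceSubgroup.Gamma0 N) (-(n : ℤ)) => G z) hF
  exact this

end Fermat.Agent.S22
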