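import Mathlib
import Fermat.Prelude.Def_CuspForm_HeckeAlgebra
import Fermat.Prelude.Thm_ModularForm_sturm_bound_Gamma0
import Fermat.Prelude.Thm_CongruenceSubgroup_one_mem_strictPeriods_Gamma0

set_option autoImplicit false

open UpperHalfPlane ModularForm Complex Filter Asymptotics
open scoped MatrixGroups Manifold Topology

namespace Fermat.Agent.S22.SmallWeight

/-- A cusp form viewed as a modular form. -/
def cuspToModular {N : ℕ} {k : ℤ} (f : CuspForm (CongruenceSubgroup.Gamma0 N) k) :
    ModularForm (CongruenceSubgroup.Gamma0 N) k :=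
  { toSlashInvariantForm := f.toSlashInvariantForm
    holo' := f.holo'
    bdd_at_cusps' := fun hc γ hγ => (f.zero_at_cusps' hc γ hγ).isBoundedAtImInfty }

theorem cuspForm_eq_zero_of_nonpos (N : ℕ) [NeZero N] {k : ℤ} (hk : k ≤ 0)
    (f : CuspForm (CongruenceSubgroup.Gamma0 N) k) : f = 0 := by
  have hF : cuspToModular f = 0 := by
    apply ModularForm.sturm_bound_Gamma0 N (cuspToModular f)
    intro n hn
    have h0 : (k * ((CongruenceSubgroup.Gamma0 N).index : ℤ)).toNat / 12 = 0 := by
      have : k * ((CongruenceSubgroup.Gamma0 N).index : ℤ) ≤ 0 :=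
        mul_nonpos_of_nonpos_of_nonneg hk (by positivity)
      rw [Int.toNat_of_nonpos this]
    rw [h0] at hn
    obtain rfl : n = 0 := by omega
    exact CuspFormClass.qExpansion_coeff_zero f one_pos
      (CongruenceSubgroup.one_mem_strictPeriods_Gamma0 N)
  ext z
  have := congrArg (fun G : ModularForm (CongruenceSubgroup.Gamma0 N) k => G z) hF
  exact this

theorem cuspForm_eq_zero_of_odd (N : ℕ) {k : ℤ} (hk : Odd k)
    (f : CuspForm (CongruenceSubgroup.Gamma0 N) k) : f = 0 := by
  have hmem : (-1 : SL(2, ℤ)) ∈ CongruenceSubgroup.Gamma0 N := by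
    rw [CongruenceSubgroup.Gamma0_mem]
    simp
  have hmem' : (-1 : GL (Fin 2) ℝ) ∈
      ((CongruenceSubgroup.Gamma0 N : Subgroup SL(2, ℤ)) : Subgroup (GL (Fin 2) ℝ)) :=
    ⟨-1, hmem, by ext; simp⟩
  have hF := ModularForm.eq_zero_of_neg_one_mem hmem' hk (cuspToModular f)
  ext z
  have := congrArg (fun G : ModularForm (CongruenceSubgroup.Gamma0 N) k => G z) hF
  exact this

/-- If the space of cusp forms is trivial, the Hecke algebra is a finite `ℤ`-module. -/
theorem moduleFinite_heckeAlgebra_of_forall_eq_zero (N : ℕ) [NeZero N] (k : ℤ) (S : Set ℕ)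
    (h : ∀ f : CuspForm (CongruenceSubgroup.Gamma0 N) k, f = 0) :
    Module.Finite ℤ (CuspForm.heckeAlgebra N k S) := by
  have : Subsingleton (CuspForm (CongruenceSubgroup.Gamma0 N) k) :=
    ⟨fun a b => (h a).trans (h b).symm⟩
  have : Subsingleton (Module.End ℂ (CuspForm (CongruenceSubgroup.Gamma0 N) k)) :=
    ⟨fun a b => LinearMap.ext fun x => Subsingleton.elim _ _⟩
  have : Subsingleton (CuspForm.heckeAlgebra N k S) :=
    ⟨fun a b => Subtype.ext (Subsingleton.elim _ _)⟩
  infer_instance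

/-- `S22` in the degenerate weights: `k ≤ 0` or `k` odd. -/
theorem moduleFinite_heckeAlgebra_of_small (N : ℕ) [NeZero N] (k : ℤ) (S : Set ℕ)
    (hk : k ≤ 0 ∨ Odd k) : Module.Finite ℤ (CuspForm.heckeAlgebra N k S) :=
  moduleFinite_heckeAlgebra_of_forall_eq_zero N k S fun f =>
    hk.elim (fun h => cuspForm_eq_zero_of_nonpos N h f) (fun h => cuspForm_eq_zero_of_odd N h f)

end Fermat.Agent.S22.SmallWeight
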