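/-
S22sym, package E: abstract lattice lemma.
-/
import Mathlib

set_option autoImplicit false

namespace Fermat.Agent.S22.Sym

theorem finite_of_lattice {V : Type*} [AddCommGroup V] [Module ℂ V] (gens : Set (Module.End ℂ V))
    (Λ : Submodule ℤ (Module.Dual ℂ V)) (hfg : Λ.FG)
    (hstab : ∀ t ∈ gens, ∀ l ∈ Λ, l ∘ₗ t ∈ Λ) (hsep : ∀ v : V, (∀ l ∈ Λ, l v = 0) → v = 0) :
    Module.Finite ℤ (Algebra.adjoin ℤ gens) := by
  -- stability for the whole adjoin
  have hstab' : ∀ t ∈ Algebra.adjoin ℤ gens, ∀ l ∈ Λ, l ∘ₗ t ∈ Λ := by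
    intro t ht
    induction ht using Algebra.adjoin_induction with
    | mem x hx => exact hstab x hx
    | algebraMap n =>
      intro l hl
      have : l ∘ₗ (algebraMap ℤ (Module.End ℂ V) n) = n • l := by
        ext v
        simp [Algebra.algebraMap_eq_smul_one]
      rw [this]
      exact Λ.smul_mem n hl
    | add x y _ _ hx hy =>
      intro l hl
      rw [LinearMap.comp_add]
      exact Λ.add_mem (hx l hl) (hy l hl)
    | mul x y _ _ hx hy =>
      intro l hl
      have : l ∘ₗ (x * y) = (l ∘ₗ x) ∘ₗ y := by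
        ext v; simp
      rw [this]
      exact hy _ (hx l hl)
  haveI : Module.Finite ℤ Λ := Module.Finite.iff_fg.mpr hfg
  haveI : IsAddTorsionFree (Module.Dual ℂ V) := .of_isTorsionFree ℂ _
  haveI : Module.Free ℤ Λ := Module.free_of_finite_type_torsion_free'
  let Ψ : Algebra.adjoin ℤ gens →ₗ[ℤ] (Λ →ₗ[ℤ] Λ) :=
    { toFun := fun t =>
        { toFun := fun l => ⟨(l : Module.Dual ℂ V) ∘ₗ (t : Module.End ℂ V), hstab' t t.2 l l.2⟩
          map_add' := fun l l' => Subtype.ext (by simp [LinearMap.add_comp])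
          map_smul' := fun n l => Subtype.ext (by simp [LinearMap.smul_comp]) }
      map_add' := fun t t' => LinearMap.ext fun l => Subtype.ext (by simp [LinearMap.comp_add])
      map_smul' := fun n t => LinearMap.ext fun l => Subtype.ext (by
        ext v
        simp) }
  refine Module.Finite.of_injective Ψ ?_
  rw [injective_iff_map_eq_zero]
  intro t ht
  apply Subtype.ext
  apply LinearMap.ext
  intro v
  apply hsep
  intro l hl
  have := congrArg (fun f : Λ →ₗ[ℤ] Λ => ((f ⟨l, hl⟩ : Λ) : Module.Dual ℂ V) v) ht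
  simpa [Ψ] using this

end Fermat.Agent.S22.Sym
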