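import Mathlib

set_option autoImplicit false

namespace Fermat.Agent.S22.Sym

open UpperHalfPlane hiding I
open Complex Filter Asymptotics Function
open scoped MatrixGroups ModularForm Manifold Topology Real

/-- `G` is a holomorphic primitive of `g` on the upper half plane. -/
def IsPrim (G g : ℍ → ℂ) : Prop :=
  ∀ z : ℍ, HasDerivAt (G ∘ ofComplex) (g z) (z : ℂ)

/-- exponential decay at `i∞`, uniformly in the real part. -/
def IsDecay (g : ℍ → ℂ) : Prop :=
  ∃ c : ℝ, 0 < c ∧ g =O[atImInfty] fun z : ℍ => Real.exp (-c * z.im)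

theorem IsPrim.mdiff {G g : ℍ → ℂ} (h : IsPrim G g) : MDiff G :=
  fun z => mdifferentiableAt_iff.mpr (h z).differentiableAt

theorem IsPrim.add {G g G' g' : ℍ → ℂ} (h : IsPrim G g) (h' : IsPrim G' g') :
    IsPrim (G + G') (g + g') := fun z => (h z).add (h' z)

theorem IsPrim.sub {G g G' g' : ℍ → ℂ} (h : IsPrim G g) (h' : IsPrim G' g') :
    IsPrim (G - G') (g - g') := fun z => (h z).sub (h' z)

theorem IsPrim.smul {G g : ℍ → ℂ} (c : ℂ) (h : IsPrim G g) :
    IsPrim (c • G) (c • g) := fun z => (h z).const_smul c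

theorem isPrim_zero : IsPrim 0 0 := fun z => by
  exact hasDerivAt_const (z : ℂ) (0 : ℂ)

theorem IsPrim.deriv_unique {G g g' : ℍ → ℂ} (h : IsPrim G g) (h' : IsPrim G g') : g = g' :=
  funext fun z => (h z).unique (h' z)

/-- A function on `ℍ` with vanishing derivative is constant. -/
theorem IsPrim.const_of_zero {G : ℍ → ℂ} (h : IsPrim G 0) (z w : ℍ) : G z = G w := by
  have hd : DifferentiableOn ℂ (G ∘ ofComplex) upperHalfPlaneSet := fun x hx =>
    (h ⟨x, hx⟩).differentiableAt.differentiableWithinAt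
  have hz : Set.EqOn (deriv (G ∘ ofComplex)) 0 upperHalfPlaneSet := fun x hx =>
    (h ⟨x, hx⟩).deriv
  have hconn : IsPreconnected upperHalfPlaneSet :=
    (convex_halfSpace_im_gt 0).isPreconnected
  have := isOpen_upperHalfPlaneSet.is_const_of_deriv_eq_zero hconn hd hz z.2 w.2
  simpa using this

theorem IsPrim.sub_const {G G' g : ℍ → ℂ} (h : IsPrim G g) (h' : IsPrim G' g) (z w : ℍ) :
    G z - G' z = G w - G' w := by
  have : IsPrim (G - G') 0 := by simpa using h.sub h'
  exact this.const_of_zero z w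

local notation "𝕢" => Periodic.qParam

theorem exists_prim_of_periodic {g : ℍ → ℂ} {h : ℝ} (hh : 0 < h)
    (hper : Periodic (g ∘ ofComplex) h) (hol : MDiff g) (hzero : IsZeroAtImInfty g) :
    ∃ G : ℍ → ℂ, IsPrim G g ∧ Periodic (G ∘ ofComplex) h ∧ IsZeroAtImInfty G := by
  set F := cuspFunction h g with hF
  have hFd : DifferentiableOn ℂ F (Metric.ball 0 1) :=
    differentiableOn_cuspFunction_ball hh hper hol hzero.isBoundedAtImInfty
  have hF0 : F 0 = 0 := by
    rw [hF, cuspFunction_apply_zero hh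
      (analyticAt_cuspFunction_zero hh hper hol hzero.isBoundedAtImInfty) hper,
      hzero.valueAtInfty_eq_zero]
  have hHd : DifferentiableOn ℂ (dslope F 0) (Metric.ball 0 1) :=
    (differentiableOn_dslope (Metric.ball_mem_nhds 0 one_pos)).mpr hFd
  obtain ⟨K, hK0, hK⟩ := (hHd.isExactOn_ball).with_val_at 0 0
  have hq1 : ∀ z : ℍ, 𝕢 h z ∈ Metric.ball (0 : ℂ) 1 := fun z => by
    simpa using Periodic.norm_qParam_lt_one hh z.im_pos
  refine ⟨fun z => (h / (2 * π * I)) * K (𝕢 h z), ?_, ?_, ?_⟩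
  · intro z
    have hqd : HasDerivAt (𝕢 h) (𝕢 h z * (2 * π * I / h)) (z : ℂ) := by
      simpa only [id_eq, mul_one] using! (((hasDerivAt_id (z : ℂ)).const_mul _).div_const _).cexp
    have h1 : HasDerivAt (fun w : ℂ => (h / (2 * π * I)) * K (𝕢 h w))
        ((h / (2 * π * I)) * (dslope F 0 (𝕢 h z) * (𝕢 h z * (2 * π * I / h)))) (z : ℂ) :=
      ((hK _ (hq1 z)).comp (z : ℂ) hqd).const_mul _
    have h2 : (h / (2 * π * I)) * (dslope F 0 (𝕢 h z) * (𝕢 h z * (2 * π * I / h))) = g z := by
      have hne : 𝕢 h z ≠ 0 := Periodic.qParam_ne_zero _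
      rw [dslope_of_ne _ hne, slope_def_field, hF0, sub_zero, sub_zero, hF,
        eq_cuspFunction z hh.ne' hper]
      have : (h : ℂ) ≠ 0 := by exact_mod_cast hh.ne'
      have := two_pi_I_ne_zero
      field_simp
    rw [h2] at h1
    refine h1.congr_of_eventuallyEq ?_
    filter_upwards [isOpen_upperHalfPlaneSet.mem_nhds z.im_pos] with w hw
    simp [ofComplex_apply_of_im_pos hw]
  · intro w
    by_cases! hw : 0 < im w
    · have : 0 < im (w + h) := by simp [hw]
      simp only [comp_apply, ofComplex_apply_of_im_pos this, ofComplex_apply_of_im_pos hw]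
      congr 2
      simp only [Periodic.qParam]
      have hne : (h : ℂ) ≠ 0 := by exact_mod_cast hh.ne'
      rw [show 2 * π * I * (w + h) / h = 2 * π * I * w / h + 2 * π * I by field_simp]
      rw [Complex.exp_add, Complex.exp_two_pi_mul_I, mul_one]
    · have : im (w + h) ≤ 0 := by simpa using hw
      simp [ofComplex_apply_of_im_nonpos this, ofComplex_apply_of_im_nonpos hw]
  · have hKc : ContinuousAt K 0 := (hK 0 (by simp)).continuousAt
    have : Tendsto (fun z : ℍ => K (𝕢 h z)) atImInfty (𝓝 0) := by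
      have := hKc.tendsto.comp (qParam_tendsto_atImInfty hh)
      rwa [hK0] at this
    have := this.const_mul ((h : ℂ) / (2 * π * I))
    simpa [IsZeroAtImInfty, ZeroAtFilter] using this


/-! ### decay -/

theorem IsDecay.isZeroAtImInfty {g : ℍ → ℂ} (h : IsDecay g) : IsZeroAtImInfty g := by
  obtain ⟨c, hc, hO⟩ := h
  refine hO.trans_tendsto ?_
  have h1 : Tendsto (fun z : ℍ => z.im) atImInfty atTop := tendsto_comap
  have h2 : Tendsto (fun z : ℍ => -c * z.im) atImInfty atBot :=
    h1.const_mul_atTop_of_neg (by linarith)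
  exact Real.tendsto_exp_atBot.comp h2

theorem isDecay_zero : IsDecay 0 :=
  ⟨1, one_pos, isBigO_zero (fun z : ℍ => Real.exp (-1 * z.im)) atImInfty⟩

theorem IsDecay.mono {g : ℍ → ℂ} {c c' : ℝ} (hcc : c' ≤ c)
    (hO : g =O[atImInfty] fun z : ℍ => Real.exp (-c * z.im)) :
    g =O[atImInfty] fun z : ℍ => Real.exp (-c' * z.im) := by
  refine hO.trans (IsBigO.of_bound 1 (Eventually.of_forall fun z => ?_))
  rw [Real.norm_of_nonneg (Real.exp_pos _).le, Real.norm_of_nonneg (Real.exp_pos _).le, one_mul]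
  apply Real.exp_le_exp.mpr
  have := z.im_pos
  nlinarith

theorem IsDecay.add {g g' : ℍ → ℂ} (h : IsDecay g) (h' : IsDecay g') : IsDecay (g + g') := by
  obtain ⟨c, hc, hO⟩ := h
  obtain ⟨c', hc', hO'⟩ := h'
  exact ⟨min c c', lt_min hc hc',
    (IsDecay.mono (min_le_left _ _) hO).add (IsDecay.mono (min_le_right _ _) hO')⟩

theorem IsDecay.smul {g : ℍ → ℂ} (a : ℂ) (h : IsDecay g) : IsDecay (a • g) := by
  obtain ⟨c, hc, hO⟩ := h
  exact ⟨c, hc, hO.const_smul_left a⟩

theorem isDecay_of_periodic {g : ℍ → ℂ} {h : ℝ} (hh : 0 < h)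
    (hper : Periodic (g ∘ ofComplex) h) (hol : MDiff g) (hzero : IsZeroAtImInfty g) :
    IsDecay g := by
  refine ⟨2 * π / h, by positivity, ?_⟩
  convert hzero.exp_decay_atImInfty hh hper hol hzero.isBoundedAtImInfty using 3 with z
  ring

theorem eq_of_isPrim_of_isZero {G G' g : ℍ → ℂ} (h : IsPrim G g) (h' : IsPrim G' g)
    (hz : IsZeroAtImInfty G) (hz' : IsZeroAtImInfty G') : G = G' := by
  funext w
  have h1 : Tendsto (fun z : ℍ => G z - G' z) atImInfty (𝓝 (0 - 0)) := Tendsto.sub hz hz'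
  have h2 : (fun z : ℍ => G z - G' z) = fun _ => G w - G' w := funext fun z => h.sub_const h' z w
  rw [h2, sub_zero] at h1
  have := tendsto_nhds_unique h1 tendsto_const_nhds
  exact sub_eq_zero.mp this.symm

/-! ### towers of primitives -/

structure IsTower (G : ℕ → ℍ → ℂ) : Prop where
  prim : ∀ i, IsPrim (G (i + 1)) (G i)
  decay : ∀ i, IsDecay (G i)

def HasTower (g : ℍ → ℂ) : Prop := ∃ G, IsTower G ∧ G 0 = g

theorem IsTower.unique {G G' : ℕ → ℍ → ℂ} (h : IsTower G) (h' : IsTower G') (h0 : G 0 = G' 0) :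
    G = G' := by
  funext i
  induction i with
  | zero => exact h0
  | succ i ih =>
    exact eq_of_isPrim_of_isZero (h.prim i) (ih ▸ h'.prim i) (h.decay _).isZeroAtImInfty
      (h'.decay _).isZeroAtImInfty

open Classical in
noncomputable def tower (g : ℍ → ℂ) : ℕ → ℍ → ℂ :=
  if h : HasTower g then h.choose else 0

theorem HasTower.isTower {g : ℍ → ℂ} (h : HasTower g) : IsTower (tower g) := by
  rw [tower, dif_pos h]; exact h.choose_spec.1

theorem HasTower.tower_zero {g : ℍ → ℂ} (h : HasTower g) : tower g 0 = g := by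
  rw [tower, dif_pos h]; exact h.choose_spec.2

theorem IsTower.tower_eq {G : ℕ → ℍ → ℂ} (h : IsTower G) : tower (G 0) = G :=
  have h' : HasTower (G 0) := ⟨G, h, rfl⟩
  h'.isTower.unique h h'.tower_zero

theorem IsTower.add {G G' : ℕ → ℍ → ℂ} (h : IsTower G) (h' : IsTower G') : IsTower (G + G') :=
  ⟨fun i => (h.prim i).add (h'.prim i), fun i => (h.decay i).add (h'.decay i)⟩

theorem IsTower.smul {G : ℕ → ℍ → ℂ} (a : ℂ) (h : IsTower G) : IsTower (a • G) :=
  ⟨fun i => (h.prim i).smul a, fun i => (h.decay i).smul a⟩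

theorem isTower_zero : IsTower 0 := ⟨fun _ => isPrim_zero, fun _ => isDecay_zero⟩

theorem hasTower_zero : HasTower 0 := ⟨0, isTower_zero, rfl⟩

theorem HasTower.add {g g' : ℍ → ℂ} (h : HasTower g) (h' : HasTower g') : HasTower (g + g') :=
  ⟨tower g + tower g', h.isTower.add h'.isTower, by
    rw [Pi.add_apply, h.tower_zero, h'.tower_zero]⟩

theorem HasTower.smul {g : ℍ → ℂ} (a : ℂ) (h : HasTower g) : HasTower (a • g) :=
  ⟨a • tower g, h.isTower.smul a, by rw [Pi.smul_apply, h.tower_zero]⟩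

theorem tower_add {g g' : ℍ → ℂ} (h : HasTower g) (h' : HasTower g') :
    tower (g + g') = tower g + tower g' := by
  have := (h.isTower.add h'.isTower).tower_eq
  rwa [Pi.add_apply, h.tower_zero, h'.tower_zero] at this

theorem tower_smul {g : ℍ → ℂ} (a : ℂ) (h : HasTower g) :
    tower (a • g) = a • tower g := by
  have := (h.isTower.smul a).tower_eq
  rwa [Pi.smul_apply, h.tower_zero] at this

theorem tower_zero_fun : tower 0 = 0 := by
  have := isTower_zero.tower_eq
  simpa using this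

theorem hasTower_sum {ι : Type*} (s : Finset ι) (g : ι → ℍ → ℂ) (h : ∀ i ∈ s, HasTower (g i)) :
    HasTower (∑ i ∈ s, g i) := by
  classical
  induction s using Finset.induction_on with
  | empty => simpa using hasTower_zero
  | insert a s ha ih =>
    rw [Finset.sum_insert ha]
    exact (h a (Finset.mem_insert_self _ _)).add (ih fun i hi => h i (Finset.mem_insert_of_mem hi))

theorem tower_sum {ι : Type*} (s : Finset ι) (g : ι → ℍ → ℂ) (h : ∀ i ∈ s, HasTower (g i)) :
    tower (∑ i ∈ s, g i) = ∑ i ∈ s, tower (g i) := by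
  classical
  induction s using Finset.induction_on with
  | empty => simpa using tower_zero_fun
  | insert a s ha ih =>
    rw [Finset.sum_insert ha, Finset.sum_insert ha,
      tower_add (h a (Finset.mem_insert_self _ _))
        (hasTower_sum s g fun i hi => h i (Finset.mem_insert_of_mem hi)),
      ih fun i hi => h i (Finset.mem_insert_of_mem hi)]

theorem hasTower_of_periodic {g : ℍ → ℂ} {h : ℝ} (hh : 0 < h)
    (hper : Periodic (g ∘ ofComplex) h) (hol : MDiff g) (hzero : IsZeroAtImInfty g) :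
    HasTower g := by
  classical
  let P := {g : ℍ → ℂ // Periodic (g ∘ ofComplex) h ∧ MDiff g ∧ IsZeroAtImInfty g}
  have key : ∀ g : P, ∃ G : P, IsPrim G.1 g.1 := fun g => by
    obtain ⟨G, h1, h2, h3⟩ := exists_prim_of_periodic hh g.2.1 g.2.2.1 g.2.2.2
    exact ⟨⟨G, h2, h1.mdiff, h3⟩, h1⟩
  choose next hnext using key
  let seq : ℕ → P := fun n => Nat.rec ⟨g, hper, hol, hzero⟩ (fun _ x => next x) n
  refine ⟨fun n => (seq n).1, ⟨fun i => hnext (seq i), fun i => ?_⟩, rfl⟩
  exact isDecay_of_periodic hh (seq i).2.1 (seq i).2.2.1 (seq i).2.2.2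

/-- if a member of the tower vanishes, so does the bottom. -/
theorem IsTower.eq_zero_of_eq_zero {G : ℕ → ℍ → ℂ} (h : IsTower G) {n : ℕ} (hn : G n = 0) :
    G 0 = 0 := by
  induction n with
  | zero => exact hn
  | succ n ih =>
    apply ih
    have h1 := h.prim n
    rw [hn] at h1
    exact h1.deriv_unique isPrim_zero


end Fermat.Agent.S22.Sym
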