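import Mathlib
import Fermat.Agent.S22.SymPrim

set_option autoImplicit false

namespace Fermat.Agent.S22.Sym

open UpperHalfPlane hiding I
open Complex Filter Asymptotics Function
open scoped MatrixGroups ModularForm Manifold Topology Real

/-- `phiAux G x y m s z = ∫_{i∞}^z G_s(w) (x - w y)^m dw` for a tower `G` (`G_{i+1}' = G_i`),
written by repeated integration by parts. -/
noncomputable def phiAux (G : ℕ → ℍ → ℂ) (x y : ℂ) : ℕ → ℕ → ℍ → ℂ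
  | 0, s, z => G (s + 1) z
  | m + 1, s, z => (x - (z : ℂ) * y) ^ (m + 1) * G (s + 1) z
      + ((m : ℂ) + 1) * y * phiAux G x y m (s + 1) z

/-- `Phi m g v z = ∫_{i∞}^z g(w) (v.1 - w v.2)^m dw`. -/
noncomputable def Phi (m : ℕ) (g : ℍ → ℂ) (v : ℂ × ℂ) (z : ℍ) : ℂ :=
  phiAux (tower g) v.1 v.2 m 0 z

/-- action of a real matrix on column vectors in `ℂ²`. -/
noncomputable def act (β : GL (Fin 2) ℝ) (v : ℂ × ℂ) : ℂ × ℂ :=
  (((β 0 0 : ℝ) : ℂ) * v.1 + ((β 0 1 : ℝ) : ℂ) * v.2,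
    ((β 1 0 : ℝ) : ℂ) * v.1 + ((β 1 1 : ℝ) : ℂ) * v.2)

/-- the period "`∫_{β⁻¹ i∞}^{i∞} (g∣β)(w) (v.1 - w v.2)^m dw`" (weight `m + 2`). -/
noncomputable def per (m : ℕ) (g : ℍ → ℂ) (β : GL (Fin 2) ℝ) (v : ℂ × ℂ) : ℂ :=
  Phi m g (act β v) (β • UpperHalfPlane.I) - Phi m (g ∣[(m : ℤ) + 2] β) v UpperHalfPlane.I

/-- real matrices with integer entries and positive determinant. -/
def IsIntPos (β : GL (Fin 2) ℝ) : Prop :=
  0 < β.det.val ∧ ∀ i j, ∃ n : ℤ, β i j = (n : ℝ)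

/-- integral vectors. -/
def IsIntVec (v : ℂ × ℂ) : Prop := ∃ a b : ℤ, v = ((a : ℂ), (b : ℂ))

end Fermat.Agent.S22.Sym
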