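import Mathlib
import Fermat.Prelude.Def_CuspForm_HeckeAlgebra
import Fermat.Agent.S22.SymDefs
import Fermat.Agent.S22.SlashDecay
import Fermat.Agent.S22.MatDecomp

set_option autoImplicit false

open ModularForm
open scoped MatrixGroups

namespace Fermat.Agent.S22.Sym

theorem isIntPos_iff_mem_intPosGL {β : GL (Fin 2) ℝ} :
    IsIntPos β ↔ β ∈ Fermat.Agent.S22.intPosGL := by
  constructor
  · rintro ⟨hdet, h⟩
    choose n hn using h
    exact ⟨hdet, Matrix.of n, by ext i j; simpa using hn i j⟩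
  · rintro ⟨hdet, M, hM⟩
    refine ⟨hdet, fun i j => ⟨M i j, ?_⟩⟩
    have := congrFun (congrFun hM i) j
    simpa using this

theorem IsIntPos.mul {β γ : GL (Fin 2) ℝ} (hβ : IsIntPos β) (hγ : IsIntPos γ) :
    IsIntPos (β * γ) :=
  isIntPos_iff_mem_intPosGL.mpr
    (mul_mem (isIntPos_iff_mem_intPosGL.mp hβ) (isIntPos_iff_mem_intPosGL.mp hγ))

theorem isIntPos_one : IsIntPos 1 :=
  isIntPos_iff_mem_intPosGL.mpr (one_mem _)

theorem isIntPos_mapGL (γ : SL(2, ℤ)) : IsIntPos (Matrix.SpecialLinearGroup.mapGL ℝ γ) :=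
  isIntPos_iff_mem_intPosGL.mpr (Fermat.Agent.S22.mapGL_mem_intPosGL γ)

theorem isIntPos_coe (γ : SL(2, ℤ)) : IsIntPos ((γ : SL(2, ℤ)) : GL (Fin 2) ℝ) :=
  isIntPos_mapGL γ

theorem isIntPos_heckeMatrix {p : ℕ} (_hp : p ≠ 0) (j : ℕ) :
    IsIntPos (ModularForm.heckeMatrix p j) :=
  isIntPos_iff_mem_intPosGL.mpr (Fermat.Agent.S22.heckeMatrix_mem_intPosGL p j)

theorem isIntPos_heckeDiagMatrix {p : ℕ} (_hp : p ≠ 0) :
    IsIntPos (ModularForm.heckeDiagMatrix p) :=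
  isIntPos_iff_mem_intPosGL.mpr (Fermat.Agent.S22.heckeDiagMatrix_mem_intPosGL p)

theorem IsIntPos.mem_ratGL {β : GL (Fin 2) ℝ} (hβ : IsIntPos β) :
    β ∈ Fermat.Agent.S22.ratGL :=
  Fermat.Agent.S22.mem_ratGL_of_mem_intPosGL (isIntPos_iff_mem_intPosGL.mp hβ)

theorem IsIntPos.act {β : GL (Fin 2) ℝ} {v : ℂ × ℂ} (hβ : IsIntPos β) (hv : IsIntVec v) :
    IsIntVec (act β v) := by
  obtain ⟨a, b, rfl⟩ := hv
  obtain ⟨n00, h00⟩ := hβ.2 0 0
  obtain ⟨n01, h01⟩ := hβ.2 0 1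
  obtain ⟨n10, h10⟩ := hβ.2 1 0
  obtain ⟨n11, h11⟩ := hβ.2 1 1
  refine ⟨n00 * a + n01 * b, n10 * a + n11 * b, ?_⟩
  simp only [Sym.act, h00, h01, h10, h11]
  push_cast
  rfl

theorem act_mul (β γ : GL (Fin 2) ℝ) (v : ℂ × ℂ) : act (β * γ) v = act β (act γ v) := by
  simp only [act, Matrix.GeneralLinearGroup.coe_mul, Matrix.mul_apply, Fin.sum_univ_two]
  ext <;> push_cast <;> ring

theorem act_one (v : ℂ × ℂ) : act 1 v = v := by
  ext <;> simp [act]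

theorem IsIntPos.exists_decomp {α : GL (Fin 2) ℝ} (hα : IsIntPos α) :
    ∃ (γ : SL(2, ℤ)) (β : GL (Fin 2) ℝ), IsIntPos β ∧ β 1 0 = 0 ∧
      α = Matrix.SpecialLinearGroup.mapGL ℝ γ * β := by
  obtain ⟨γ, a, b, d, ha, hd, h⟩ :=
    Fermat.Agent.S22.exists_mapGL_mul_upperTriangularGL (isIntPos_iff_mem_intPosGL.mp hα)
  refine ⟨γ, _, isIntPos_iff_mem_intPosGL.mpr
    (Fermat.Agent.S22.upperTriangularGL_mem_intPosGL a b d ha hd), ?_, h⟩
  simp [val_upperTriangularGL]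

end Fermat.Agent.S22.Sym
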