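import Mathlib
import Fermat.Agent.S22.SymDefs

set_option autoImplicit false

namespace Fermat.Agent.S22.Sym

open UpperHalfPlane hiding I
open Complex Filter Asymptotics Function
open scoped MatrixGroups ModularForm Manifold Topology Real

/-- criterion for `IsPrim` through an expression on `ℂ`. -/
theorem isPrim_of_hasDerivAt {F f : ℍ → ℂ} (F' : ℂ → ℂ)
    (h : ∀ z : ℍ, HasDerivAt F' (f z) (z : ℂ)) (heq : ∀ z : ℍ, F z = F' z) : IsPrim F f := by
  intro z
  refine (h z).congr_of_eventuallyEq ?_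
  filter_upwards [isOpen_upperHalfPlaneSet.mem_nhds z.im_pos] with w hw
  simp only [comp_apply, ofComplex_apply_of_im_pos hw, heq]

theorem phiAux_isPrim {G : ℕ → ℍ → ℂ} (hG : ∀ i, IsPrim (G (i + 1)) (G i)) (x y : ℂ) (m s : ℕ) :
    IsPrim (phiAux G x y m s) (fun z => G s z * (x - (z : ℂ) * y) ^ m) := by
  induction m generalizing s with
  | zero =>
    have : (fun z : ℍ => G s z * (x - (z : ℂ) * y) ^ 0) = G s := by funext z; simp
    rw [this]
    exact hG s
  | succ m ih =>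
    refine isPrim_of_hasDerivAt
      (fun w => (x - w * y) ^ (m + 1) * (G (s + 1) ∘ ofComplex) w
        + ((m : ℂ) + 1) * y * (phiAux G x y m (s + 1) ∘ ofComplex) w) (fun z => ?_) (fun z => ?_)
    · have h1 : HasDerivAt (fun w : ℂ => (x - w * y) ^ (m + 1))
          (((m + 1 : ℕ) : ℂ) * (x - (z : ℂ) * y) ^ m * (-y)) (z : ℂ) := by
        have h0 : HasDerivAt (fun w : ℂ => x - w * y) (-y) (z : ℂ) := by
          simpa using ((hasDerivAt_id (z : ℂ)).mul_const y).const_sub x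
        have := h0.fun_pow (m + 1)
        simpa using this
      have h2 := (h1.fun_mul (hG s z)).fun_add ((ih (s + 1) z).const_mul (((m : ℂ) + 1) * y))
      refine h2.congr_deriv ?_
      simp only [comp_apply, ofComplex_apply]
      push_cast
      ring
    · simp only [phiAux, comp_apply, ofComplex_apply]

theorem Phi_isPrim {g : ℍ → ℂ} (hg : HasTower g) (m : ℕ) (v : ℂ × ℂ) :
    IsPrim (Phi m g v) (fun z => g z * (v.1 - (z : ℂ) * v.2) ^ m) := by
  have := phiAux_isPrim hg.isTower.prim v.1 v.2 m 0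
  rwa [hg.tower_zero] at this

/-- The filter "`im z → ∞` with bounded real part". -/
def stripFilter (R : ℝ) : Filter ℍ := atImInfty ⊓ 𝓟 {z : ℍ | |z.re| ≤ R}

theorem tendsto_poly_mul_decay {h : ℍ → ℂ} (hd : IsDecay h) (x y : ℂ) (n : ℕ) (R : ℝ) :
    Tendsto (fun z : ℍ => (x - (z : ℂ) * y) ^ n * h z) (stripFilter R) (𝓝 0) := by
  obtain ⟨c, hc, hO⟩ := hd
  obtain ⟨C, hC⟩ := hO.bound
  set K : ℝ := ‖x‖ + (|R| + 1) * ‖y‖ with hK
  have hK0 : 0 ≤ K := by positivity
  -- majorant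
  have hmaj : Tendsto (fun z : ℍ => K ^ n * C * (z.im ^ n * Real.exp (-c * z.im)))
      (stripFilter R) (𝓝 0) := by
    have h1 : Tendsto (fun t : ℝ => t ^ n * Real.exp (-c * t)) atTop (𝓝 0) := by
      have := tendsto_rpow_mul_exp_neg_mul_atTop_nhds_zero (n : ℝ) c hc
      refine this.congr fun t => ?_
      rw [Real.rpow_natCast]
    have h2 : Tendsto (fun z : ℍ => z.im) (stripFilter R) atTop :=
      (tendsto_comap (f := UpperHalfPlane.im)).mono_left inf_le_left
    have := (h1.comp h2).const_mul (K ^ n * C)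
    simpa using this
  refine squeeze_zero_norm' ?_ hmaj
  have e1 : ∀ᶠ z : ℍ in stripFilter R, ‖h z‖ ≤ C * ‖Real.exp (-c * z.im)‖ :=
    hC.filter_mono inf_le_left
  have e2 : ∀ᶠ z : ℍ in stripFilter R, |z.re| ≤ R := by
    have : {z : ℍ | |z.re| ≤ R} ∈ stripFilter R := mem_inf_of_right (mem_principal_self _)
    exact this
  have e3 : ∀ᶠ z : ℍ in stripFilter R, 1 ≤ z.im := by
    have : ∀ᶠ z : ℍ in atImInfty, 1 ≤ z.im :=
      (tendsto_comap (f := UpperHalfPlane.im)).eventually (eventually_ge_atTop 1)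
    exact this.filter_mono inf_le_left
  filter_upwards [e1, e2, e3] with z h1 h2 h3
  rw [norm_mul, norm_pow]
  rw [Real.norm_of_nonneg (Real.exp_pos _).le] at h1
  have hz : ‖(z : ℂ)‖ ≤ (|R| + 1) * z.im := by
    have : ‖(z : ℂ)‖ ≤ |(z : ℂ).re| + |(z : ℂ).im| := Complex.norm_le_abs_re_add_abs_im _
    have h4 : |(z : ℂ).im| = z.im := abs_of_pos z.im_pos
    have h5 : |(z : ℂ).re| ≤ |R| := h2.trans (le_abs_self R)
    have h6 : 0 ≤ |R| := abs_nonneg R
    rw [h4] at this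
    nlinarith
  have hb : ‖x - (z : ℂ) * y‖ ≤ K * z.im := by
    calc ‖x - (z : ℂ) * y‖ ≤ ‖x‖ + ‖(z : ℂ) * y‖ := norm_sub_le _ _
      _ = ‖x‖ + ‖(z : ℂ)‖ * ‖y‖ := by rw [norm_mul]
      _ ≤ ‖x‖ * z.im + ((|R| + 1) * z.im) * ‖y‖ := by
          have : ‖x‖ ≤ ‖x‖ * z.im := le_mul_of_one_le_right (norm_nonneg _) h3
          have h7 := mul_le_mul_of_nonneg_right hz (norm_nonneg y)
          linarith
      _ = K * z.im := by rw [hK]; ring
  calc ‖x - (z : ℂ) * y‖ ^ n * ‖h z‖ ≤ (K * z.im) ^ n * (C * Real.exp (-c * z.im)) := by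
        apply mul_le_mul (pow_le_pow_left₀ (norm_nonneg _) hb n) h1 (norm_nonneg _)
        have := z.im_pos
        positivity
    _ = K ^ n * C * (z.im ^ n * Real.exp (-c * z.im)) := by rw [mul_pow]; ring

theorem phiAux_tendsto {G : ℕ → ℍ → ℂ} (hG : ∀ i, IsDecay (G i)) (x y : ℂ) (m s : ℕ) (R : ℝ) :
    Tendsto (phiAux G x y m s) (stripFilter R) (𝓝 0) := by
  induction m generalizing s with
  | zero =>
    have := tendsto_poly_mul_decay (hG (s + 1)) x y 0 R
    simpa [phiAux] using this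
  | succ m ih =>
    have h1 := tendsto_poly_mul_decay (hG (s + 1)) x y (m + 1) R
    have h2 := (ih (s + 1)).const_mul (((m : ℂ) + 1) * y)
    have := h1.add h2
    simpa [phiAux] using this

theorem Phi_tendsto {g : ℍ → ℂ} (hg : HasTower g) (m : ℕ) (v : ℂ × ℂ) (R : ℝ) :
    Tendsto (Phi m g v) (stripFilter R) (𝓝 0) :=
  phiAux_tendsto hg.isTower.decay v.1 v.2 m 0 R

end Fermat.Agent.S22.Sym
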