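import Mathlib
import Fermat.Agent.S22.SymPhi

set_option autoImplicit false

namespace Fermat.Agent.S22.Sym

open UpperHalfPlane hiding I
open Complex Filter Asymptotics Function
open scoped MatrixGroups ModularForm Manifold Topology Real

theorem isPrim_comp_smul {F f : ℍ → ℂ} (hF : IsPrim F f) {β : GL (Fin 2) ℝ} (hβ : 0 < β.det.val) :
    IsPrim (fun z => F (β • z))
      (fun z => f (β • z) * (((β.det.val : ℝ) : ℂ) / denom β z ^ 2)) := by
  intro z
  have hβ' : 0 < (β : Matrix (Fin 2) (Fin 2) ℝ).det := by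
    rwa [← Matrix.GeneralLinearGroup.val_det_apply]
  have h1 : HasDerivAt (fun w : ℂ => ((β • ofComplex w : ℍ) : ℂ))
      ((((β : Matrix (Fin 2) (Fin 2) ℝ).det : ℝ) : ℂ) / denom β z ^ 2) (z : ℂ) :=
    (hasStrictDerivAt_smul hβ' z).hasDerivAt
  have h2 : HasDerivAt (F ∘ ofComplex) (f (β • z)) ((β • ofComplex (z : ℂ) : ℍ) : ℂ) := by
    rw [ofComplex_apply]; exact hF (β • z)
  have h3 := h2.comp (z : ℂ) h1
  rw [Matrix.GeneralLinearGroup.val_det_apply]
  refine h3.congr_of_eventuallyEq ?_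
  filter_upwards with w
  simp only [comp_apply, ofComplex_apply]

theorem slash_apply_of_det_pos (k : ℤ) (g : ℍ → ℂ) {β : GL (Fin 2) ℝ} (hβ : 0 < β.det.val)
    (z : ℍ) : (g ∣[k] β) z = g (β • z) * ((β.det.val : ℝ) : ℂ) ^ (k - 1) * denom β z ^ (-k) := by
  rw [ModularForm.slash_apply, σ, if_pos hβ, abs_of_pos hβ]
  rfl

theorem act_sub_smul {β : GL (Fin 2) ℝ} (hβ : 0 < β.det.val) (v : ℂ × ℂ) (z : ℍ) :
    (act β v).1 - ((β • z : ℍ) : ℂ) * (act β v).2
      = ((β.det.val : ℝ) : ℂ) / denom β z * (v.1 - (z : ℂ) * v.2) := by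
  have hd := denom_ne_zero β z
  rw [coe_smul_of_det_pos hβ, Matrix.GeneralLinearGroup.val_det_apply, Matrix.det_fin_two]
  simp only [act, num]
  rw [denom] at hd ⊢
  set D := ((β 1 0 : ℝ) : ℂ) * (z : ℂ) + ((β 1 1 : ℝ) : ℂ) with hD
  rw [div_mul_eq_mul_div, div_mul_eq_mul_div, eq_div_iff hd, sub_mul, div_mul_cancel₀ _ hd, hD]
  push_cast
  ring

theorem Phi_smul_isPrim {g : ℍ → ℂ} (hg : HasTower g) (m : ℕ) {β : GL (Fin 2) ℝ}
    (hβ : 0 < β.det.val) (v : ℂ × ℂ) :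
    IsPrim (fun z => Phi m g (act β v) (β • z))
      (fun z => (g ∣[(m : ℤ) + 2] β) z * (v.1 - (z : ℂ) * v.2) ^ m) := by
  have h := isPrim_comp_smul (Phi_isPrim hg m (act β v)) hβ
  have : (fun z : ℍ => g (β • z) * ((act β v).1 - ((β • z : ℍ) : ℂ) * (act β v).2) ^ m *
      (((β.det.val : ℝ) : ℂ) / denom β z ^ 2))
      = fun z => (g ∣[(m : ℤ) + 2] β) z * (v.1 - (z : ℂ) * v.2) ^ m := by
    funext z
    have hd := denom_ne_zero β z
    have hdet : ((β.det.val : ℝ) : ℂ) ≠ 0 := by exact_mod_cast hβ.ne'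
    rw [act_sub_smul hβ, slash_apply_of_det_pos _ _ hβ, mul_pow, div_pow]
    rw [show (m : ℤ) + 2 - 1 = (m + 1 : ℕ) by push_cast; ring, zpow_natCast,
      show -((m : ℤ) + 2) = -((m + 2 : ℕ) : ℤ) by push_cast; ring, zpow_neg, zpow_natCast]
    field_simp
    ring
  rw [← this]
  exact h

/-- `per` does not depend on the base point. -/
theorem per_eq {g : ℍ → ℂ} (m : ℕ) {β : GL (Fin 2) ℝ} (hg : HasTower g)
    (hgβ : HasTower (g ∣[(m : ℤ) + 2] β)) (hβ : 0 < β.det.val) (v : ℂ × ℂ) (z : ℍ) :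
    per m g β v = Phi m g (act β v) (β • z) - Phi m (g ∣[(m : ℤ) + 2] β) v z :=
  (Phi_smul_isPrim hg m hβ v).sub_const (Phi_isPrim hgβ m v) _ _

theorem act_mul (β γ : GL (Fin 2) ℝ) (v : ℂ × ℂ) : act (β * γ) v = act β (act γ v) := by
  simp only [act, Matrix.GeneralLinearGroup.coe_mul, Matrix.mul_apply, Fin.sum_univ_two]
  ext <;> push_cast <;> ring

theorem act_one (v : ℂ × ℂ) : act 1 v = v := by
  simp [act]

/-- the cocycle relation. -/
theorem per_mul {g : ℍ → ℂ} (m : ℕ) {β γ : GL (Fin 2) ℝ} (hg : HasTower g)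
    (hgβ : HasTower (g ∣[(m : ℤ) + 2] β)) (hgβγ : HasTower (g ∣[(m : ℤ) + 2] (β * γ)))
    (hβ : 0 < β.det.val) (hγ : 0 < γ.det.val) (v : ℂ × ℂ) :
    per m g (β * γ) v = per m g β (act γ v) + per m (g ∣[(m : ℤ) + 2] β) γ v := by
  have hβγ : 0 < (β * γ).det.val := by
    rw [map_mul, Units.val_mul]; exact mul_pos hβ hγ
  have hs : (g ∣[(m : ℤ) + 2] β) ∣[(m : ℤ) + 2] γ = g ∣[(m : ℤ) + 2] (β * γ) :=
    (SlashAction.slash_mul _ _ _ _).symm
  rw [per_eq m hg hgβγ hβγ v UpperHalfPlane.I, per_eq m hg hgβ hβ (act γ v) (γ • UpperHalfPlane.I),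
    per_eq m hgβ (hs ▸ hgβγ) hγ v UpperHalfPlane.I, hs, act_mul, mul_smul]
  ring

/-- the path `t ↦ i t`. -/
noncomputable def ray (t : ℝ) : ℍ := ofComplex (Complex.I * t)

theorem coe_ray {t : ℝ} (ht : 0 < t) : ((ray t : ℍ) : ℂ) = Complex.I * t := by
  rw [ray, ofComplex_apply_of_im_pos (by simpa using ht)]

theorem tendsto_ray_atImInfty : Tendsto ray atTop atImInfty := by
  rw [atImInfty, tendsto_comap_iff]
  refine tendsto_id.congr' ?_
  filter_upwards [eventually_gt_atTop 0] with t ht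
  have : (ray t).im = ((ray t : ℍ) : ℂ).im := rfl
  simp [this, coe_ray ht]

theorem tendsto_ray_strip : Tendsto ray atTop (stripFilter 0) := by
  refine tendsto_inf.mpr ⟨tendsto_ray_atImInfty, tendsto_principal.mpr ?_⟩
  filter_upwards [eventually_gt_atTop 0] with t ht
  have : (ray t).re = ((ray t : ℍ) : ℂ).re := rfl
  simp [this, coe_ray ht]

theorem tendsto_smul_ray_strip {β : GL (Fin 2) ℝ} (hβ : 0 < β.det.val) (h10 : β 1 0 = 0) :
    Tendsto (fun t => β • ray t) atTop (stripFilter |β 0 1 / β 1 1|) := by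
  refine tendsto_inf.mpr ⟨(tendsto_smul_atImInfty h10).comp tendsto_ray_atImInfty,
    tendsto_principal.mpr ?_⟩
  filter_upwards [eventually_gt_atTop 0] with t ht
  have h1 : (β • ray t).re = ((β • ray t : ℍ) : ℂ).re := rfl
  have h2 : ((β • ray t : ℍ) : ℂ) = (((β 0 0 * t / β 1 1 : ℝ) : ℂ)) * Complex.I
      + ((β 0 1 / β 1 1 : ℝ) : ℂ) := by
    rw [coe_smul_of_det_pos hβ, num, denom, h10, coe_ray ht]
    push_cast
    ring
  simp only [h1, h2]
  simp

theorem per_upper {g : ℍ → ℂ} (m : ℕ) {β : GL (Fin 2) ℝ} (hg : HasTower g)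
    (hgβ : HasTower (g ∣[(m : ℤ) + 2] β)) (hβ : 0 < β.det.val) (h10 : β 1 0 = 0) (v : ℂ × ℂ) :
    per m g β v = 0 := by
  have h1 : Tendsto (fun t => Phi m g (act β v) (β • ray t)) atTop (𝓝 0) :=
    (Phi_tendsto hg m (act β v) _).comp (tendsto_smul_ray_strip hβ h10)
  have h2 : Tendsto (fun t => Phi m (g ∣[(m : ℤ) + 2] β) v (ray t)) atTop (𝓝 0) :=
    (Phi_tendsto hgβ m v _).comp tendsto_ray_strip
  have h3 := h1.sub h2
  have h4 : (fun t => Phi m g (act β v) (β • ray t) - Phi m (g ∣[(m : ℤ) + 2] β) v (ray t))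
      = fun _ => per m g β v := funext fun t => (per_eq m hg hgβ hβ v (ray t)).symm
  rw [h4, sub_zero] at h3
  exact tendsto_nhds_unique tendsto_const_nhds h3

/-! ### linearity in `g` -/

theorem phiAux_add (G G' : ℕ → ℍ → ℂ) (x y : ℂ) (m s : ℕ) (z : ℍ) :
    phiAux (G + G') x y m s z = phiAux G x y m s z + phiAux G' x y m s z := by
  induction m generalizing s with
  | zero => simp [phiAux]
  | succ m ih => simp only [phiAux, ih, Pi.add_apply]; ring

theorem phiAux_smul (c : ℂ) (G : ℕ → ℍ → ℂ) (x y : ℂ) (m s : ℕ) (z : ℍ) :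
    phiAux (c • G) x y m s z = c * phiAux G x y m s z := by
  induction m generalizing s with
  | zero => simp [phiAux]
  | succ m ih => simp only [phiAux, ih, Pi.smul_apply, smul_eq_mul]; ring

theorem Phi_add {g g' : ℍ → ℂ} (hg : HasTower g) (hg' : HasTower g') (m : ℕ) (v : ℂ × ℂ) (z : ℍ) :
    Phi m (g + g') v z = Phi m g v z + Phi m g' v z := by
  rw [Phi, tower_add hg hg', phiAux_add]; rfl

theorem Phi_smul {g : ℍ → ℂ} (hg : HasTower g) (c : ℂ) (m : ℕ) (v : ℂ × ℂ) (z : ℍ) :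
    Phi m (c • g) v z = c * Phi m g v z := by
  rw [Phi, tower_smul c hg, phiAux_smul]; rfl

theorem per_add {g g' : ℍ → ℂ} (m : ℕ) {β : GL (Fin 2) ℝ} (hg : HasTower g) (hg' : HasTower g')
    (hgβ : HasTower (g ∣[(m : ℤ) + 2] β)) (hgβ' : HasTower (g' ∣[(m : ℤ) + 2] β)) (v : ℂ × ℂ) :
    per m (g + g') β v = per m g β v + per m g' β v := by
  rw [per, per, per, SlashAction.add_slash, Phi_add hg hg', Phi_add hgβ hgβ']
  ring

theorem per_smul {g : ℍ → ℂ} (m : ℕ) {β : GL (Fin 2) ℝ} (hg : HasTower g)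
    (hgβ : HasTower (g ∣[(m : ℤ) + 2] β)) (hβ : 0 < β.det.val) (c : ℂ) (v : ℂ × ℂ) :
    per m (c • g) β v = c * per m g β v := by
  have : (c • g) ∣[(m : ℤ) + 2] β = c • (g ∣[(m : ℤ) + 2] β) := by
    rw [ModularForm.smul_slash, σ, if_pos hβ]; rfl
  rw [per, per, this, Phi_smul hg, Phi_smul hgβ]
  ring

theorem per_sum {ι : Type*} (s : Finset ι) (g : ι → ℍ → ℂ) (m : ℕ) {β : GL (Fin 2) ℝ}
    (hg : ∀ i ∈ s, HasTower (g i)) (hgβ : ∀ i ∈ s, HasTower (g i ∣[(m : ℤ) + 2] β)) (v : ℂ × ℂ) :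
    per m (∑ i ∈ s, g i) β v = ∑ i ∈ s, per m (g i) β v := by
  classical
  induction s using Finset.induction_on with
  | empty =>
    simp only [Finset.sum_empty, per, SlashAction.zero_slash, Phi, tower_zero_fun]
    have : ∀ (x y : ℂ) (z : ℍ), phiAux 0 x y m 0 z = 0 := fun x y z => by
      have := phiAux_smul 0 0 x y m 0 z
      simpa using this
    rw [this, this, sub_zero]
  | insert a s ha ih =>
    have h1 : HasTower (∑ i ∈ s, g i) := hasTower_sum s g fun i hi => hg i (Finset.mem_insert_of_mem hi)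
    have h2 : HasTower ((∑ i ∈ s, g i) ∣[(m : ℤ) + 2] β) := by
      have : (∑ i ∈ s, g i) ∣[(m : ℤ) + 2] β = ∑ i ∈ s, (g i ∣[(m : ℤ) + 2] β) := by
        simp
      rw [this]
      exact hasTower_sum s _ fun i hi => hgβ i (Finset.mem_insert_of_mem hi)
    rw [Finset.sum_insert ha, Finset.sum_insert ha,
      per_add m (hg a (Finset.mem_insert_self _ _)) h1 (hgβ a (Finset.mem_insert_self _ _)) h2,
      ih (fun i hi => hg i (Finset.mem_insert_of_mem hi))
        (fun i hi => hgβ i (Finset.mem_insert_of_mem hi))]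


end Fermat.Agent.S22.Sym
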